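/-
GATE-C / C4 leaf (GB) (helper72): MACKEY decomposition of a coinduced representation restricted
to a subgroup.  Pure group theory, Mathlib only.

`G` a group, `φ : D →* G` an INJECTIVE homomorphism (e.g. a decomposition homomorphism, or
`D.subtype`), `H ≤ G`, `A : Rep k D`.  `Rep.coind φ A` is the module of functions
`f : G → A` with `f (φ d * g) = d • f g`, `G` acting by right translation.  For `s : G` put
`conjSub φ H s = {h ∈ H | s * h * s⁻¹ ∈ φ.range}` (`= H ∩ s⁻¹ φ(D) s`, as a subgroup of `H`),
`conjHom φ hφ H s : conjSub φ H s →* D`, `h ↦ φ⁻¹ (s * h * s⁻¹)`, and let `twist φ hφ H A s` be `A`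
with `conjSub φ H s` acting through `conjHom`.
Restricting `f` to the double coset `φ(D) s H` gives the `H`-equivariant map
`comp φ hφ H A s : Res_H (coind_D^G A) ⟶ coind_{conjSub s}^H (twist s)`, `f ↦ (h ↦ f (s * h))`,
and the product of these maps over a set of representatives of `φ(D) \ G / H` is bijective.
-/
import Mathlib

set_option autoImplicit false

open CategoryTheory

universe u v w

namespace Fermat.Agent.GC.Global.Mackey

/-! ### Generalities: `Hⁿ(G, -)` is additive; finite products of representations -/

section Additive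

variable (k G : Type u) [CommRing k] [Group G]

instance functor_additive (n : ℕ) : (groupCohomology.functor k G n).Additive where
  map_add {A B f g} := by
    show groupCohomology.map (MonoidHom.id G) (f + g) n =
      groupCohomology.map (MonoidHom.id G) f n + groupCohomology.map (MonoidHom.id G) g n
    have h : groupCohomology.cochainsMap (MonoidHom.id G) (f + g) =
        groupCohomology.cochainsMap (MonoidHom.id G) f +
          groupCohomology.cochainsMap (MonoidHom.id G) g :=
      (groupCohomology.cochainsFunctor k G).map_add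
    rw [groupCohomology.map, h, HomologicalComplex.homologyMap_add]
    rfl

end Additive

section Pi

variable {k G : Type u} [CommRing k] [Group G] {ι : Type u} (M : ι → Rep.{u} k G)

/-- The product of a family of representations (componentwise action). -/
noncomputable def piRepn : Representation k G (∀ i, M i) where
  toFun g := LinearMap.pi fun i => (M i).ρ g ∘ₗ LinearMap.proj i
  map_one' := by ext; simp
  map_mul' g h := by ext; simp

@[simp] lemma piRepn_apply (g : G) (x : ∀ i, M i) (i : ι) :
    piRepn M g x i = (M i).ρ g (x i) := rfl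

/-- The product of a family of representations, as an object of `Rep k G`. -/
noncomputable abbrev piRep : Rep.{u} k G := Rep.of (piRepn M)

/-- The projections of the product. -/
noncomputable def piProj (i : ι) : piRep M ⟶ M i :=
  Rep.ofHom (σ := (M i).ρ) ⟨LinearMap.proj i, fun g => by ext; rfl⟩

@[simp] lemma piProj_hom_apply (i : ι) (x : ∀ i, M i) : (piProj M i).hom x = x i := rfl

/-- The injections of the product (for a decidable index type). -/
noncomputable def piInj [DecidableEq ι] (i : ι) : M i ⟶ piRep M :=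
  Rep.ofHom (ρ := (M i).ρ) ⟨LinearMap.single k (fun i => (M i).V) i, fun g => by
    ext x j
    by_cases h : j = i
    · subst h; simp
    · simp [Pi.single_eq_of_ne h]⟩

@[simp] lemma piInj_hom_apply [DecidableEq ι] (i : ι) (x : M i) :
    (piInj M i).hom x = Pi.single i x := rfl

lemma piInj_piProj_self [DecidableEq ι] (i : ι) : piInj M i ≫ piProj M i = 𝟙 _ := by
  ext x
  show (Pi.single i x : ∀ i, M i) i = x
  simp

lemma piInj_piProj_of_ne [DecidableEq ι] {i j : ι} (h : i ≠ j) : piInj M i ≫ piProj M j = 0 := by
  ext x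
  show (Pi.single i x : ∀ i, M i) j = 0
  simp [Pi.single_eq_of_ne' h]

lemma hom_sum {A B : Rep.{u} k G} {J : Type*} (s : Finset J) (f : J → (A ⟶ B)) (x : A) :
    (∑ j ∈ s, f j).hom x = ∑ j ∈ s, (f j).hom x := by
  classical
  induction s using Finset.induction_on with
  | empty => simp
  | insert a s ha ih =>
    rw [Finset.sum_insert ha, Finset.sum_insert ha, ← ih]
    rfl

lemma sum_piProj_piInj [DecidableEq ι] [Fintype ι] :
    ∑ i, piProj M i ≫ piInj M i = 𝟙 (piRep M) := by
  refine Rep.hom_ext (Representation.IntertwiningMap.ext (LinearMap.ext fun x => ?_))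
  show (∑ i, piProj M i ≫ piInj M i).hom x = x
  rw [hom_sum]
  funext j
  show (∑ i, (Pi.single i (x i) : ∀ i, M i)) j = x j
  rw [Finset.sum_apply]
  simp

end Pi

section AdditiveDecomp

variable {k : Type u} [CommRing k] {C : Type v} [Category.{w} C] [Preadditive C]
  (F : C ⥤ ModuleCat.{u} k) [F.Additive]
  {ι : Type u} [Fintype ι] [DecidableEq ι] {X : C} {M : ι → C}
  (π : ∀ i, X ⟶ M i) (σ : ∀ i, M i ⟶ X)
  (hself : ∀ i, σ i ≫ π i = 𝟙 _) (hne : ∀ i j, i ≠ j → σ i ≫ π j = 0)
  (htot : ∑ i, π i ≫ σ i = 𝟙 X)

include hself hne htot in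
/-- An additive functor to `ModuleCat k` turns a finite biproduct decomposition into a product
decomposition: `F(X) ≃ ∏ F(M i)`, `x ↦ (F(π i) x)_i`. -/
noncomputable def additiveDecomp : F.obj X ≃ₗ[k] ∀ i, F.obj (M i) where
  toFun x i := (F.map (π i)).hom x
  map_add' x y := by funext i; simp
  map_smul' c x := by funext i; simp
  invFun y := ∑ i, (F.map (σ i)).hom (y i)
  left_inv x := by
    have h : (F.map (∑ i, π i ≫ σ i)).hom x = x := by rw [htot]; simp
    rw [F.map_sum] at h
    simpa [ModuleCat.hom_sum, LinearMap.sum_apply] using h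
  right_inv y := by
    funext j
    show (F.map (π j)).hom (∑ i, (F.map (σ i)).hom (y i)) = y j
    rw [map_sum]
    have : ∀ i, (F.map (π j)).hom ((F.map (σ i)).hom (y i)) = if i = j then y j else 0 := by
      intro i
      have h1 : (F.map (π j)).hom ((F.map (σ i)).hom (y i)) = (F.map (σ i ≫ π j)).hom (y i) := by
        rw [F.map_comp]; rfl
      rw [h1]
      by_cases h : i = j
      · subst h
        rw [hself]; simp
      · rw [hne i j h]; simp [h]
    simp [this]

end AdditiveDecomp

/-! ### The Mackey decomposition -/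

variable {k G D : Type u} [CommRing k] [Group G] [Group D]
  (φ : D →* G) (hφ : Function.Injective φ) (H : Subgroup G) (A : Rep.{u} k D)

/-- `H ∩ s⁻¹ φ(D) s`, as a subgroup of `H`. -/
def conjSub (s : G) : Subgroup H :=
  (φ.range.comap (MulAut.conj s).toMonoidHom).subgroupOf H

variable {φ H} in
lemma mem_conjSub {s : G} {h : H} : h ∈ conjSub φ H s ↔ s * (h : G) * s⁻¹ ∈ φ.range := by
  simp [conjSub, Subgroup.mem_subgroupOf, MulAut.conj_apply]

/-- The underlying function of `conjHom`. -/
noncomputable def conjFun (s : G) (h : conjSub φ H s) : D := (mem_conjSub.1 h.2).choose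

@[simp] lemma apply_conjFun (s : G) (h : conjSub φ H s) :
    φ (conjFun φ H s h) = s * ((h : H) : G) * s⁻¹ := (mem_conjSub.1 h.2).choose_spec

/-- The homomorphism `conjSub φ H s → D`, `h ↦ φ⁻¹ (s * h * s⁻¹)`. -/
noncomputable def conjHom (s : G) : conjSub φ H s →* D where
  toFun := conjFun φ H s
  map_one' := hφ (by simp)
  map_mul' a b := hφ (by simp [mul_assoc])

@[simp] lemma apply_conjHom (s : G) (h : conjSub φ H s) :
    φ (conjHom φ hφ H s h) = s * ((h : H) : G) * s⁻¹ := apply_conjFun φ H s h

/-- `A` twisted by `s`: a representation of `conjSub φ H s`. -/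
noncomputable abbrev twist (s : G) : Rep k (conjSub φ H s) := Rep.res (conjHom φ hφ H s) A

/-- The local factor of the Mackey decomposition at `s`. -/
noncomputable abbrev localRep (s : G) : Rep k H :=
  Rep.coind (conjSub φ H s).subtype (twist φ hφ H A s)

/-- The underlying linear map of the component map. -/
noncomputable def compLin (s : G) :
    (Representation.coindV φ A.ρ) →ₗ[k]
      (Representation.coindV (conjSub φ H s).subtype (twist φ hφ H A s).ρ) where
  toFun f := ⟨fun h => f.1 (s * (h : G)), by
    intro h₀ h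
    have := f.2 (conjHom φ hφ H s h₀) (s * (h : G))
    simp only [apply_conjHom] at this
    show f.1 (s * (((h₀ : H) : G) * (h : G))) = A.ρ (conjHom φ hφ H s h₀) (f.1 (s * (h : G)))
    rw [← this]
    group⟩
  map_add' f g := by ext; rfl
  map_smul' c f := by ext; rfl

@[simp] lemma compLin_apply (s : G) (f : Representation.coindV φ A.ρ) (h : H) :
    (compLin φ hφ H A s f).1 h = f.1 (s * (h : G)) := rfl

/-- The component map `Res_H (coind_D^G A) ⟶ coind_{conjSub s}^H (twist s)`, `f ↦ (h ↦ f (s * h))`. -/
noncomputable def comp (s : G) :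
    Rep.res H.subtype (Rep.coind φ A) ⟶ localRep φ hφ H A s :=
  Rep.ofHom ⟨compLin φ hφ H A s, fun h' => by
    ext f h
    show f.1 (s * (h : G) * (h' : G)) = f.1 (s * ((h : G) * (h' : G)))
    rw [mul_assoc]⟩

@[simp] lemma comp_hom_apply (s : G) (f : Representation.coindV φ A.ρ) (h : H) :
    ((comp φ hφ H A s).hom f).1 h = f.1 (s * (h : G)) := rfl

section Decomposition

/-- The index set of the Mackey decomposition: double cosets `φ(D) \ G / H`. -/
abbrev DC : Type u := DoubleCoset.Quotient (φ.range : Set G) (H : Set G)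

variable {φ H} in
/-- The chosen representative of a double coset. -/
noncomputable def rep (q : DC φ H) : G :=
  Quotient.out (s := DoubleCoset.setoid (φ.range : Set G) (H : Set G)) q

/-- The double coset of an element. -/
abbrev dc (g : G) : DC φ H := DoubleCoset.mk φ.range H g

@[simp] lemma dc_rep (q : DC φ H) : dc φ H (rep q) = q :=
  DoubleCoset.out_eq' φ.range H q

/-- A chosen decomposition `g = φ d * rep q * h` with `q` the double coset of `g`. -/
lemma exists_decomp (g : G) : ∃ (d : D) (h : H),
    g = φ d * rep (dc φ H g) * (h : G) := by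
  obtain ⟨a, b, ⟨d, rfl⟩, hb, hab⟩ := DoubleCoset.mk_out_eq_mul φ.range H g
  refine ⟨d⁻¹, ⟨b⁻¹, H.inv_mem hb⟩, ?_⟩
  show g = φ d⁻¹ * rep (dc φ H g) * b⁻¹
  have : rep (dc φ H g) = φ d * g * b := hab
  rw [this]
  simp [mul_assoc]

/-- The `D`-part of the chosen decomposition. -/
noncomputable def dpart (g : G) : D := (exists_decomp φ H g).choose

/-- The `H`-part of the chosen decomposition. -/
noncomputable def hpart (g : G) : H := (exists_decomp φ H g).choose_spec.choose

lemma decomp_spec (g : G) :
    g = φ (dpart φ H g) * rep (dc φ H g) * (hpart φ H g : G) :=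
  (exists_decomp φ H g).choose_spec.choose_spec

variable {φ H A} in
/-- Well-definedness: the value `d • F h` only depends on `φ d * s * h`. -/
lemma smul_eq_of_mul_eq {s : G}
    (F : Representation.coindV (conjSub φ H s).subtype (twist φ hφ H A s).ρ)
    {d d' : D} {h h' : H} (e : φ d * s * (h : G) = φ d' * s * (h' : G)) :
    A.ρ d (F.1 h) = A.ρ d' (F.1 h') := by
  have e' : s * (h' : G) = (φ d')⁻¹ * φ d * s * (h : G) := by
    have := congrArg (fun x => (φ d')⁻¹ * x) e
    simpa [mul_assoc] using this.symm
  have hmem : h' * h⁻¹ ∈ conjSub φ H s := by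
    rw [mem_conjSub]
    refine ⟨d'⁻¹ * d, ?_⟩
    push_cast
    rw [← mul_assoc s, e', map_mul, map_inv]
    group
  have hconj : conjHom φ hφ H s ⟨h' * h⁻¹, hmem⟩ = d'⁻¹ * d := by
    apply hφ
    rw [apply_conjHom]
    push_cast
    rw [← mul_assoc s, e', map_mul, map_inv]
    group
  have hF : F.1 h' = A.ρ (d'⁻¹ * d) (F.1 h) := by
    have := F.2 ⟨h' * h⁻¹, hmem⟩ h
    simp only [Subgroup.coe_subtype, inv_mul_cancel_right] at this
    rw [this]
    show A.ρ (conjHom φ hφ H s ⟨h' * h⁻¹, hmem⟩) (F.1 h) = _
    rw [hconj]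
  rw [hF, ← Module.End.mul_apply, ← map_mul, mul_inv_cancel_left]

/-- The double coset of `φ d * g` is the double coset of `g`. -/
lemma dc_mul_left (d : D) (g : G) : dc φ H (φ d * g) = dc φ H g := by
  rw [eq_comm, DoubleCoset.eq]
  exact ⟨φ d, ⟨d, rfl⟩, 1, H.one_mem, by simp⟩

/-- The double coset of `g * h` is the double coset of `g`. -/
lemma dc_mul_right (g : G) (h : H) : dc φ H (g * (h : G)) = dc φ H g := by
  rw [eq_comm, DoubleCoset.eq]
  exact ⟨1, one_mem _, h, h.2, by simp⟩

/-- A family of local sections, one for every double coset. -/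
abbrev LocalFamily : Type u :=
  ∀ q : DC φ H, Representation.coindV (conjSub φ H (rep q)).subtype (twist φ hφ H A (rep q)).ρ

/-- The value of the glued function at `g`. -/
noncomputable def glueFun (F : LocalFamily φ hφ H A) (g : G) : A :=
  A.ρ (dpart φ H g) ((F (dc φ H g)).1 (hpart φ H g))

/-- The value of the glued function can be computed with ANY decomposition `g = φ d * rep q * h`. -/
lemma glueFun_eq (F : LocalFamily φ hφ H A) (q : DC φ H) (g : G) (hq : dc φ H g = q)
    (d : D) (h : H) (e : g = φ d * rep q * (h : G)) :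
    glueFun φ hφ H A F g = A.ρ d ((F q).1 h) := by
  subst hq
  exact smul_eq_of_mul_eq hφ (F _) ((decomp_spec φ H g).symm.trans e)

/-- Gluing: a family of local sections defines a global element of the coinduced module. -/
noncomputable def glue (F : LocalFamily φ hφ H A) : Representation.coindV φ A.ρ :=
  ⟨glueFun φ hφ H A F, by
    intro d g
    rw [glueFun_eq φ hφ H A F (dc φ H g) (φ d * g) (dc_mul_left φ H d g)
      (d * dpart φ H g) (hpart φ H g)
      (by rw [map_mul, mul_assoc, mul_assoc, ← mul_assoc (φ (dpart φ H g)), ← decomp_spec]),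
      map_mul]
    rfl⟩

lemma glue_apply (F : LocalFamily φ hφ H A) (g : G) :
    (glue φ hφ H A F).1 g = A.ρ (dpart φ H g) ((F (dc φ H g)).1 (hpart φ H g)) := rfl

lemma compLin_glue (F : LocalFamily φ hφ H A) (q : DC φ H) :
    compLin φ hφ H A (rep q) (glue φ hφ H A F) = F q := by
  ext h
  rw [compLin_apply]
  show glueFun φ hφ H A F (rep q * (h : G)) = _
  rw [glueFun_eq φ hφ H A F q (rep q * (h : G)) (by rw [dc_mul_right, dc_rep]) 1 h (by simp)]
  simp

lemma eq_zero_of_compLin_eq_zero (f : Representation.coindV φ A.ρ)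
    (hf : ∀ q : DC φ H, compLin φ hφ H A (rep q) f = 0) : f = 0 := by
  ext g
  have e := decomp_spec φ H g
  have h1 := f.2 (dpart φ H g) (rep (dc φ H g) * (hpart φ H g : G))
  rw [← mul_assoc, ← e] at h1
  rw [h1]
  have h2 : (compLin φ hφ H A (rep (dc φ H g)) f).1 (hpart φ H g) = 0 := by
    rw [hf]; rfl
  rw [compLin_apply] at h2
  rw [h2]
  simp

/-- The product of the component maps, as a linear map. -/
noncomputable def mackeyLin :
    Representation.coindV φ A.ρ →ₗ[k] LocalFamily φ hφ H A :=
  LinearMap.pi fun q => compLin φ hφ H A (rep q)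

@[simp] lemma mackeyLin_apply (f : Representation.coindV φ A.ρ) (q : DC φ H) :
    mackeyLin φ hφ H A f q = compLin φ hφ H A (rep q) f := rfl

lemma mackeyLin_injective : Function.Injective (mackeyLin φ hφ H A) := by
  rw [injective_iff_map_eq_zero]
  intro f hf
  exact eq_zero_of_compLin_eq_zero φ hφ H A f fun q => congrFun hf q

lemma mackeyLin_glue (F : LocalFamily φ hφ H A) : mackeyLin φ hφ H A (glue φ hφ H A F) = F :=
  funext fun q => compLin_glue φ hφ H A F q

lemma mackeyLin_surjective : Function.Surjective (mackeyLin φ hφ H A) :=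
  fun F => ⟨glue φ hφ H A F, mackeyLin_glue φ hφ H A F⟩

end Decomposition

/-- **Mackey decomposition** (linear form): the product of the component maps over the double
cosets `φ(D) \ G / H` (representatives `rep q`) is a `k`-linear equivalence. -/
noncomputable def mackeyLinearEquiv :
    Representation.coindV φ A.ρ ≃ₗ[k] LocalFamily φ hφ H A :=
  LinearEquiv.ofBijective (mackeyLin φ hφ H A)
    ⟨mackeyLin_injective φ hφ H A, mackeyLin_surjective φ hφ H A⟩

@[simp] lemma mackeyLinearEquiv_apply (f : Representation.coindV φ A.ρ)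
    (q : DC φ H) (h : H) :
    (mackeyLinearEquiv φ hφ H A f q).1 h = f.1 (rep q * (h : G)) := rfl

lemma mackeyLinearEquiv_symm_apply (F : LocalFamily φ hφ H A) :
    (mackeyLinearEquiv φ hφ H A).symm F = glue φ hφ H A F := by
  apply (mackeyLinearEquiv φ hφ H A).injective
  rw [LinearEquiv.apply_symm_apply]
  exact (mackeyLin_glue φ hφ H A F).symm

/-- `mackeyLinearEquiv` is `H`-equivariant (right translation on every factor). -/
lemma mackeyLinearEquiv_equivariant (h' : H) (f : Representation.coindV φ A.ρ)
    (q : DC φ H) :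
    mackeyLinearEquiv φ hφ H A ((Rep.coind φ A).ρ (h' : G) f) q =
      (localRep φ hφ H A (rep q)).ρ h' (mackeyLinearEquiv φ hφ H A f q) := by
  ext h
  show f.1 (rep q * (h : G) * (h' : G)) = f.1 (rep q * ((h : G) * (h' : G)))
  rw [mul_assoc]


/-- **Mackey decomposition** in `Rep k H`:
`Res_H (coind_φ A) ≅ ∏_{q ∈ φ(D) \ G / H} coind_{conjSub (rep q)}^H (twist (rep q))`. -/
noncomputable def mackeyIso :
    Rep.res H.subtype (Rep.coind φ A) ≅
      piRep (fun q : DC φ H => localRep φ hφ H A (rep q)) :=
  Rep.mkIso (Representation.Equiv.mk (mackeyLinearEquiv φ hφ H A) fun h' => by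
    ext f q h
    show f.1 (rep q * (h : G) * (h' : G)) = f.1 (rep q * ((h : G) * (h' : G)))
    rw [mul_assoc])

@[simp] lemma mackeyIso_hom_apply (f : Representation.coindV φ A.ρ) (q : DC φ H) (h : H) :
    ((mackeyIso φ hφ H A).hom.hom f q).1 h = f.1 (rep q * (h : G)) := rfl

lemma mackeyIso_hom_piProj (q : DC φ H) :
    (mackeyIso φ hφ H A).hom ≫ piProj _ q = comp φ hφ H A (rep q) := rfl

section Cohomology

variable [Finite (DC φ H)] (n : ℕ)

open Classical in
/-- The cohomology of a finite product of representations is the product of the cohomologies. -/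
noncomputable def cohomologyPiEquiv {ι : Type u} [Finite ι] {G' : Type u} [Group G']
    (M : ι → Rep.{u} k G') :
    groupCohomology (piRep M) n ≃ₗ[k] ∀ i, groupCohomology (M i) n :=
  haveI := Fintype.ofFinite ι
  additiveDecomp (groupCohomology.functor k G' n) (piProj M) (piInj M)
    (piInj_piProj_self M) (fun _ _ h => piInj_piProj_of_ne M h) (sum_piProj_piInj M)

lemma cohomologyPiEquiv_apply {ι : Type u} [Finite ι] {G' : Type u} [Group G']
    (M : ι → Rep.{u} k G') (x : groupCohomology (piRep M) n) (i : ι) :
    cohomologyPiEquiv n M x i = (groupCohomology.map (MonoidHom.id G') (piProj M i) n).hom x :=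
  rfl

/-- **Mackey + Shapiro**: for `φ(D) \ G / H` finite,
`Hⁿ(H, Res_H coind_φ A) ≃ ∏_{q} Hⁿ(conjSub φ H (rep q), twist (rep q))`. -/
noncomputable def mackeyCohomologyEquiv :
    groupCohomology (Rep.res H.subtype (Rep.coind φ A)) n ≃ₗ[k]
      ∀ q : DC φ H, groupCohomology (twist φ hφ H A (rep q)) n :=
  (((groupCohomology.functor k H n).mapIso (mackeyIso φ hφ H A)).toLinearEquiv.trans
    (cohomologyPiEquiv n fun q : DC φ H => localRep φ hφ H A (rep q))).trans
    (LinearEquiv.piCongrRight fun q =>
      (groupCohomology.coindIso (twist φ hφ H A (rep q)) n).toLinearEquiv)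

end Cohomology

end Fermat.Agent.GC.Global.Mackey
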