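import Mathlib
import Fermat.Agent.GC.Tate.Cor

/-!
# GATE-C / C4 (GD) : abstract devissage for class-formation axioms

Mathlib `groupCohomology`, coefficients `Rep.{u} k Q` (`k Q : Type u`; take `k = ℤ`, `u = 0`).

A *class of pairs* is a predicate `𝒞 : ∀ (Q : Type u) [Group Q], Rep k Q → Prop` which is closed
under restriction to subgroups and under passing to `(Q ⧸ N, B^N)` (`IsLayerClass`).
`Good B` says: `H¹(Q, B) = 0` and `H²(Q, B)` is finite of order dividing `|Q|`.

* `good_of_normal` : one step (`N ◁ Q`, `(N, Res B)` and `(Q ⧸ N, B^N)` good ⟹ `(Q, B)` good);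
* `pGroup_devissage` : if all pairs of the class with `|Q| = p` are good, so are all pairs with
  `Q` a `p`-group;
* `devissage_primary` : ... and for every pair of the class `H¹(Q, B)` has no `p`-torsion and the
  `p`-primary part of `H²(Q, B)` is finite of order dividing `p ^ v_p(|Q|)`;
* `Good.of_mulEquiv` : transport of `Good` along an isomorphism of pairs.

The two inputs not yet on main enter as explicit hypotheses, in the shapes posted by their owners:
`InfRes2 k` (degree-2 inflation–restriction when `H¹(S, A) = 0`, helper1, board 1413) and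
`ResKer k` (a class killed by restriction to `S` is killed by `[G : S]`, helper52, board 1407).
-/

namespace Fermat.Agent.GC.Global.Devissage

open CategoryTheory groupCohomology Rep

universe u

/-- Counting in an exact sequence `X₁ → X₂ → X₃`. -/
lemma finite_and_card_dvd_of_exact {X₁ X₂ X₃ : Type*} [AddCommGroup X₁] [AddCommGroup X₂]
    [AddCommGroup X₃] [Finite X₁] [Finite X₃] (f : X₁ →+ X₂) (g : X₂ →+ X₃)
    (hfg : ∀ x, g x = 0 → ∃ y, f y = x) :
    Finite X₂ ∧ Nat.card X₂ ∣ Nat.card X₁ * Nat.card X₃ := by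
  have hker : g.ker ≤ f.range := fun x hx => hfg x hx
  have hfin_ker : Finite g.ker := by
    have : Finite f.range := Finite.of_surjective f.rangeRestrict f.rangeRestrict_surjective
    exact Finite.of_injective (fun x : g.ker => (⟨x.1, hker x.2⟩ : f.range))
      (fun a b h => Subtype.ext (by simpa using congrArg Subtype.val h))
  have e : (X₂ ⧸ g.ker) ≃+ g.range := QuotientAddGroup.quotientKerEquivRange g
  have hfin_q : Finite (X₂ ⧸ g.ker) := Finite.of_equiv _ e.symm.toEquiv
  have hfin : Finite X₂ := by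
    have h0 : Nat.card X₂ = Nat.card (X₂ ⧸ g.ker) * Nat.card g.ker :=
      AddSubgroup.card_eq_card_quotient_mul_card_addSubgroup g.ker
    have h1 : Nat.card (X₂ ⧸ g.ker) ≠ 0 := Nat.card_pos.ne'
    have h2 : Nat.card g.ker ≠ 0 := Nat.card_pos.ne'
    exact Nat.finite_of_card_ne_zero (by rw [h0]; exact mul_ne_zero h1 h2)
  refine ⟨hfin, ?_⟩
  rw [AddSubgroup.card_eq_card_quotient_mul_card_addSubgroup g.ker, mul_comm]
  apply Nat.mul_dvd_mul
  · have h1 : Nat.card g.ker ∣ Nat.card f.range := AddSubgroup.card_dvd_of_le hker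
    have h2 : Nat.card f.range ∣ Nat.card X₁ := by
      have e' : (X₁ ⧸ f.ker) ≃+ f.range := QuotientAddGroup.quotientKerEquivRange f
      rw [← Nat.card_congr e'.toEquiv,
        AddSubgroup.card_eq_card_quotient_mul_card_addSubgroup f.ker]
      exact dvd_mul_right _ _
    exact h1.trans h2
  · rw [Nat.card_congr e.toEquiv]
    exact AddSubgroup.card_addSubgroup_dvd_card g.range

variable {k : Type u} [CommRing k]

/-- Inflation `Hⁿ(G ⧸ S, A^S) ⟶ Hⁿ(G, A)`. -/
noncomputable abbrev infl {G : Type u} [Group G] (A : Rep.{u} k G) (S : Subgroup G)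
    [S.Normal] (n : ℕ) :
    groupCohomology (A.quotientToInvariants S) n ⟶ groupCohomology A n :=
  map (QuotientGroup.mk' S) (ofHom (A.ρ.quotientToInvariants_lift S)) n

/-- Restriction `Hⁿ(G, A) ⟶ Hⁿ(S, A)`. -/
noncomputable abbrev rest {G : Type u} [Group G] (A : Rep.{u} k G) (S : Subgroup G)
    (n : ℕ) : groupCohomology A n ⟶ groupCohomology (res S.subtype A) n :=
  map S.subtype (𝟙 (res S.subtype A)) n

variable (k) in
/-- helper1's INFRES2 (board 1413), in elementwise form. -/
def InfRes2 : Prop :=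
  ∀ {G : Type u} [Group G] (A : Rep.{u} k G) (S : Subgroup G) [S.Normal],
    Limits.IsZero (groupCohomology (res S.subtype A) 1) →
      Function.Injective (infl A S 2) ∧
      ∀ x : groupCohomology A 2, rest A S 2 x = 0 → ∃ y, infl A S 2 y = x

/-- Closure properties of a class of pairs (finite group, module). -/
structure IsLayerClass (𝒞 : ∀ (Q : Type u) [Group Q], Rep.{u} k Q → Prop) : Prop where
  res : ∀ {Q : Type u} [Group Q] [Finite Q] (B : Rep.{u} k Q) (S : Subgroup Q),
    𝒞 Q B → 𝒞 S (Rep.res S.subtype B)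
  quot : ∀ {Q : Type u} [Group Q] [Finite Q] (B : Rep.{u} k Q) (N : Subgroup Q) [N.Normal],
    𝒞 Q B → 𝒞 (Q ⧸ N) (B.quotientToInvariants N)

/-- The "class formation" conclusion for one pair: `H¹ = 0`, `H²` finite of order dividing `|Q|`. -/
def Good {Q : Type u} [Group Q] (B : Rep.{u} k Q) : Prop :=
  Limits.IsZero (groupCohomology B 1) ∧ Finite (groupCohomology B 2) ∧
    Nat.card (groupCohomology B 2) ∣ Nat.card Q

lemma good_of_subsingleton {Q : Type u} [Group Q] [Subsingleton Q] (B : Rep.{u} k Q) : Good B := by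
  have h1 := isZero_groupCohomology_succ_of_subsingleton B 0
  have h2 := isZero_groupCohomology_succ_of_subsingleton B 1
  have : Subsingleton (groupCohomology B 2) := ModuleCat.isZero_iff_subsingleton.1 h2
  refine ⟨h1, inferInstance, ?_⟩
  rw [Nat.card_unique]
  exact one_dvd _

/-- `Good` is invariant under isomorphisms of pairs (Mathlib's `groupCohomology.mapIso`). -/
lemma Good.of_mulEquiv {Q Q' : Type u} [Group Q] [Group Q'] {B : Rep.{u} k Q} {B' : Rep.{u} k Q'}
    (e : Q ≃* Q') (e' : B.V ≃ₗ[k] B'.V) (he : ∀ g, e' ∘ₗ B.ρ g = B'.ρ (e g) ∘ₗ e')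
    (h : Good B') : Good B := by
  obtain ⟨h1, h2f, h2⟩ := h
  have i1 := groupCohomology.mapIso e e' he 1
  have i2 := groupCohomology.mapIso e e' he 2
  have e2 : groupCohomology B 2 ≃ groupCohomology B' 2 := i2.toLinearEquiv.toEquiv
  refine ⟨h1.of_iso i1, Finite.of_equiv _ e2.symm, ?_⟩
  rw [Nat.card_congr e2, Nat.card_congr e.toEquiv]
  exact h2

/-- One devissage step: `N ◁ Q`, the pair `(N, Res B)` and the pair `(Q/N, B^N)` are good, then
so is `(Q, B)`. -/
lemma good_of_normal (hIR : InfRes2 k) {Q : Type u} [Group Q] (B : Rep.{u} k Q)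
    (N : Subgroup Q) [N.Normal] (hN : Good (Rep.res N.subtype B))
    (hQ : Good (B.quotientToInvariants N)) : Good B := by
  obtain ⟨hN1, hN2f, hN2⟩ := hN
  obtain ⟨hQ1, hQ2f, hQ2⟩ := hQ
  have hsubN : Subsingleton (groupCohomology (Rep.res N.subtype B) 1) :=
    ModuleCat.isZero_iff_subsingleton.1 hN1
  have hsubQ : Subsingleton (groupCohomology (B.quotientToInvariants N) 1) :=
    ModuleCat.isZero_iff_subsingleton.1 hQ1
  refine ⟨?_, ?_⟩
  · -- H¹
    rw [ModuleCat.isZero_iff_subsingleton]
    refine ⟨fun x y => ?_⟩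
    suffices ∀ z : groupCohomology B 1, z = 0 by rw [this x, this y]
    intro z
    have hex := H1InfRes_exact B N
    rw [ShortComplex.moduleCat_exact_iff] at hex
    obtain ⟨w, hw⟩ := hex z (hsubN.elim _ _)
    have hw0 : w = 0 := hsubQ.elim _ _
    subst hw0
    rw [← hw]
    exact map_zero (H1InfRes B N).f.hom
  · obtain ⟨-, hex⟩ := hIR B N hN1
    have := finite_and_card_dvd_of_exact
      (infl B N 2).hom.toAddMonoidHom (rest B N 2).hom.toAddMonoidHom
      (fun x hx => hex x hx)
    refine ⟨this.1, this.2.trans ?_⟩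
    calc Nat.card (groupCohomology (B.quotientToInvariants N) 2) *
          Nat.card (groupCohomology (Rep.res N.subtype B) 2)
        ∣ Nat.card (Q ⧸ N) * Nat.card N := Nat.mul_dvd_mul hQ2 hN2
      _ = Nat.card Q := by
        rw [← Subgroup.index_eq_card, mul_comm, Subgroup.card_mul_index]


/-- **Devissage for `p`-groups.** If every pair of the class whose group has order `p` is good,
then every pair of the class whose group is a (finite) `p`-group is good. -/
theorem pGroup_devissage (hIR : InfRes2 k) (p : ℕ) [Fact p.Prime]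
    {𝒞 : ∀ (Q : Type u) [Group Q], Rep.{u} k Q → Prop} (h𝒞 : IsLayerClass 𝒞)
    (hcyc : ∀ {Q : Type u} [Group Q] [Finite Q] (B : Rep.{u} k Q),
      𝒞 Q B → Nat.card Q = p → Good B)
    {Q : Type u} [Group Q] [Finite Q] (B : Rep.{u} k Q) (hB : 𝒞 Q B) (hQ : IsPGroup p Q) :
    Good B := by
  suffices H : ∀ n : ℕ, ∀ {Q : Type u} [Group Q] [Finite Q] (B : Rep.{u} k Q),
      𝒞 Q B → IsPGroup p Q → Nat.card Q = n → Good B from H _ B hB hQ rfl
  intro n
  induction n using Nat.strong_induction_on with
  | _ n ih =>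
    intro Q _ _ B hB hQ hn
    by_cases h1 : Nat.card Q = 1
    · have : Subsingleton Q := (Nat.card_eq_one_iff_unique.1 h1).1
      exact good_of_subsingleton B
    · have hp : p.Prime := Fact.out
      obtain ⟨m, hm⟩ := hQ.exists_card_eq
      have hm0 : m ≠ 0 := by
        rintro rfl
        exact h1 (by simpa using hm)
      obtain ⟨m', rfl⟩ := Nat.exists_eq_succ_of_ne_zero hm0
      obtain ⟨N, hN⟩ := Sylow.exists_subgroup_card_pow_prime p (G := Q) (n := m')
        (by rw [hm]; exact pow_dvd_pow _ (Nat.le_succ _))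
      have hidx : N.index = p := by
        have h := N.card_mul_index
        rw [hN, hm, pow_succ] at h
        exact Nat.eq_of_mul_eq_mul_left (pow_pos hp.pos _) h
      have hnorm : N.Normal := Subgroup.normal_of_index_eq_minFac_card
        (by rw [hidx, hm, hp.pow_minFac (Nat.succ_ne_zero _)])
      have hlt : Nat.card N < n := by
        rw [← hn, hN, hm]
        exact Nat.pow_lt_pow_right hp.one_lt (Nat.lt_succ_self _)
      have hgN : Good (Rep.res N.subtype B) :=
        ih _ hlt (Rep.res N.subtype B) (h𝒞.res B N hB) (hQ.to_subgroup N) rfl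
      have hgQ : Good (B.quotientToInvariants N) :=
        hcyc _ (h𝒞.quot B N hB) (by rw [← Subgroup.index_eq_card, hidx])
      exact good_of_normal hIR B N hgN hgQ


/-- The `p`-primary part `{x | ∃ m, p ^ m • x = 0}` of an abelian group. -/
def primaryPart (p : ℕ) (M : Type*) [AddCommGroup M] : AddSubgroup M where
  carrier := {x | ∃ m : ℕ, p ^ m • x = 0}
  zero_mem' := ⟨0, by simp⟩
  add_mem' := by
    rintro x y ⟨a, ha⟩ ⟨b, hb⟩
    refine ⟨a + b, ?_⟩
    have h1 : p ^ (a + b) • x = 0 := by rw [pow_add, mul_comm, mul_smul, ha, smul_zero]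
    have h2 : p ^ (a + b) • y = 0 := by rw [pow_add, mul_smul, hb, smul_zero]
    rw [smul_add, h1, h2, add_zero]
  neg_mem' := by
    rintro x ⟨a, ha⟩
    exact ⟨a, by rw [smul_neg, ha, neg_zero]⟩

lemma mem_primaryPart {p : ℕ} {M : Type*} [AddCommGroup M] {x : M} :
    x ∈ primaryPart p M ↔ ∃ m : ℕ, p ^ m • x = 0 := Iff.rfl

variable (k) in
/-- helper52's announced true-restriction statement (board 1407, `GC/Tate/CorRes.lean`):
a class killed by restriction to a finite-index subgroup is killed by the index. -/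
def ResKer : Prop :=
  ∀ {G : Type u} [Group G] (S : Subgroup G) [S.FiniteIndex] (A : Rep.{u} k G) (n : ℕ)
    (x : groupCohomology A n), rest A S n x = 0 → S.index • x = 0

/-- `p`-primary Sylow injectivity, from `ResKer`. -/
lemma eq_zero_of_rest_sylow_eq_zero (hRK : ResKer k) (p : ℕ) [Fact p.Prime]
    {Q : Type u} [Group Q] [Finite Q] (P : Sylow p Q) (B : Rep.{u} k Q) (n : ℕ)
    (x : groupCohomology B n) (m : ℕ) (hx : p ^ m • x = 0)
    (hres : rest B (P : Subgroup Q) n x = 0) : x = 0 := by
  have h1 := hRK (P : Subgroup Q) B n x hres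
  have hcop : Nat.Coprime (p ^ m) (P : Subgroup Q).index :=
    Nat.Coprime.pow_left _ ((Nat.Prime.coprime_iff_not_dvd Fact.out).2 P.not_dvd_index)
  have h2 : (Nat.gcd (p ^ m) (P : Subgroup Q).index) • x = 0 := by
    have := addOrderOf_dvd_iff_nsmul_eq_zero.2 hx
    have h3 := addOrderOf_dvd_iff_nsmul_eq_zero.2 h1
    exact addOrderOf_dvd_iff_nsmul_eq_zero.1 (Nat.dvd_gcd this h3)
  rwa [hcop, one_smul] at h2

/-- **`p`-primary devissage.** If every pair of the class whose group has order `p` is good
(`H¹ = 0`, `|H²|` divides `p`), then for every pair `(Q, B)` of the class (any finite `Q`)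
`H¹(Q, B)` has no `p`-torsion and the `p`-primary part of `H²(Q, B)` is finite of order dividing
`|Q|_p`. -/
theorem devissage_primary (hIR : InfRes2 k) (hRK : ResKer k) (p : ℕ) [Fact p.Prime]
    {𝒞 : ∀ (Q : Type u) [Group Q], Rep.{u} k Q → Prop} (h𝒞 : IsLayerClass 𝒞)
    (hcyc : ∀ {Q : Type u} [Group Q] [Finite Q] (B : Rep.{u} k Q),
      𝒞 Q B → Nat.card Q = p → Good B)
    {Q : Type u} [Group Q] [Finite Q] (B : Rep.{u} k Q) (hB : 𝒞 Q B) :
    (∀ (x : groupCohomology B 1) (m : ℕ), p ^ m • x = 0 → x = 0) ∧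
      Finite (primaryPart p (groupCohomology B 2)) ∧
      Nat.card (primaryPart p (groupCohomology B 2)) ∣ p ^ (Nat.card Q).factorization p := by
  obtain ⟨P⟩ : Nonempty (Sylow p Q) := inferInstance
  obtain ⟨h1, h2f, h2⟩ := pGroup_devissage hIR p h𝒞 hcyc (Rep.res (P : Subgroup Q).subtype B)
    (h𝒞.res B _ hB) P.isPGroup'
  refine ⟨fun x m hx => ?_, ?_⟩
  · -- no `p`-torsion in `H¹`
    exact Fermat.Agent.GC.Tate.eq_zero_of_pow_nsmul_eq_zero_of_isZero_sylow p P B 1 h1 x m hx
  · -- the `p`-primary part of `H²` embeds into `H²(P, B)`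
    let r : primaryPart p (groupCohomology B 2) →+
        groupCohomology (Rep.res (P : Subgroup Q).subtype B) 2 :=
      (rest B (P : Subgroup Q) 2).hom.toAddMonoidHom.comp (primaryPart p _).subtype
    have hr : Function.Injective r := by
      rw [injective_iff_map_eq_zero]
      rintro ⟨x, m, hx⟩ hrx
      exact Subtype.ext (eq_zero_of_rest_sylow_eq_zero hRK p P B 2 x m hx hrx)
    have hfin : Finite (primaryPart p (groupCohomology B 2)) := Finite.of_injective r hr
    refine ⟨hfin, ?_⟩
    have hd : Nat.card (primaryPart p (groupCohomology B 2)) ∣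
        Nat.card (groupCohomology (Rep.res (P : Subgroup Q).subtype B) 2) := by
      rw [Nat.card_congr (AddMonoidHom.ofInjective hr).toEquiv]
      exact AddSubgroup.card_addSubgroup_dvd_card r.range
    exact hd.trans (h2.trans (by rw [P.card_eq_multiplicity]))

end Fermat.Agent.GC.Global.Devissage
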