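import Mathlib
import Fermat.Agent.GC.Tate.CorRes
import Fermat.Agent.GC.Global.Devissage

/-!
# GATE-C / C4 (GD) : instances of the hypotheses of `Devissage.lean`

* `resKer : ResKer k` from helper52's `GC/Tate/CorRes.lean`
  (`index_nsmul_eq_zero_of_res_eq_zero`);
* `devissage_primary'` : `devissage_primary` with `ResKer` discharged (only `InfRes2` remains a
  hypothesis, to be discharged from helper1's `GC/Tate/InfRes2.lean`).
-/

namespace Fermat.Agent.GC.Global.Devissage

open CategoryTheory groupCohomology Rep

universe u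

variable {k : Type u} [CommRing k]

/-- helper52's true-restriction theorem, in the `ResKer` shape. -/
theorem resKer : ResKer k := fun S _ A n x hx =>
  Fermat.Agent.GC.Tate.index_nsmul_eq_zero_of_res_eq_zero S A n x hx

/-- `devissage_primary` with the Sylow input discharged. -/
theorem devissage_primary' (hIR : InfRes2 k) (p : ℕ) [Fact p.Prime]
    {𝒞 : ∀ (Q : Type u) [Group Q], Rep.{u} k Q → Prop} (h𝒞 : IsLayerClass 𝒞)
    (hcyc : ∀ {Q : Type u} [Group Q] [Finite Q] (B : Rep.{u} k Q),
      𝒞 Q B → Nat.card Q = p → Good B)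
    {Q : Type u} [Group Q] [Finite Q] (B : Rep.{u} k Q) (hB : 𝒞 Q B) :
    (∀ (x : groupCohomology B 1) (m : ℕ), p ^ m • x = 0 → x = 0) ∧
      Finite (primaryPart p (groupCohomology B 2)) ∧
      Nat.card (primaryPart p (groupCohomology B 2)) ∣ p ^ (Nat.card Q).factorization p :=
  devissage_primary hIR resKer p h𝒞 hcyc B hB

end Fermat.Agent.GC.Global.Devissage
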