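/-
GATE-C / C4 (GD), concrete subgroup-layer form (helper97), on top of helper11's abstract core
`GC/Global/Devissage.lean` (`Good`, `good_of_normal`, `Good.of_mulEquiv`, `InfRes2`, `primaryPart`)
and `GC/Global/DevissageInst.lean` (`resKer`).

`G` a finite group, `p` a prime, `C : Rep k G` (take `k = ℤ`).  If for every subgroup `V ≤ G` and
every normal subgroup `U'` of `V` of index `p` the layer module `C^{U'}` (a `V/U'`-module)
satisfies `H¹(V/U', C^{U'}) = 0` and `|H²(V/U', C^{U'})| ∣ p` (`LayerHyp`), then

* `good_of_isPGroup` : for every `p`-subgroup `P ≤ G`: `H¹(P, C) = 0`, `H²(P, C)` finite of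
  order dividing `|P|`;
* `devissage_sub` : for every subgroup `H ≤ G`: `H¹(H, C)` has no `p`-torsion and the `p`-primary
  part of `H²(H, C)` is finite of order dividing `p ^ v_p(|H|)`.

The only remaining hypothesis is `InfRes2 k` (helper1's degree-2 inflation–restriction).
-/
import Mathlib
import Fermat.Agent.GC.Global.Devissage
import Fermat.Agent.GC.Global.DevissageInst

set_option autoImplicit false

open CategoryTheory groupCohomology Rep
open Fermat.Agent.GC.Global.Devissage

universe u

namespace Fermat.Agent.GC.Global.DevissageSub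

variable {k G : Type u} [CommRing k] [Group G]

/-- The layer hypothesis: for all `V ≤ G` and all normal `U' ≤ V` of index `p`, the `V/U'`-module
`C^{U'}` has `H¹ = 0` and `H²` finite of order dividing `p` (first and second inequality for the
degree-`p` layer `L^{U'} / L^V`). -/
def LayerHyp (p : ℕ) (C : Rep.{u} k G) : Prop :=
  ∀ (V : Subgroup G) (U' : Subgroup V) [U'.Normal], U'.index = p →
    Limits.IsZero (groupCohomology ((res V.subtype C).quotientToInvariants U') 1) ∧
    Finite (groupCohomology ((res V.subtype C).quotientToInvariants U') 2) ∧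
    Nat.card (groupCohomology ((res V.subtype C).quotientToInvariants U') 2) ∣ p

theorem LayerHyp.good {p : ℕ} {C : Rep.{u} k G} (hL : LayerHyp p C) (V : Subgroup G)
    (U' : Subgroup V) [U'.Normal] (h : U'.index = p) :
    Good ((res V.subtype C).quotientToInvariants U') := by
  obtain ⟨h1, h2, h3⟩ := hL V U' h
  refine ⟨h1, h2, ?_⟩
  have : Nat.card (V ⧸ U') = p := by rw [← h]; rfl
  rwa [this]

/-- For `U' ≤ P ≤ G`: the pair `(U', Res Res C)` is good as soon as the pair
`(U'.map P.subtype, Res C)` is. -/
theorem good_res_res (C : Rep.{u} k G) (P : Subgroup G) (U' : Subgroup P)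
    (h : Good (res (U'.map P.subtype).subtype C)) :
    Good (res U'.subtype (res P.subtype C)) :=
  Good.of_mulEquiv (U'.equivMapOfInjective P.subtype P.subtype_injective)
    (LinearEquiv.refl k C.V) (fun _ => rfl) h

/-- The transport isomorphism underlying `good_res_res`, degree by degree. -/
noncomputable def resResIso (C : Rep.{u} k G) (P : Subgroup G) (U' : Subgroup P) (m : ℕ) :
    groupCohomology (res U'.subtype (res P.subtype C)) m ≅
      groupCohomology (res (U'.map P.subtype).subtype C) m :=
  mapIso (U'.equivMapOfInjective P.subtype P.subtype_injective) (LinearEquiv.refl k C.V)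
    (fun _ => rfl) m

/-- **Devissage, `p`-group case**, by induction on the exponent. -/
theorem good_of_card_pow (p : ℕ) [Fact p.Prime] (hIR : InfRes2 k) (C : Rep.{u} k G)
    (hL : LayerHyp p C) :
    ∀ (n : ℕ) (P : Subgroup G), Nat.card P = p ^ n → Good (res P.subtype C) := by
  have hp : p.Prime := Fact.out
  intro n
  induction n with
  | zero =>
    intro P hP
    rw [pow_zero] at hP
    have hsub : Subsingleton P := (Nat.card_eq_one_iff_unique.mp hP).1
    exact good_of_subsingleton _
  | succ n ih =>
    intro P hP
    have : Finite P := Nat.finite_of_card_ne_zero (by rw [hP]; exact pow_ne_zero _ hp.ne_zero)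
    obtain ⟨U', hU'⟩ := Sylow.exists_subgroup_card_pow_prime (G := P) p (n := n)
      (by rw [hP]; exact pow_dvd_pow p (Nat.le_succ n))
    have hidx : U'.index = p := by
      have h1 := U'.card_mul_index
      rw [hU', hP, pow_succ] at h1
      exact Nat.eq_of_mul_eq_mul_left (pow_pos hp.pos n) h1
    have hminFac : (Nat.card P).minFac = p := by
      rw [hP, Nat.pow_minFac (Nat.succ_ne_zero n), hp.minFac_eq]
    have : U'.Normal := Subgroup.normal_of_index_eq_minFac_card (by rw [hidx, hminFac])
    have hUcard : Nat.card (U'.map P.subtype) = p ^ n := by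
      rw [← hU']
      exact (Nat.card_congr (U'.equivMapOfInjective P.subtype P.subtype_injective).toEquiv).symm
    exact good_of_normal hIR (res P.subtype C) U' (good_res_res C P U' (ih _ hUcard))
      (hL.good P U' hidx)

/-- **Devissage, `p`-subgroups**: `H¹(P, C) = 0`, `H²(P, C)` finite of order dividing `|P|`. -/
theorem good_of_isPGroup (p : ℕ) [Fact p.Prime] [Finite G] (hIR : InfRes2 k) (C : Rep.{u} k G)
    (hL : LayerHyp p C) (P : Subgroup G) (hP : IsPGroup p P) : Good (res P.subtype C) := by
  obtain ⟨n, hn⟩ := IsPGroup.iff_card.mp hP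
  exact good_of_card_pow p hIR C hL n P hn

/-- **Devissage, all subgroups**: for every `H ≤ G`, `H¹(H, C)` has no `p`-torsion and the
`p`-primary part of `H²(H, C)` is finite of order dividing `p ^ v_p(|H|)`. -/
theorem devissage_sub (p : ℕ) [Fact p.Prime] [Finite G] (hIR : InfRes2 k) (C : Rep.{u} k G)
    (hL : LayerHyp p C) (H : Subgroup G) :
    (∀ (x : groupCohomology (res H.subtype C) 1) (m : ℕ), p ^ m • x = 0 → x = 0) ∧
      Finite (primaryPart p (groupCohomology (res H.subtype C) 2)) ∧
      Nat.card (primaryPart p (groupCohomology (res H.subtype C) 2)) ∣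
        p ^ (Nat.card H).factorization p := by
  obtain ⟨P⟩ : Nonempty (Sylow p H) := inferInstance
  have hcard : Nat.card ((P : Subgroup H).map H.subtype) = p ^ (Nat.card H).factorization p := by
    rw [← P.card_eq_multiplicity]
    exact (Nat.card_congr
      ((P : Subgroup H).equivMapOfInjective H.subtype H.subtype_injective).toEquiv).symm
  obtain ⟨h1, hfin, hdvd⟩ := good_res_res C H (P : Subgroup H)
    (good_of_card_pow p hIR C hL _ _ hcard)
  have hcardP : Nat.card (P : Subgroup H) = p ^ (Nat.card H).factorization p :=
    P.card_eq_multiplicity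
  refine ⟨fun x m hx => ?_, ?_⟩
  · exact Fermat.Agent.GC.Tate.eq_zero_of_pow_nsmul_eq_zero_of_isZero_sylow p P
      (res H.subtype C) 1 h1 x m hx
  · let r : primaryPart p (groupCohomology (res H.subtype C) 2) →+
        groupCohomology (res (P : Subgroup H).subtype (res H.subtype C)) 2 :=
      (rest (res H.subtype C) (P : Subgroup H) 2).hom.toAddMonoidHom.comp
        (primaryPart p (groupCohomology (res H.subtype C) 2)).subtype
    have hr : Function.Injective r := by
      rw [injective_iff_map_eq_zero]
      rintro ⟨x, m, hx⟩ hrx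
      exact Subtype.ext
        (eq_zero_of_rest_sylow_eq_zero resKer p P (res H.subtype C) 2 x m hx hrx)
    refine ⟨Finite.of_injective r hr, ?_⟩
    rw [← hcardP]
    exact (AddSubgroup.card_dvd_of_injective r hr).trans hdvd

end Fermat.Agent.GC.Global.DevissageSub
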