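/-
GATE-C / C4 (GD), UNCONDITIONAL form (helper97).

`infRes2 : InfRes2 k` is discharged from helper1's `GC/Tate/InfRes2.lean`
(`inf_injective`, `exists_inf_eq_of_res_eq_zero`), so the devissage theorems of
`GC/Global/Devissage.lean` (helper11, abstract layer classes) and `GC/Global/DevissageSub.lean`
(helper97, concrete subgroup layers) hold with NO hypothesis besides the layer hypothesis itself:

* `good_of_normal_final`    : helper11's one-step devissage `good_of_normal`;
* `pGroup_devissage_final`  : helper11's `pGroup_devissage` with `InfRes2` discharged;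
* `devissage_primary_final` : helper11's `devissage_primary` with `InfRes2`, `ResKer` discharged;
* `good_of_isPGroup_final`  : `LayerHyp p C` ⟹ every `p`-subgroup `P ≤ G` is `Good`
  (`H¹(P, C) = 0`, `H²(P, C)` finite of order dividing `|P|`);
* `devissage_sub_final`     : `LayerHyp p C` ⟹ for every `H ≤ G`, `H¹(H, C)` has no `p`-torsion and
  `|H²(H, C)(p)| ∣ p ^ v_p |H|`.
-/
import Mathlib
import Fermat.Agent.GC.Tate.InfRes2
import Fermat.Agent.GC.Global.DevissageSub

set_option autoImplicit false

open CategoryTheory groupCohomology Rep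
open Fermat.Agent.GC.Global.Devissage Fermat.Agent.GC.Global.DevissageSub

universe u

namespace Fermat.Agent.GC.Global.DevissageFinal

variable {k : Type u} [CommRing k]

/-- helper1's degree-2 inflation–restriction, in helper11's `InfRes2` shape. -/
theorem infRes2 : InfRes2 k := fun A S _ h =>
  ⟨Fermat.Agent.GC.Tate.InfRes2.inf_injective A S h,
    fun x hx => Fermat.Agent.GC.Tate.InfRes2.exists_inf_eq_of_res_eq_zero A S h x hx⟩

/-- One devissage step, unconditional: `N ◁ Q`, `(N, Res B)` and `(Q/N, B^N)` good ⟹ `(Q, B)`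
good. -/
theorem good_of_normal_final {Q : Type u} [Group Q] (B : Rep.{u} k Q)
    (N : Subgroup Q) [N.Normal] (hN : Good (Rep.res N.subtype B))
    (hQ : Good (B.quotientToInvariants N)) : Good B :=
  good_of_normal infRes2 B N hN hQ

/-- helper11's `pGroup_devissage`, unconditional. -/
theorem pGroup_devissage_final (p : ℕ) [Fact p.Prime]
    {𝒞 : ∀ (Q : Type u) [Group Q], Rep.{u} k Q → Prop} (h𝒞 : IsLayerClass 𝒞)
    (hcyc : ∀ {Q : Type u} [Group Q] [Finite Q] (B : Rep.{u} k Q),
      𝒞 Q B → Nat.card Q = p → Good B)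
    {Q : Type u} [Group Q] [Finite Q] (B : Rep.{u} k Q) (hB : 𝒞 Q B) (hQ : IsPGroup p Q) :
    Good B :=
  pGroup_devissage infRes2 p h𝒞 hcyc B hB hQ

/-- helper11's `devissage_primary`, unconditional. -/
theorem devissage_primary_final (p : ℕ) [Fact p.Prime]
    {𝒞 : ∀ (Q : Type u) [Group Q], Rep.{u} k Q → Prop} (h𝒞 : IsLayerClass 𝒞)
    (hcyc : ∀ {Q : Type u} [Group Q] [Finite Q] (B : Rep.{u} k Q),
      𝒞 Q B → Nat.card Q = p → Good B)
    {Q : Type u} [Group Q] [Finite Q] (B : Rep.{u} k Q) (hB : 𝒞 Q B) :
    (∀ (x : groupCohomology B 1) (m : ℕ), p ^ m • x = 0 → x = 0) ∧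
      Finite (primaryPart p (groupCohomology B 2)) ∧
      Nat.card (primaryPart p (groupCohomology B 2)) ∣ p ^ (Nat.card Q).factorization p :=
  devissage_primary infRes2 resKer p h𝒞 hcyc B hB

variable {G : Type u} [Group G]

/-- **Devissage, `p`-subgroups, unconditional**: the layer hypothesis for `p` gives `H¹(P, C) = 0`
and `H²(P, C)` finite of order dividing `|P|` for every `p`-subgroup `P ≤ G`. -/
theorem good_of_isPGroup_final (p : ℕ) [Fact p.Prime] [Finite G] (C : Rep.{u} k G)
    (hL : LayerHyp p C) (P : Subgroup G) (hP : IsPGroup p P) : Good (res P.subtype C) :=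
  good_of_isPGroup p infRes2 C hL P hP

/-- **Devissage, all subgroups, unconditional**: the layer hypothesis for `p` gives, for every
`H ≤ G`: `H¹(H, C)` has no `p`-torsion, and the `p`-primary part of `H²(H, C)` is finite of order
dividing `p ^ v_p(|H|)`. -/
theorem devissage_sub_final (p : ℕ) [Fact p.Prime] [Finite G] (C : Rep.{u} k G)
    (hL : LayerHyp p C) (H : Subgroup G) :
    (∀ (x : groupCohomology (res H.subtype C) 1) (m : ℕ), p ^ m • x = 0 → x = 0) ∧
      Finite (primaryPart p (groupCohomology (res H.subtype C) 2)) ∧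
      Nat.card (primaryPart p (groupCohomology (res H.subtype C) 2)) ∣
        p ^ (Nat.card H).factorization p :=
  devissage_sub p infRes2 C hL H

/-- The same for `G` itself (no restriction functor in the statement). -/
theorem devissage_top_final (p : ℕ) [Fact p.Prime] [Finite G] (C : Rep.{u} k G)
    (hL : LayerHyp p C) :
    (∀ (x : groupCohomology C 1) (m : ℕ), p ^ m • x = 0 → x = 0) ∧
      Finite (primaryPart p (groupCohomology C 2)) ∧
      Nat.card (primaryPart p (groupCohomology C 2)) ∣ p ^ (Nat.card G).factorization p := by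
  classical
  -- the class of all `(V/U', (Res_V C)^{U'})`-like pairs is not needed: use the Sylow argument of
  -- `devissage_sub` directly for a Sylow subgroup of `G`
  obtain ⟨P⟩ : Nonempty (Sylow p G) := inferInstance
  obtain ⟨h1, hfin, hdvd⟩ := good_of_isPGroup p infRes2 C hL (P : Subgroup G) P.isPGroup'
  refine ⟨fun x m hx => ?_, ?_⟩
  · exact Fermat.Agent.GC.Tate.eq_zero_of_pow_nsmul_eq_zero_of_isZero_sylow p P C 1 h1 x m hx
  · let r : primaryPart p (groupCohomology C 2) →+
        groupCohomology (res (P : Subgroup G).subtype C) 2 :=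
      (rest C (P : Subgroup G) 2).hom.toAddMonoidHom.comp
        (primaryPart p (groupCohomology C 2)).subtype
    have hr : Function.Injective r := by
      rw [injective_iff_map_eq_zero]
      rintro ⟨x, m, hx⟩ hrx
      exact Subtype.ext (eq_zero_of_rest_sylow_eq_zero resKer p P C 2 x m hx hrx)
    refine ⟨Finite.of_injective r hr, ?_⟩
    rw [← P.card_eq_multiplicity]
    exact (AddSubgroup.card_dvd_of_injective r hr).trans hdvd

end Fermat.Agent.GC.Global.DevissageFinal
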