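/-
GATE-C / C4→C5 KUMMER-BRIDGE (helper77), part 1: abstract bookkeeping.

Everything here is ABSTRACT: a group `G` with a level system `𝒰`, discrete representations, a
scalar `c : k` (in the application `k = ℤ`, `c = p`).  No arithmetic object appears.

* Layer 0: `torsC c M = M[c]`, `divC c M = cM`, counting along exact sequences;
  `|M/cM| = |M[c]|` for finite `M`.
* Layer 1 (Kummer): for `KS : KummerSeq T A c` (helper78, `GC/Kummer/HlcKummer.lean`)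
  `|Hlc^(i+1)(T)| = |Hlc^i(A)/c| · |Hlc^(i+1)(A)[c]|` (`card_hlc_succ`), finiteness, the
  multiplicative EULER identity `euler_card`, `Hlc³(T) = 0` (`hlc_three_eq_zero`).
* Layer 2 (units / ideles / classes): for a short exact sequence `0 → E → J → D → 0` of discrete
  representations, from `[A]` (`Hlc¹(D)` has no `c`-torsion and is `c`-divisible), Hilbert 90 for
  `J`, `Hlc³(J)[c] = 0` and `[B']`: injectivity / image of `Hlc²(E)[c] → Hlc²(J)[c]`,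
  `c`-divisibility of `Hlc²(E)`, `Hlc³(E)[c] = 0`, the count of `Hlc²(E)[c]`.
-/
import Fermat.Agent.GC.Kummer.HlcKummer
import Fermat.Agent.GC.Prof.Res

set_option autoImplicit false

open CategoryTheory

noncomputable section

namespace Fermat.Agent.GC.Global.KummerBridge

open Fermat.Agent.GC.Prof Fermat.Agent.GC.KumH

universe u

/-! ### Layer 0: torsion, divisibility, counting -/

section Alg

variable {k : Type*} [CommRing k]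

/-- The `c`-torsion `M[c]` of a module. -/
def torsC (c : k) (M : Type*) [AddCommGroup M] [Module k M] : Submodule k M :=
  LinearMap.ker (LinearMap.lsmul k M c)

/-- The multiples `cM` of a module. -/
def divC (c : k) (M : Type*) [AddCommGroup M] [Module k M] : Submodule k M :=
  LinearMap.range (LinearMap.lsmul k M c)

variable {M N P : Type*} [AddCommGroup M] [Module k M] [AddCommGroup N] [Module k N]
  [AddCommGroup P] [Module k P]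

theorem mem_torsC {c : k} {x : M} : x ∈ torsC c M ↔ c • x = 0 := by
  rw [torsC, LinearMap.mem_ker, LinearMap.lsmul_apply]

theorem mem_divC {c : k} {x : M} : x ∈ divC c M ↔ ∃ y : M, c • y = x := by
  rw [divC, LinearMap.mem_range]
  rfl

/-- Counting along `M → N → P` exact at `N`. -/
theorem card_eq_of_exact (f : M →ₗ[k] N) (g : N →ₗ[k] P)
    (hex : LinearMap.ker g = LinearMap.range f) :
    Nat.card N = Nat.card (M ⧸ LinearMap.ker f) * Nat.card (LinearMap.range g) := by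
  rw [Submodule.card_eq_card_quotient_mul_card (LinearMap.ker g),
    Nat.card_congr g.quotKerEquivRange.toEquiv, hex,
    Nat.card_congr f.quotKerEquivRange.toEquiv]

/-- Finiteness along `M → N → P` exact at `N`. -/
theorem finite_of_exact (f : M →ₗ[k] N) (g : N →ₗ[k] P)
    (hex : LinearMap.ker g = LinearMap.range f) [Finite (M ⧸ LinearMap.ker f)]
    [Finite (LinearMap.range g)] : Finite N := by
  have h1 : Finite (LinearMap.ker g) := by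
    rw [hex]
    exact Finite.of_equiv _ f.quotKerEquivRange.toEquiv
  have h2 : Finite (N ⧸ LinearMap.ker g) := Finite.of_equiv _ g.quotKerEquivRange.symm.toEquiv
  have h3 : Finite ((N ⧸ (LinearMap.ker g).toAddSubgroup) × (LinearMap.ker g).toAddSubgroup) :=
    @Finite.instProd _ _ h2 h1
  exact Finite.of_equiv _ (AddSubgroup.addGroupEquivQuotientProdAddSubgroup
    (s := (LinearMap.ker g).toAddSubgroup)).symm

/-- `|M/cM| = |M[c]|` for a finite module. -/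
theorem card_quot_divC_eq_card_torsC [Finite M] (c : k) :
    Nat.card (M ⧸ divC c M) = Nat.card (torsC c M) := by
  have h1 := Submodule.card_eq_card_quotient_mul_card (divC c M)
  have h2 := Submodule.card_eq_card_quotient_mul_card (torsC c M)
  have h3 : Nat.card (M ⧸ torsC c M) = Nat.card (divC c M) :=
    Nat.card_congr (LinearMap.lsmul k M c).quotKerEquivRange.toEquiv
  have h4 : 0 < Nat.card (divC c M) := Nat.card_pos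
  rw [h3] at h2
  have : Nat.card (divC c M) * Nat.card (M ⧸ divC c M) =
      Nat.card (divC c M) * Nat.card (torsC c M) := by
    rw [← h1, h2, mul_comm]
  exact Nat.eq_of_mul_eq_mul_left h4 this

/-- **Square count** (pure module form of `(N-a)`).  Global row `H2T → E2 → J2 → D2`, local row
`Pm → B`, localisation maps `locT : H2T → Pm`, `locJ : J2 → B` forming a commutative square.  If
`Pm ≅ B[c]` through `ιloc`, `J2[c] → B[c]` is onto, `E2[c]` is the image of `H2T`, and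
`ker(J2[c] → D2)` comes from `E2[c]`, then `|Pm| ≤ |D2[c]| · |range locT|`. -/
theorem card_le_of_square {H2T E2 J2 D2 Pm B : Type*}
    [AddCommGroup H2T] [Module k H2T] [AddCommGroup E2] [Module k E2]
    [AddCommGroup J2] [Module k J2] [AddCommGroup D2] [Module k D2]
    [AddCommGroup Pm] [Module k Pm] [AddCommGroup B] [Module k B] (c : k)
    (ιT : H2T →ₗ[k] E2) (f : E2 →ₗ[k] J2) (g : J2 →ₗ[k] D2) (locT : H2T →ₗ[k] Pm)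
    (ιloc : Pm →ₗ[k] B) (locJ : J2 →ₗ[k] B)
    (sq : ∀ t, ιloc (locT t) = locJ (f (ιT t)))
    (hinj : Function.Injective ιloc) (htors : ∀ a, c • ιloc a = 0)
    (hrange : ∀ b : B, c • b = 0 → ∃ a, ιloc a = b)
    (hιT : ∀ y : E2, c • y = 0 → ∃ t, ιT t = y)
    (hE2im : ∀ x : J2, c • x = 0 → g x = 0 → ∃ y, c • y = 0 ∧ f y = x)
    (hLJ : ∀ b : B, c • b = 0 → ∃ x : J2, c • x = 0 ∧ locJ x = b)
    [Finite Pm] [Finite (torsC c D2)] :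
    Nat.card Pm ≤ Nat.card (torsC c D2) * Nat.card (LinearMap.range locT) := by
  classical
  -- `Ψ : J2[c] → D2[c]`
  let Ψ : torsC c J2 →ₗ[k] torsC c D2 := g.restrict fun x hx => by
    rw [mem_torsC] at hx ⊢
    rw [← map_smul, hx, map_zero]
  have hΨ : ∀ x : torsC c J2, ((Ψ x : torsC c D2) : D2) = g x.1 := fun _ => rfl
  -- representatives
  have hrep : ∀ d : LinearMap.range Ψ, ∃ x : torsC c J2, Ψ x = d.1 := fun d => d.2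
  choose xd hxd using hrep
  have hloc : ∀ d : LinearMap.range Ψ, ∃ a : Pm, ιloc a = locJ (xd d).1 := fun d =>
    hrange _ (by rw [← map_smul, mem_torsC.1 (xd d).2, map_zero])
  choose ad had using hloc
  let σ : LinearMap.range Ψ × LinearMap.range locT → Pm := fun z => ad z.1 + z.2.1
  have hσ : Function.Surjective σ := by
    intro a
    obtain ⟨x, hx, hxa⟩ := hLJ (ιloc a) (htors a)
    let x' : torsC c J2 := ⟨x, mem_torsC.2 hx⟩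
    let d : LinearMap.range Ψ := ⟨Ψ x', ⟨x', rfl⟩⟩
    have h1 : c • (x - (xd d).1) = 0 := by
      rw [smul_sub, hx, mem_torsC.1 (xd d).2, sub_self]
    have h2 : g (x - (xd d).1) = 0 := by
      have := congrArg Subtype.val (hxd d)
      rw [hΨ] at this
      rw [map_sub, this]
      exact sub_self (g x)
    obtain ⟨y, hy, hyx⟩ := hE2im _ h1 h2
    obtain ⟨t, rfl⟩ := hιT y hy
    refine ⟨(d, ⟨locT t, ⟨t, rfl⟩⟩), ?_⟩
    apply hinj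
    show ιloc (ad d + locT t) = ιloc a
    rw [map_add, had, sq, hyx, map_sub, hxa]
    abel
  have hfin : Finite (LinearMap.range Ψ × LinearMap.range locT) := inferInstance
  calc Nat.card Pm ≤ Nat.card (LinearMap.range Ψ × LinearMap.range locT) :=
        Nat.card_le_card_of_surjective σ hσ
    _ = Nat.card (LinearMap.range Ψ) * Nat.card (LinearMap.range locT) := Nat.card_prod _ _
    _ ≤ Nat.card (torsC c D2) * Nat.card (LinearMap.range locT) :=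
        Nat.mul_le_mul_right _ (Nat.card_le_card_of_injective _ Subtype.val_injective)

end Alg

/-! ### Layer 1: counting along a Kummer sequence -/

section Kummer

variable {k G : Type u} [CommRing k] [Group G] (𝒰 : LevelSystem G)
  {T A : Rep.{u} k G} {c : k} [IsDiscrete 𝒰 T] [IsDiscrete 𝒰 A] (KS : KummerSeq T A c)

/-- The Kummer connecting map as a linear map. -/
def δLin (i : ℕ) : Hlc 𝒰 A i →ₗ[k] Hlc 𝒰 T (i + 1) := (KS.δ 𝒰 i).hom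

/-- The map induced by the inclusion `T → A` as a linear map. -/
def ιLin (i : ℕ) : Hlc 𝒰 T i →ₗ[k] Hlc 𝒰 A i := (HlcMap 𝒰 KS.ι i).hom

theorem δLin_apply (i : ℕ) (x : Hlc 𝒰 A i) : δLin 𝒰 KS i x = KS.δ 𝒰 i x := rfl

theorem ιLin_apply (i : ℕ) (y : Hlc 𝒰 T i) : ιLin 𝒰 KS i y = HlcMap 𝒰 KS.ι i y := rfl

theorem ker_δLin (i : ℕ) : LinearMap.ker (δLin 𝒰 KS i) = divC c (Hlc 𝒰 A i) := by
  ext x
  rw [LinearMap.mem_ker, mem_divC, δLin_apply, KS.δ_eq_zero_iff]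

theorem ker_ιLin_succ (i : ℕ) :
    LinearMap.ker (ιLin 𝒰 KS (i + 1)) = LinearMap.range (δLin 𝒰 KS i) := by
  ext y
  rw [LinearMap.mem_ker, LinearMap.mem_range, ιLin_apply, KS.ι_eq_zero_iff]
  rfl

theorem range_ιLin (i : ℕ) : LinearMap.range (ιLin 𝒰 KS i) = torsC c (Hlc 𝒰 A i) := by
  ext z
  rw [LinearMap.mem_range, mem_torsC, KS.smul_eq_zero_iff]
  rfl

include KS in
/-- **Kummer count**: `|Hlc^(i+1)(T)| = |Hlc^i(A)/c| · |Hlc^(i+1)(A)[c]|`. -/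
theorem card_hlc_succ (i : ℕ) :
    Nat.card (Hlc 𝒰 T (i + 1)) =
      Nat.card (Hlc 𝒰 A i ⧸ divC c (Hlc 𝒰 A i)) * Nat.card (torsC c (Hlc 𝒰 A (i + 1))) := by
  rw [card_eq_of_exact (δLin 𝒰 KS i) (ιLin 𝒰 KS (i + 1)) (ker_ιLin_succ 𝒰 KS i), ker_δLin,
    range_ιLin]

include KS in
/-- Finiteness of `Hlc^(i+1)(T)` from finiteness of `Hlc^i(A)/c` and of `Hlc^(i+1)(A)[c]`. -/
theorem finite_hlc_succ (i : ℕ) [h1 : Finite (Hlc 𝒰 A i ⧸ divC c (Hlc 𝒰 A i))]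
    [h2 : Finite (torsC c (Hlc 𝒰 A (i + 1)))] : Finite (Hlc 𝒰 T (i + 1)) := by
  rw [← ker_δLin 𝒰 KS] at h1
  rw [← range_ιLin 𝒰 KS] at h2
  exact finite_of_exact (δLin 𝒰 KS i) (ιLin 𝒰 KS (i + 1)) (ker_ιLin_succ 𝒰 KS i)

/-- `Hlc^(i+1)(T) → Hlc^(i+1)(A)` is injective as soon as `Hlc^i(A)` is `c`-divisible. -/
theorem ιLin_succ_injective (i : ℕ) (hdiv : ∀ x : Hlc 𝒰 A i, ∃ x' : Hlc 𝒰 A i, c • x' = x) :
    Function.Injective (ιLin 𝒰 KS (i + 1)) := by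
  rw [← LinearMap.ker_eq_bot, ker_ιLin_succ, LinearMap.range_eq_bot]
  apply LinearMap.ext
  intro x
  exact (KS.δ_eq_zero_iff i x).2 (hdiv x)

include KS in
/-- **(N-b)**, top degree: `Hlc^(i+1)(T) = 0` if `Hlc^i(A)` is `c`-divisible and `Hlc^(i+1)(A)` has no
`c`-torsion (helper78's `(b0)`-form, restated). -/
theorem hlc_succ_eq_zero (i : ℕ) (hdiv : ∀ x : Hlc 𝒰 A i, ∃ x' : Hlc 𝒰 A i, c • x' = x)
    (htf : ∀ z : Hlc 𝒰 A (i + 1), c • z = 0 → z = 0) (y : Hlc 𝒰 T (i + 1)) : y = 0 :=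
  KS.eq_zero_of_divisible_of_torsionFree i hdiv htf y

include KS in
/-- **EULER, multiplicative form.**  With `|Hlc⁰(A)/c| = P^e0`, `Hlc¹(A)` finite and
`|Hlc²(A)[c]| = P^t2`:  `Hlc¹(T)`, `Hlc²(T)` are finite and
`|Hlc¹(T)| · P^t2 = |Hlc²(T)| · P^e0`. -/
theorem euler_card (P e0 t2 : ℕ)
    (h0 : Nat.card (Hlc 𝒰 A 0 ⧸ divC c (Hlc 𝒰 A 0)) = P ^ e0) (hP : P ≠ 0)
    [h1 : Finite (Hlc 𝒰 A 1)]
    (h2 : Nat.card (torsC c (Hlc 𝒰 A 2)) = P ^ t2) :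
    Finite (Hlc 𝒰 T 1) ∧ Finite (Hlc 𝒰 T 2) ∧
      Nat.card (Hlc 𝒰 T 1) * P ^ t2 = Nat.card (Hlc 𝒰 T 2) * P ^ e0 := by
  have hf0 : Finite (Hlc 𝒰 A 0 ⧸ divC c (Hlc 𝒰 A 0)) :=
    Nat.finite_of_card_ne_zero (by rw [h0]; exact pow_ne_zero _ hP)
  have hf2 : Finite (torsC c (Hlc 𝒰 A 2)) :=
    Nat.finite_of_card_ne_zero (by rw [h2]; exact pow_ne_zero _ hP)
  have hf1 : Finite (Hlc 𝒰 A 1 ⧸ divC c (Hlc 𝒰 A 1)) := Quotient.finite _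
  have hf1' : Finite (torsC c (Hlc 𝒰 A 1)) := Subtype.finite
  refine ⟨finite_hlc_succ 𝒰 KS 0, finite_hlc_succ 𝒰 KS 1, ?_⟩
  rw [card_hlc_succ 𝒰 KS 0, card_hlc_succ 𝒰 KS 1, h0, h2, card_quot_divC_eq_card_torsC]
  ring

end Kummer

/-! ### Layer 2: units → ideles → classes -/

section EJD

variable {k G : Type u} [CommRing k] [Group G] (𝒰 : LevelSystem G)
  {X : ShortComplex (Rep.{u} k G)} [IsDiscrete 𝒰 X.X₁] [IsDiscrete 𝒰 X.X₂] [IsDiscrete 𝒰 X.X₃]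
  (hX : X.ShortExact)

/-- Elementwise exactness of `Hlc^i(X₃) → Hlc^(i+1)(X₁) → Hlc^(i+1)(X₂)`. -/
theorem map_f_eq_zero_iff (i : ℕ) (y : Hlc 𝒰 X.X₁ (i + 1)) :
    HlcMap 𝒰 X.f (i + 1) y = 0 ↔ ∃ d : Hlc 𝒰 X.X₃ i, Hlcδ 𝒰 hX i (i + 1) rfl d = y := by
  have hex := Hlc_exact₁ 𝒰 hX i (i + 1) rfl
  rw [ShortComplex.moduleCat_exact_iff] at hex
  constructor
  · intro h
    exact hex y h
  · rintro ⟨x, rfl⟩
    exact congr($((lcShortComplex_shortExact 𝒰 hX).δ_comp i (i + 1) rfl) x)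

include hX in
/-- Elementwise exactness of `Hlc^i(X₁) → Hlc^i(X₂) → Hlc^i(X₃)`. -/
theorem map_g_eq_zero_iff (i : ℕ) (x : Hlc 𝒰 X.X₂ i) :
    HlcMap 𝒰 X.g i x = 0 ↔ ∃ y : Hlc 𝒰 X.X₁ i, HlcMap 𝒰 X.f i y = x := by
  have hex := Hlc_exact₂ 𝒰 hX i
  rw [ShortComplex.moduleCat_exact_iff] at hex
  constructor
  · intro h
    exact hex x h
  · rintro ⟨y, rfl⟩
    have := congr($(HlcMap_comp 𝒰 X.f X.g i) y)
    rw [X.zero] at this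
    simp only [ModuleCat.hom_comp, LinearMap.comp_apply] at this
    rw [← this, HlcMap, lcMap_zero, HomologicalComplex.homologyMap_zero]
    rfl

/-- Elementwise exactness of `Hlc^i(X₂) → Hlc^i(X₃) → Hlc^(i+1)(X₁)`. -/
theorem δ_eq_zero_iff (i : ℕ) (d : Hlc 𝒰 X.X₃ i) :
    Hlcδ 𝒰 hX i (i + 1) rfl d = 0 ↔ ∃ x : Hlc 𝒰 X.X₂ i, HlcMap 𝒰 X.g i x = d := by
  have hex := Hlc_exact₃ 𝒰 hX i (i + 1) rfl
  rw [ShortComplex.moduleCat_exact_iff] at hex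
  constructor
  · intro h
    exact hex d h
  · rintro ⟨x, rfl⟩
    exact congr($((lcShortComplex_shortExact 𝒰 hX).comp_δ i (i + 1) rfl) x)

variable (c : k)

include hX in
/-- `Hlc²(E)[c] → Hlc²(J)` is injective: from `[A]` (no `c`-torsion in `Hlc¹(D)`) and Hilbert 90 for
`J` (in the weak form: `Hlc¹(J) → Hlc¹(D)` is zero). -/
theorem e2_inj (hAtf : ∀ d : Hlc 𝒰 X.X₃ 1, c • d = 0 → d = 0)
    (hJ1 : ∀ x : Hlc 𝒰 X.X₂ 1, HlcMap 𝒰 X.g 1 x = 0)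
    (y : Hlc 𝒰 X.X₁ 2) (hy : c • y = 0) (hfy : HlcMap 𝒰 X.f 2 y = 0) : y = 0 := by
  obtain ⟨d, rfl⟩ := (map_f_eq_zero_iff 𝒰 hX 1 y).1 hfy
  rw [← map_smul] at hy
  obtain ⟨x, hx⟩ := (δ_eq_zero_iff 𝒰 hX 1 (c • d)).1 hy
  rw [hJ1 x] at hx
  rw [hAtf d hx.symm, map_zero]

include hX in
/-- The image of `Hlc²(E)[c]` in `Hlc²(J)[c]` is the kernel of `Hlc²(J)[c] → Hlc²(D)`: from `[A]`
(`Hlc¹(D)` is `c`-divisible). -/
theorem e2_im (hAdiv : ∀ d : Hlc 𝒰 X.X₃ 1, ∃ d' : Hlc 𝒰 X.X₃ 1, c • d' = d)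
    (x : Hlc 𝒰 X.X₂ 2) (hx : c • x = 0) (hgx : HlcMap 𝒰 X.g 2 x = 0) :
    ∃ y : Hlc 𝒰 X.X₁ 2, c • y = 0 ∧ HlcMap 𝒰 X.f 2 y = x := by
  obtain ⟨y₀, rfl⟩ := (map_g_eq_zero_iff 𝒰 hX 2 x).1 hgx
  rw [← map_smul] at hx
  obtain ⟨d, hd⟩ := (map_f_eq_zero_iff 𝒰 hX 1 (c • y₀)).1 hx
  obtain ⟨d', rfl⟩ := hAdiv d
  refine ⟨y₀ - Hlcδ 𝒰 hX 1 2 rfl d', ?_, ?_⟩
  · rw [smul_sub, ← map_smul, hd, sub_self]
  · rw [map_sub, (map_f_eq_zero_iff 𝒰 hX 1 _).2 ⟨d', rfl⟩, sub_zero]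

include hX in
/-- `Hlc²(E)` is `c`-divisible: from `[A]` (`Hlc¹(D)` is `c`-divisible) and `[B']`
(`ker(Hlc²(J) → Hlc²(D))` is `c`-divisible). -/
theorem e2_div (hAdiv : ∀ d : Hlc 𝒰 X.X₃ 1, ∃ d' : Hlc 𝒰 X.X₃ 1, c • d' = d)
    (hBdiv : ∀ x : Hlc 𝒰 X.X₂ 2, HlcMap 𝒰 X.g 2 x = 0 →
      ∃ x' : Hlc 𝒰 X.X₂ 2, HlcMap 𝒰 X.g 2 x' = 0 ∧ c • x' = x)
    (y : Hlc 𝒰 X.X₁ 2) : ∃ y' : Hlc 𝒰 X.X₁ 2, c • y' = y := by
  obtain ⟨x', hgx', hx'⟩ := hBdiv (HlcMap 𝒰 X.f 2 y) ((map_g_eq_zero_iff 𝒰 hX 2 _).2 ⟨y, rfl⟩)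
  obtain ⟨y₁, rfl⟩ := (map_g_eq_zero_iff 𝒰 hX 2 x').1 hgx'
  have h0 : HlcMap 𝒰 X.f 2 (y - c • y₁) = 0 := by
    rw [map_sub, map_smul, hx', sub_self]
  obtain ⟨d, hd⟩ := (map_f_eq_zero_iff 𝒰 hX 1 _).1 h0
  obtain ⟨d', rfl⟩ := hAdiv d
  refine ⟨y₁ + Hlcδ 𝒰 hX 1 2 rfl d', ?_⟩
  rw [smul_add, ← map_smul, hd]
  abel

include hX in
/-- `Hlc³(E)[c] = 0`: from `Hlc³(J)[c] = 0` (local `H³`) and `[B']` (the cokernel of
`Hlc²(J) → Hlc²(D)` has no `c`-torsion). -/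
theorem e3_tf (hJ3 : ∀ x : Hlc 𝒰 X.X₂ 3, c • x = 0 → x = 0)
    (hBonto : ∀ z : Hlc 𝒰 X.X₃ 2, (∃ x : Hlc 𝒰 X.X₂ 2, HlcMap 𝒰 X.g 2 x = c • z) →
      ∃ x : Hlc 𝒰 X.X₂ 2, HlcMap 𝒰 X.g 2 x = z)
    (y : Hlc 𝒰 X.X₁ 3) (hy : c • y = 0) : y = 0 := by
  have h1 : HlcMap 𝒰 X.f 3 y = 0 := hJ3 _ (by rw [← map_smul, hy, map_zero])
  obtain ⟨z, rfl⟩ := (map_f_eq_zero_iff 𝒰 hX 2 y).1 h1
  rw [← map_smul] at hy
  obtain ⟨x', rfl⟩ := hBonto z ((δ_eq_zero_iff 𝒰 hX 2 (c • z)).1 hy)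
  exact (δ_eq_zero_iff 𝒰 hX 2 _).2 ⟨x', rfl⟩

omit [IsDiscrete 𝒰 X.X₁] in
/-- `Hlc²(J)[c] → Hlc²(D)[c]` is onto, when `Hlc²(D)[c]` is in the image of `Hlc²(J)` and the
kernel of `Hlc²(J) → Hlc²(D)` is `c`-divisible. -/
theorem j2_tors_onto
    (hBdiv : ∀ x : Hlc 𝒰 X.X₂ 2, HlcMap 𝒰 X.g 2 x = 0 →
      ∃ x' : Hlc 𝒰 X.X₂ 2, HlcMap 𝒰 X.g 2 x' = 0 ∧ c • x' = x)
    (hD2 : ∀ z : Hlc 𝒰 X.X₃ 2, c • z = 0 → ∃ x : Hlc 𝒰 X.X₂ 2, HlcMap 𝒰 X.g 2 x = z)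
    (z : Hlc 𝒰 X.X₃ 2) (hz : c • z = 0) :
    ∃ x : Hlc 𝒰 X.X₂ 2, c • x = 0 ∧ HlcMap 𝒰 X.g 2 x = z := by
  obtain ⟨x, rfl⟩ := hD2 z hz
  rw [← map_smul] at hz
  obtain ⟨x', hgx', hx'⟩ := hBdiv _ hz
  refine ⟨x - x', ?_, ?_⟩
  · rw [smul_sub, hx', sub_self]
  · rw [map_sub, hgx', sub_zero]

/-- `g₂` restricted to `c`-torsion, with values in `c`-torsion. -/
def gTors : torsC c (Hlc 𝒰 X.X₂ 2) →ₗ[k] torsC c (Hlc 𝒰 X.X₃ 2) :=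
  (HlcMap 𝒰 X.g 2).hom.restrict fun x hx => by
    rw [mem_torsC] at hx ⊢
    rw [← map_smul, hx, map_zero]

include hX in
/-- **Count of `Hlc²(E)[c]`**: `|Hlc²(J)[c]| = |Hlc²(E)[c]| · |Hlc²(D)[c]|`, from `[A]`, Hilbert 90
for `J` and `[B']`. -/
theorem card_tors_e2 (hAtf : ∀ d : Hlc 𝒰 X.X₃ 1, c • d = 0 → d = 0)
    (hAdiv : ∀ d : Hlc 𝒰 X.X₃ 1, ∃ d' : Hlc 𝒰 X.X₃ 1, c • d' = d)
    (hJ1 : ∀ x : Hlc 𝒰 X.X₂ 1, HlcMap 𝒰 X.g 1 x = 0)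
    (hBdiv : ∀ x : Hlc 𝒰 X.X₂ 2, HlcMap 𝒰 X.g 2 x = 0 →
      ∃ x' : Hlc 𝒰 X.X₂ 2, HlcMap 𝒰 X.g 2 x' = 0 ∧ c • x' = x)
    (hD2 : ∀ z : Hlc 𝒰 X.X₃ 2, c • z = 0 → ∃ x : Hlc 𝒰 X.X₂ 2, HlcMap 𝒰 X.g 2 x = z) :
    Nat.card (torsC c (Hlc 𝒰 X.X₂ 2)) =
      Nat.card (torsC c (Hlc 𝒰 X.X₁ 2)) * Nat.card (torsC c (Hlc 𝒰 X.X₃ 2)) := by
  -- `f₂ : E2[c] → J2[c]`
  let f' : torsC c (Hlc 𝒰 X.X₁ 2) →ₗ[k] torsC c (Hlc 𝒰 X.X₂ 2) :=
    (HlcMap 𝒰 X.f 2).hom.restrict fun x hx => by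
      rw [mem_torsC] at hx ⊢
      rw [← map_smul, hx, map_zero]
  have hf'inj : LinearMap.ker f' = ⊥ := by
    rw [LinearMap.ker_eq_bot']
    intro y hy
    have h1 : HlcMap 𝒰 X.f 2 y.1 = 0 := congrArg Subtype.val hy
    exact Subtype.ext (e2_inj 𝒰 hX c hAtf hJ1 y.1 (mem_torsC.1 y.2) h1)
  have hex : LinearMap.ker (gTors 𝒰 (X := X) c) = LinearMap.range f' := by
    ext x
    rw [LinearMap.mem_ker, LinearMap.mem_range]
    constructor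
    · intro h
      have h1 : HlcMap 𝒰 X.g 2 x.1 = 0 := congrArg Subtype.val h
      obtain ⟨y, hy, hyx⟩ := e2_im 𝒰 hX c hAdiv x.1 (mem_torsC.1 x.2) h1
      exact ⟨⟨y, mem_torsC.2 hy⟩, Subtype.ext hyx⟩
    · rintro ⟨y, rfl⟩
      apply Subtype.ext
      exact (map_g_eq_zero_iff 𝒰 hX 2 _).2 ⟨y.1, rfl⟩
  have hsurj : LinearMap.range (gTors 𝒰 (X := X) c) = ⊤ := by
    rw [LinearMap.range_eq_top]
    intro z
    obtain ⟨x, hx, hxz⟩ := j2_tors_onto 𝒰 c hBdiv hD2 z.1 (mem_torsC.1 z.2)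
    exact ⟨⟨x, mem_torsC.2 hx⟩, Subtype.ext hxz⟩
  rw [card_eq_of_exact f' (gTors 𝒰 (X := X) c) hex, hf'inj, hsurj,
    Nat.card_congr (Submodule.quotEquivOfEqBot _ rfl).toEquiv,
    Nat.card_congr (Submodule.topEquiv (R := k) (M := torsC c (Hlc 𝒰 X.X₃ 2))).toEquiv]

end EJD

/-! ### `(N-a)`: the cokernel of the localisation map in degree 2 -/

section NA

variable {k G : Type u} [CommRing k] [Group G] (𝒰 : LevelSystem G)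
  {X : ShortComplex (Rep.{u} k G)} [IsDiscrete 𝒰 X.X₁] [IsDiscrete 𝒰 X.X₂] [IsDiscrete 𝒰 X.X₃]
  (hX : X.ShortExact) {T : Rep.{u} k G} [IsDiscrete 𝒰 T] {c : k} (KS : KummerSeq T X.X₁ c)
  {ι : Type*} {Gv : ι → Type u} [∀ v, Group (Gv v)] (𝒰v : ∀ v, LevelSystem (Gv v))
  {φ : ∀ v, Gv v →* G} (hφ : ∀ v, IsContHom (𝒰v v) 𝒰 (φ v))
  {Ω : ∀ v, Rep.{u} k (Gv v)} [∀ v, IsDiscrete (𝒰v v) (Ω v)]
  [∀ v, IsDiscrete (𝒰v v) (Rep.res (φ v) T)]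
  (KSv : ∀ v, KummerSeq (Rep.res (φ v) T) (Ω v) c)
  (π : ∀ v, Rep.res (φ v) X.X₂ ⟶ Ω v)

/-- The total localisation map on `Hlc^n(T)`. -/
def locT (n : ℕ) : Hlc 𝒰 T n →ₗ[k] ∀ v, Hlc (𝒰v v) (Rep.res (φ v) T) n :=
  LinearMap.pi fun v => (HlcRes (hφ v) T n).hom

/-- The total localisation map `Hlc^n(J) → ∏ Hlc^n(G_v, Ω_v)` (restriction, then `π_v`). -/
def locJ (n : ℕ) : Hlc 𝒰 X.X₂ n →ₗ[k] ∀ v, Hlc (𝒰v v) (Ω v) n :=
  LinearMap.pi fun v => (HlcPull (hφ v) (π v) n).hom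

/-- The product of the local Kummer maps `Hlc^n(G_v, T) → Hlc^n(G_v, Ω_v)`. -/
def ιloc (n : ℕ) :
    (∀ v, Hlc (𝒰v v) (Rep.res (φ v) T) n) →ₗ[k] ∀ v, Hlc (𝒰v v) (Ω v) n :=
  LinearMap.pi fun v => (ιLin (𝒰v v) (KSv v) n).comp (LinearMap.proj v)

theorem locT_apply (n : ℕ) (t : Hlc 𝒰 T n) (v : ι) :
    locT 𝒰 𝒰v hφ n t v = HlcRes (hφ v) T n t := rfl

omit [IsDiscrete 𝒰 X.X₁] [IsDiscrete 𝒰 X.X₃] in
theorem locJ_apply (n : ℕ) (x : Hlc 𝒰 X.X₂ n) (v : ι) :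
    locJ 𝒰 𝒰v hφ π n x v = HlcPull (hφ v) (π v) n x := rfl

theorem ιloc_apply (n : ℕ) (a : ∀ v, Hlc (𝒰v v) (Rep.res (φ v) T) n) (v : ι) :
    ιloc 𝒰v KSv n a v = HlcMap (𝒰v v) (KSv v).ι n (a v) := rfl

omit [IsDiscrete 𝒰 X.X₃] in
/-- The localisation square: local Kummer after localisation is localisation after
`T → E → J`. -/
theorem ιloc_locT (hcompat : ∀ v, (Rep.resFunctor (φ v)).map (KS.ι ≫ X.f) ≫ π v = (KSv v).ι)
    (n : ℕ) (t : Hlc 𝒰 T n) :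
    ιloc 𝒰v KSv n (locT 𝒰 𝒰v hφ n t) =
      locJ 𝒰 𝒰v hφ π n (HlcMap 𝒰 X.f n (HlcMap 𝒰 KS.ι n t)) := by
  funext v
  rw [ιloc_apply, locT_apply, locJ_apply]
  have h1 := congr($(HlcRes_comp_HlcMap (hφ v) (A := T) (KSv v).ι n) t)
  have h2 := congr($(HlcMap_comp_HlcPull (hφ v) (KS.ι ≫ X.f) (π v) n) t)
  rw [hcompat v] at h2
  have h3 := congr($(HlcMap_comp 𝒰 KS.ι X.f n) t)
  simp only [ModuleCat.hom_comp, LinearMap.comp_apply] at h1 h2 h3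
  rw [h1, ← h2, h3]

include hX in
/-- **`(N-a)`, counting form.**  The image of the localisation map
`Hlc²(G, T) → ∏_v Hlc²(G_v, T)` has index at most `|Hlc²(D)[c]|`. -/
theorem card_pi_le (hcompat : ∀ v, (Rep.resFunctor (φ v)).map (KS.ι ≫ X.f) ≫ π v = (KSv v).ι)
    (hAdiv : ∀ d : Hlc 𝒰 X.X₃ 1, ∃ d' : Hlc 𝒰 X.X₃ 1, c • d' = d)
    (hH90 : ∀ v, ∀ x : Hlc (𝒰v v) (Ω v) 1, ∃ x' : Hlc (𝒰v v) (Ω v) 1, c • x' = x)
    (hLJ : ∀ b : (∀ v, Hlc (𝒰v v) (Ω v) 2), c • b = 0 →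
      ∃ x : Hlc 𝒰 X.X₂ 2, c • x = 0 ∧ locJ 𝒰 𝒰v hφ π 2 x = b)
    [Finite (∀ v, Hlc (𝒰v v) (Rep.res (φ v) T) 2)] [Finite (torsC c (Hlc 𝒰 X.X₃ 2))] :
    Nat.card (∀ v, Hlc (𝒰v v) (Rep.res (φ v) T) 2) ≤
      Nat.card (torsC c (Hlc 𝒰 X.X₃ 2)) * Nat.card (LinearMap.range (locT 𝒰 (T := T) 𝒰v hφ 2)) := by
  refine card_le_of_square c (ιLin 𝒰 KS 2) (HlcMap 𝒰 X.f 2).hom (HlcMap 𝒰 X.g 2).hom
    (locT 𝒰 𝒰v hφ 2) (ιloc 𝒰v KSv 2) (locJ 𝒰 𝒰v hφ π 2)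
    (fun t => ιloc_locT 𝒰 KS 𝒰v hφ KSv π hcompat 2 t) ?_ ?_ ?_ ?_ ?_ hLJ
  · intro a a' h
    funext v
    exact ιLin_succ_injective (𝒰v v) (KSv v) 1 (hH90 v) (congrFun h v)
  · intro a
    funext v
    exact ((KSv v).smul_eq_zero_iff 2 _).2 ⟨a v, rfl⟩
  · intro b hb
    have : ∀ v, ∃ y : Hlc (𝒰v v) (Rep.res (φ v) T) 2, HlcMap (𝒰v v) (KSv v).ι 2 y = b v :=
      fun v => ((KSv v).smul_eq_zero_iff 2 (b v)).1 (congrFun hb v)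
    choose a ha using this
    exact ⟨a, funext ha⟩
  · intro y hy
    exact (KS.smul_eq_zero_iff 2 y).1 hy
  · exact e2_im 𝒰 hX c hAdiv

end NA

end Fermat.Agent.GC.Global.KummerBridge
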