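/-
GATE-C / C4 GLOBAL-COH (helper14): the finite-level `T`-idele class module.

For a finite Galois layer `L ⊂ Qbar` and a finite set of primes `T`:
* `J L T := ∏_{q ∈ T} Jq q L : Rep ℤ G_L` (the `T`-ideles of `L`);
* `diag L T : Lˣ ⟶ J L T`;
* `tUnits L T ≤ Lˣ` (units of the integral closure of `ℤ[1/T]` in `L`), `E L T` the corresponding
  subrepresentation of `Lˣ`;
* `C L T := J L T ⧸ diag (tUnits L T)`, with `0 → E L T → J L T → C L T → 0`.
-/
import Mathlib
import Fermat.Agent.GC.Global.Model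

set_option autoImplicit false
set_option linter.unusedSectionVars false

open scoped Padic
open CategoryTheory

noncomputable section

namespace Fermat.Agent.GC.Global

/-- primes in `Nat.Primes` are prime. -/
instance factNatPrimes (q : Nat.Primes) : Fact (q : ℕ).Prime := ⟨q.2⟩

section PiRep

variable {k G ι : Type*} [CommRing k] [Monoid G] {V : ι → Type*} [∀ i, AddCommGroup (V i)]
  [∀ i, Module k (V i)]

/-- The product of a family of representations. -/
def piRep (ρ : ∀ i, Representation k G (V i)) : Representation k G (∀ i, V i) where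
  toFun g := LinearMap.pi fun i => (ρ i g).comp (LinearMap.proj i)
  map_one' := by ext; simp
  map_mul' g h := by ext; simp

@[simp] theorem piRep_apply (ρ : ∀ i, Representation k G (V i)) (g : G) (v : ∀ i, V i) (i : ι) :
    piRep ρ g v i = ρ i g (v i) := rfl

end PiRep

/-- A short complex of representations is short exact as soon as it is so on underlying sets. -/
theorem shortExact_of_forget {k G : Type} [CommRing k] [Monoid G] (S : ShortComplex (Rep.{0} k G))
    (hf : Function.Injective S.f.hom) (hg : Function.Surjective S.g.hom)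
    (hex : ∀ x, S.g.hom x = 0 → ∃ y, S.f.hom y = x) : S.ShortExact where
  exact := (forget₂ (Rep.{0} k G) (ModuleCat.{0} k)).reflects_exact_of_faithful _ <|
    (ShortComplex.moduleCat_exact_iff _).2 hex
  mono_f := (Rep.mono_iff_injective _).2 hf
  epi_g := (Rep.epi_iff_surjective _).2 hg

variable (L : IntermediateField ℚ Qb) [Normal ℚ L] (T : Finset Nat.Primes)

/-- The carrier of `Jq q L`, as an opaque type with its own instances (so that `Pi` instances
are found quickly). -/
def JqCarrier (q : Nat.Primes) : Type :=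
  ↥(Representation.coindV (decHom (q : ℕ) L) (locUnits (q : ℕ) L).ρ)

instance (q : Nat.Primes) : AddCommGroup (JqCarrier L q) :=
  inferInstanceAs (AddCommGroup ↥(Representation.coindV (decHom (q : ℕ) L) (locUnits (q : ℕ) L).ρ))

instance (q : Nat.Primes) : Module ℤ (JqCarrier L q) :=
  inferInstanceAs (Module ℤ ↥(Representation.coindV (decHom (q : ℕ) L) (locUnits (q : ℕ) L).ρ))

/-- The representation on `JqCarrier`. -/
def JqRep (q : Nat.Primes) : Representation ℤ (L ≃ₐ[ℚ] L) (JqCarrier L q) :=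
  Representation.coind (decHom (q : ℕ) L) (locUnits (q : ℕ) L).ρ

/-- The diagonal embedding into `JqCarrier`. -/
def diagqLin (q : Nat.Primes) : Additive Lˣ →ₗ[ℤ] JqCarrier L q :=
  (diagqHom (q : ℕ) L).toIntLinearMap

theorem diagqLin_apply (q : Nat.Primes) (x : Additive Lˣ) (g : L ≃ₐ[ℚ] L) :
    (diagqLin L q x).1 g = diagqFun (q : ℕ) L x.toMul g := rfl

theorem diagqLin_equivariant (q : Nat.Primes) (g : L ≃ₐ[ℚ] L) (x : Additive Lˣ) :
    diagqLin L q ((globUnits L).ρ g x) = JqRep L q g (diagqLin L q x) := rfl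

theorem diagqLin_injective (q : Nat.Primes) : Function.Injective (diagqLin L q) :=
  diagqHom_injective (q : ℕ) L

/-- The `T`-idele module `∏_{q ∈ T} (L ⊗ ℚ_q)ˣ` of the layer `L`. -/
def J : Rep ℤ (L ≃ₐ[ℚ] L) := Rep.of (piRep fun q : T => JqRep L q)

/-- The projection of the `T`-ideles to the `q`-component. -/
def Jproj (q : T) : J L T ⟶ Rep.of (JqRep L q) :=
  Rep.ofHom
    { toLinearMap := LinearMap.proj q
      isIntertwining' := fun _ => rfl }

/-- The diagonal embedding `Lˣ → J L T`. -/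
def diag : globUnits L ⟶ J L T :=
  Rep.ofHom
    { toLinearMap := LinearMap.pi fun q : T => diagqLin L q
      isIntertwining' := fun g => by
        ext x q
        rfl }

theorem diag_apply (x : Additive Lˣ) (q : T) :
    (diag L T).hom x q = diagqLin L q x := rfl

theorem diag_injective (hT : T.Nonempty) : Function.Injective (diag L T).hom := by
  obtain ⟨q, hq⟩ := hT
  intro x y h
  exact diagqLin_injective L q (congrFun h ⟨q, hq⟩)

/-! ### `T`-units -/

/-- The product of the primes in `T`. -/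
def Tprod : ℕ := ∏ q ∈ T, (q : ℕ)

/-- `x ∈ L` is integral outside `T`: some power of `∏ T` clears its denominator. -/
def IsTIntegral (x : L) : Prop := ∃ n : ℕ, IsIntegral ℤ (((Tprod T : ℕ) : L) ^ n * x)

theorem isTIntegral_one : IsTIntegral L T 1 := ⟨0, by simpa using isIntegral_one⟩

variable {L T} in
theorem IsTIntegral.mul {x y : L} (hx : IsTIntegral L T x) (hy : IsTIntegral L T y) :
    IsTIntegral L T (x * y) := by
  obtain ⟨n, hn⟩ := hx
  obtain ⟨m, hm⟩ := hy
  refine ⟨n + m, ?_⟩
  have : ((Tprod T : ℕ) : L) ^ (n + m) * (x * y)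
      = (((Tprod T : ℕ) : L) ^ n * x) * (((Tprod T : ℕ) : L) ^ m * y) := by ring
  rw [this]
  exact hn.mul hm

variable {L T} in
theorem IsTIntegral.map {x : L} (hx : IsTIntegral L T x) (g : L ≃ₐ[ℚ] L) :
    IsTIntegral L T (g x) := by
  obtain ⟨n, hn⟩ := hx
  refine ⟨n, ?_⟩
  have : ((Tprod T : ℕ) : L) ^ n * g x = g (((Tprod T : ℕ) : L) ^ n * x) := by
    simp
  rw [this]
  exact hn.map ((g : L →ₐ[ℚ] L).restrictScalars ℤ)

/-- The group of `T`-units of `L`. -/
def tUnits : Subgroup Lˣ where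
  carrier := {x | IsTIntegral L T (x : L) ∧ IsTIntegral L T ((x⁻¹ : Lˣ) : L)}
  one_mem' := ⟨by simpa using isTIntegral_one L T, by simpa using isTIntegral_one L T⟩
  mul_mem' := fun {x y} hx hy => ⟨by simpa using hx.1.mul hy.1, by
    rw [mul_inv]
    simpa using hx.2.mul hy.2⟩
  inv_mem' := fun {x} hx => ⟨hx.2, by simpa using hx.1⟩

theorem mem_tUnits {x : Lˣ} :
    x ∈ tUnits L T ↔ IsTIntegral L T (x : L) ∧ IsTIntegral L T ((x⁻¹ : Lˣ) : L) := Iff.rfl

theorem map_mem_tUnits {x : Lˣ} (hx : x ∈ tUnits L T) (g : L ≃ₐ[ℚ] L) :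
    Units.map (g : L →* L) x ∈ tUnits L T :=
  ⟨hx.1.map g, by
    have : ((Units.map (g : L →* L) x)⁻¹ : Lˣ) = Units.map (g : L →* L) x⁻¹ := by
      rw [map_inv]
    rw [this]
    exact hx.2.map g⟩

/-- The `T`-units as a `ℤ`-submodule of `Lˣ` (written additively). -/
def tUnitsSub : Submodule ℤ (Additive Lˣ) :=
  AddSubgroup.toIntSubmodule (Subgroup.toAddSubgroup (tUnits L T))

theorem mem_tUnitsSub {x : Additive Lˣ} :
    x ∈ tUnitsSub L T ↔ x.toMul ∈ tUnits L T := Iff.rfl

theorem tUnitsSub_le_comap (g : L ≃ₐ[ℚ] L) :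
    tUnitsSub L T ≤ (tUnitsSub L T).comap ((globUnits L).ρ g) := by
  intro x hx
  exact map_mem_tUnits L T hx g

/-- The `T`-units of `L` as a `G_L`-module. -/
def E : Rep ℤ (L ≃ₐ[ℚ] L) :=
  Rep.subrepresentation (globUnits L) (tUnitsSub L T) (tUnitsSub_le_comap L T)

/-- The image of the `T`-units in the `T`-ideles. -/
def diagTUnits : Submodule ℤ (J L T) := (tUnitsSub L T).map (diag L T).hom.toLinearMap

theorem diagTUnits_le_comap (g : L ≃ₐ[ℚ] L) :
    diagTUnits L T ≤ (diagTUnits L T).comap ((J L T).ρ g) := by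
  rintro _ ⟨x, hx, rfl⟩
  refine ⟨(globUnits L).ρ g x, tUnitsSub_le_comap L T g hx, ?_⟩
  exact congrArg (fun f => f x) ((diag L T).hom.isIntertwining' g)

/-- The `T`-idele class module `C(L,T) = J(L,T) / E(L,T)` of the layer `L`. -/
def C : Rep ℤ (L ≃ₐ[ℚ] L) :=
  Rep.quotient (J L T) (diagTUnits L T) (diagTUnits_le_comap L T)

/-- The inclusion `E L T ⟶ J L T`. -/
def EtoJ : E L T ⟶ J L T :=
  Rep.subtype (globUnits L) (tUnitsSub L T) (tUnitsSub_le_comap L T) ≫ diag L T

/-- The projection `J L T ⟶ C L T`. -/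
def JtoC : J L T ⟶ C L T := Rep.mkQ (J L T) (diagTUnits L T) (diagTUnits_le_comap L T)

theorem EtoJ_injective (hT : T.Nonempty) : Function.Injective (EtoJ L T).hom := by
  intro x y h
  exact Subtype.ext (diag_injective L T hT h)

theorem JtoC_surjective : Function.Surjective (JtoC L T).hom :=
  Submodule.mkQ_surjective _

theorem range_EtoJ_eq_ker_JtoC :
    LinearMap.range (EtoJ L T).hom.toLinearMap = LinearMap.ker (JtoC L T).hom.toLinearMap := by
  ext y
  constructor
  · rintro ⟨x, rfl⟩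
    exact (Submodule.Quotient.mk_eq_zero _).2 ⟨x.1, x.2, rfl⟩
  · intro hy
    obtain ⟨x, hx, rfl⟩ := (Submodule.Quotient.mk_eq_zero _).1 hy
    exact ⟨⟨x, hx⟩, rfl⟩

theorem EtoJ_comp_JtoC : EtoJ L T ≫ JtoC L T = 0 := by
  ext x
  exact (Submodule.Quotient.mk_eq_zero _).2 ⟨x.1, x.2, rfl⟩

/-- The short complex `E(L,T) ⟶ J(L,T) ⟶ C(L,T)` of `G_L`-modules. -/
def classShortComplex : ShortComplex (Rep ℤ (L ≃ₐ[ℚ] L)) where
  X₁ := E L T
  X₂ := J L T
  X₃ := C L T
  f := EtoJ L T
  g := JtoC L T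
  zero := EtoJ_comp_JtoC L T

/-- `0 → E(L,T) → J(L,T) → C(L,T) → 0` is exact (for `T ≠ ∅`), so Mathlib's long exact sequences
of group cohomology (`groupCohomology.δ`, …) and Tate cohomology apply to it. -/
theorem classShortComplex_shortExact (hT : T.Nonempty) : (classShortComplex L T).ShortExact :=
  shortExact_of_forget _ (EtoJ_injective L T hT) (JtoC_surjective L T) fun x hx => by
    obtain ⟨y, hy, rfl⟩ := (Submodule.Quotient.mk_eq_zero _).1 hx
    exact ⟨⟨y, hy⟩, rfl⟩

end Fermat.Agent.GC.Global
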