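/-
GATE-C / C4→C5 KUMMER-BRIDGE (helper77), part 3: the instance over `(G_K, levelK S K)`.

`K ⊂ ℚ̄` finite, unramified outside `S ∋ p`, `ζ_p ∈ K`.  In helper69's `TotalLoc` language
(`HlcW`, `locResK`) and with `ZMod p`-coefficients `A = Rep.trivial (ZMod p) G_K (ZMod p)`:
* local sizes `#Hlc^n(G_w, A)` from helper41's `LocalNum` (through helper69's `LocIso`, helper78's
  `locMuHom` and helper5's `CoeffChange`);
* `ker (locResK 2) ≃ sha2Mu` (helper78), hence `#ker ≤ #Hlc¹(G_{K,S}, O_S^×)[p]` under the Hasse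
  principle hypothesis;
* the counting inequality `hC1` of `BaseInputs` in `K`-form.
-/
import Fermat.Agent.GC.Global.KummerBridge
import Fermat.Agent.GC.Kummer.HlcSha2
import Fermat.Agent.GC.Kummer.H1Lim
import Fermat.Agent.GC.Local.LocalNum
import Fermat.Agent.GC.Places.TotalLoc
import Fermat.Agent.GC.Places.LocIso
import Fermat.Agent.GC.Places.LocDeg
import Fermat.Agent.GC.Prof.CoeffChangeCup

set_option autoImplicit false

open CategoryTheory

noncomputable section

namespace Fermat.Agent.GC.KBInst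

open Fermat.Agent.GC.Global.KummerBridge
open Fermat.Agent.GC.Prof Fermat.Agent.GC.KumH Fermat.Agent.GC.Places Fermat.Agent.GC.Local.Abs
  Fermat.Agent.GC.C0 Fermat.Agent.GC.Local.KR

local notation "Qb" => AlgebraicClosure ℚ
local notation "GQ" => (AlgebraicClosure ℚ ≃ₐ[ℚ] AlgebraicClosure ℚ)

/-- `ℤ/p` with trivial `G_K`-action, `ZMod p`-coefficients. -/
abbrev TpK (p : ℕ) (K : IntermediateField ℚ Qb) : Rep (ZMod p) K.fixingSubgroup :=
  Rep.trivial (ZMod p) K.fixingSubgroup (ZMod p)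

/-- `ℤ/p` with trivial `G_K`-action, `ℤ`-coefficients. -/
abbrev TzK (p : ℕ) (K : IntermediateField ℚ Qb) : Rep ℤ K.fixingSubgroup :=
  Rep.trivial ℤ K.fixingSubgroup (ZMod p)

section Local

variable (S : Finset Nat.Primes) (q : ℕ) [Fact q.Prime] (K : IntermediateField ℚ Qb)
  [FiniteDimensional ℚ K] (s : GQ)
  {p : ℕ} [Fact p.Prime] {ζ : Qbˣ} (hζ : IsPrimitiveRoot ζ p) (hζS : ζ ∈ sUnitsQS S)
  (hζK : ((ζ : Qbˣ) : Qb) ∈ K)

/-- The additive equivariant equivalence `ℤ/p ≃ μ_p(Ω)` (`ZMod p`-coefficients on the left,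
`ℤ`-coefficients on the right) underlying helper78's `locMuHom`. -/
def locMuAddEquiv :
    (locCoeffAlg q K s (TpK p K)) ≃+ muRep (locField q K s) (PadicAlgCl q) p :=
  AddEquiv.ofBijective
    ((locMuHom q K s hζ hζS hζK).hom.toLinearMap.toAddMonoidHom :
      ZMod p →+ muRep (locField q K s) (PadicAlgCl q) p)
    ⟨locMuHom_injective q K s hζ hζS hζK, locMuHom_surjective q K s hζ hζS hζK⟩

omit [FiniteDimensional ℚ K] in
theorem locMuAddEquiv_apply (a : ZMod p) :
    locMuAddEquiv S q K s hζ hζS hζK a = (locMuHom q K s hζ hζS hζK).hom a := rfl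

omit [FiniteDimensional ℚ K] in
theorem locMuAddEquiv_equivariant (g : GalLoc q K s) (a : locCoeffAlg q K s (TpK p K)) :
    locMuAddEquiv S q K s hζ hζS hζK ((locCoeffAlg q K s (TpK p K)).ρ g a) =
      (muRep (locField q K s) (PadicAlgCl q) p).ρ g (locMuAddEquiv S q K s hζ hζS hζK a) :=
  Rep.hom_comm_apply (locMuHom q K s hζ hζS hζK) g a

include hζ hζS hζK in
/-- `#Hlc^n(G_w, ℤ/p) = #Hlc^n(Gal(Ω/K_w), μ_p)`: PLACES language (`ZMod p`-coefficients) versus Abs
language (`ℤ`-coefficients). -/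
theorem card_HlcW (n : ℕ) :
    Nat.card (HlcW S K (TpK p K) q s n) =
      Nat.card (Hlc (galLevels (locField q K s) (PadicAlgCl q))
        (muRep (locField q K s) (PadicAlgCl q) p) n) := by
  haveI := isDiscrete_res_locHom S q K s (TpK p K)
  haveI := isDiscrete_res_locHomAlg S q K s (TpK p K)
  rw [← card_Hlc_eq_of_addEquiv (levelGalLoc q K s) (locMuAddEquiv S q K s hζ hζS hζK)
    (locMuAddEquiv_equivariant S q K s hζ hζS hζK) n]
  exact Nat.card_congr (HlcLocAlgEquiv q K s (TpK p K) n).toEquiv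

omit [FiniteDimensional ℚ K] in
include hζ hζK in
/-- `μ_p(K_w)` has `p` elements (`ζ_p ∈ K`). -/
theorem card_rootsOfUnity_locField :
    Nat.card (rootsOfUnity p (locField q K s)) = p := by
  have h2 : IsPrimitiveRoot ((ζ : Qbˣ) : Qb) p := hζ.map_of_injective Units.coeHom_injective
  have h3 : IsPrimitiveRoot (s ((ζ : Qbˣ) : Qb)) p :=
    h2.map_of_injective (f := (s : Qb →ₐ[ℚ] Qb)) s.injective
  have h4 : IsPrimitiveRoot (padicEmbedding q (s ((ζ : Qbˣ) : Qb))) p :=
    h3.map_of_injective (f := padicEmbedding q) (padicEmbedding q).injective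
  let z : locField q K s := ⟨_, padicEmbedding_apply_mem_locField q s hζK⟩
  have h5 : IsPrimitiveRoot z p :=
    IsPrimitiveRoot.of_map_of_injective (f := (locField q K s).val) (by exact h4)
      (locField q K s).val.injective
  exact h5.card_rootsOfUnity

include hζ hζS hζK in
/-- **local `h¹`** in PLACES language. -/
theorem card_HlcW_one :
    Nat.card (HlcW S K (TpK p K) q s 1) =
      p * p * (if q = p then p ^ Module.finrank ℚ_[q] (locField q K s) else 1) := by
  rw [card_HlcW S q K s hζ hζS hζK 1, Local.LocalNum.local_card_hlc_one,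
    card_rootsOfUnity_locField q K s hζ hζK]

include hζ hζS hζK in
/-- **local `h²`** in PLACES language. -/
theorem card_HlcW_two : Nat.card (HlcW S K (TpK p K) q s 2) = p := by
  rw [card_HlcW S q K s hζ hζS hζK 2, Local.LocalNum.local_card_hlc_two]

/-- Change of coefficient ring `ℤ → ZMod p` on `Hlc^n(G_K, ℤ/p)`. -/
def coeffEquiv (n : ℕ) :
    Hlc (levelK S K) (TzK p K) n ≃+ Hlc (levelK S K) (TpK p K) n :=
  HlcAddEquiv (levelK S K) (A := TzK p K) (M := TpK p K) (AddEquiv.refl (ZMod p))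
    (fun _ _ => rfl) n

include hζ hζS hζK in
/-- **Localisation in the two languages**: a class of `Hlc^n(G_K, ℤ/p)` (`ℤ`-coefficients) dies in
`Hlc^n(Gal(Ω/K_w), μ_p)` iff its image with `ZMod p`-coefficients dies in `HlcW` (PLACES). -/
theorem locMu_eq_zero_iff (n : ℕ) (y : Hlc (levelK S K) (TzK p K) n) :
    HlcPull (isContHom_locHomAlg S q K s) (locMuHom q K s hζ hζS hζK) n y = 0 ↔
      HlcWRes S K (TpK p K) q s n (coeffEquiv S K n y) = 0 := by
  haveI := isDiscrete_res_locHom S q K s (TpK p K)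
  haveI := isDiscrete_res_locHomAlg S q K s (TpK p K)
  -- step 1: coefficient change on the local side
  have hsymm : ∀ (g : GalLoc q K s) (m : muRep (locField q K s) (PadicAlgCl q) p),
      (locMuAddEquiv S q K s hζ hζS hζK).symm
          ((muRep (locField q K s) (PadicAlgCl q) p).ρ g m) =
        (locCoeffAlg q K s (TpK p K)).ρ g ((locMuAddEquiv S q K s hζ hζS hζK).symm m) := by
    intro g m
    rw [AddEquiv.symm_apply_eq, locMuAddEquiv_equivariant, AddEquiv.apply_symm_apply]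
  have h1 := HlcAdd_HlcPull (levelK S K) (isContHom_locHomAlg S q K s)
    (A := TzK p K) (B := muRep (locField q K s) (PadicAlgCl q) p) (M := TpK p K)
    (N := locCoeffAlg q K s (TpK p K))
    (AddEquiv.refl (ZMod p)).toAddMonoidHom (fun _ _ => rfl)
    (locMuAddEquiv S q K s hζ hζS hζK).symm.toAddMonoidHom hsymm
    (locMuHom q K s hζ hζS hζK) (𝟙 _)
    (fun a => (locMuAddEquiv S q K s hζ hζS hζK).symm_apply_apply a) n y
  have hinj : Function.Injective
      (HlcAdd (levelGalLoc q K s) (locMuAddEquiv S q K s hζ hζS hζK).symm.toAddMonoidHom hsymm n) :=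
    (HlcAddEquiv (levelGalLoc q K s) (locMuAddEquiv S q K s hζ hζS hζK).symm hsymm n).injective
  -- step 2: subgroup form versus absolute form of the local group
  have h2 := congr($(HlcRes_locHom_comp_HlcLocAlgIso S q K s (TpK p K) n) (coeffEquiv S K n y))
  simp only [ModuleCat.hom_comp, LinearMap.comp_apply] at h2
  have hiso : Function.Injective (HlcLocAlgIso q K s (TpK p K) n).hom :=
    (HlcLocAlgEquiv q K s (TpK p K) n).injective
  constructor
  · intro h
    rw [h, map_zero] at h1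
    have h3 : HlcRes (isContHom_locHomAlg S q K s) (TpK p K) n (coeffEquiv S K n y) = 0 := h1.symm
    rw [← h2] at h3
    exact hiso (h3.trans (map_zero _).symm)
  · intro h
    apply hinj
    rw [h1, map_zero]
    show HlcRes (isContHom_locHomAlg S q K s) (TpK p K) n (coeffEquiv S K n y) = 0
    rw [← h2]
    have h' : HlcRes (isContHom_locHom S q K s) (TpK p K) n (coeffEquiv S K n y) = 0 := h
    rw [h', map_zero]

end Local

/-! ### The product over the places of `K` above `S` -/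

section Total

attribute [local instance] Fermat.Agent.GC.Places.fact_prime

variable (S : Finset Nat.Primes) (K : IntermediateField ℚ Qb) [FiniteDimensional ℚ K]
  {p : ℕ} [Fact p.Prime] {ζ : Qbˣ} (hζ : IsPrimitiveRoot ζ p) (hζS : ζ ∈ sUnitsQS S)
  (hζK : ((ζ : Qbˣ) : Qb) ∈ K)

/-- The number of places of `K` above `S` (double coset count). -/
def numPlaces : ℕ := ∑ q : ↥S, Nat.card (placeIdx (q.1 : ℕ) K)

include hζ hζS hζK in
/-- The places above one prime `q`: `#∏_{w ∣ q} Hlc¹(G_w, ℤ/p)`. -/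
theorem card_pi_HlcW_one (q : ℕ) [Fact q.Prime] :
    Nat.card (∀ w : placeIdx q K, HlcW S K (TpK p K) q (placeRep q K w) 1) =
      (p * p) ^ Nat.card (placeIdx q K) *
        (if q = p then p ^ Module.finrank ℚ K else 1) := by
  classical
  letI : Fintype (placeIdx q K) := Fintype.ofFinite _
  rw [Nat.card_pi]
  simp_rw [card_HlcW_one S q K _ hζ hζS hζK]
  rw [Finset.prod_mul_distrib, Finset.prod_const, Finset.card_univ, Nat.card_eq_fintype_card]
  congr 1
  by_cases h : q = p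
  · simp only [h, if_true]
    subst h
    rw [Finset.prod_pow_eq_pow_sum, Fermat.Agent.GC.Places.sum_finrank_locField]
  · simp only [h, if_false, Finset.prod_const_one]

include hζ hζS hζK in
/-- **`ℓ¹`**: `#∏_{q ∈ S} ∏_{w ∣ q} Hlc¹(G_w, ℤ/p) = p^(2·#S_K + [K:ℚ])` (`p ∈ S`, `ζ_p ∈ K`). -/
theorem card_L1 (hpS : (⟨p, Fact.out⟩ : Nat.Primes) ∈ S) :
    Nat.card (∀ q : ↥S, ∀ w : placeIdx (q.1 : ℕ) K,
        HlcW S K (TpK p K) (q.1 : ℕ) (placeRep (q.1 : ℕ) K w) 1) =
      p ^ (2 * numPlaces S K + Module.finrank ℚ K) := by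
  classical
  rw [Nat.card_pi]
  simp_rw [card_pi_HlcW_one S K hζ hζS hζK]
  rw [Finset.prod_mul_distrib, Finset.prod_pow_eq_pow_sum]
  have h1 : ∏ q : ↥S, (if ((q.1 : Nat.Primes) : ℕ) = p then p ^ Module.finrank ℚ K else 1) =
      p ^ Module.finrank ℚ K := by
    rw [Finset.prod_eq_single (⟨⟨p, Fact.out⟩, hpS⟩ : ↥S)]
    · simp
    · intro q _ hq
      rw [if_neg]
      intro h
      apply hq
      apply Subtype.ext
      apply Subtype.ext
      exact h
    · intro h
      exact absurd (Finset.mem_univ _) h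
  rw [h1, ← pow_two, ← pow_mul, ← pow_add]
  rfl

/-- The family of all places of `K` above `S`. -/
abbrev PlaceFam : Type := Σ q : ↥S, placeIdx (q.1 : ℕ) K

/-- The prime below a place. -/
abbrev famPrime (i : PlaceFam S K) : ℕ := (i.1.1 : ℕ)

/-- The representative of a place. -/
abbrev famRep (i : PlaceFam S K) : GQ := placeRep (i.1.1 : ℕ) K i.2

/-- helper78's `Ш²(ℤ/p)` for the family of all places of `K` above `S`. -/
abbrev sha2All : AddSubgroup (Hlc (levelK S K) (TzK p K) 2) :=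
  sha2Mu K hζ hζS hζK (famPrime S K) (famRep S K)

/-- **`ker (locResK 2)` is helper78's `Ш²(ℤ/p)`** (through the change of coefficient ring). -/
theorem card_ker_locResK_two :
    Nat.card (LinearMap.ker (locResK S K (TpK p K) 2)) = Nat.card (sha2All S K hζ hζS hζK) := by
  symm
  refine Nat.card_congr ((coeffEquiv S K 2).toEquiv.subtypeEquiv fun y => ?_)
  show y ∈ sha2Mu K hζ hζS hζK (famPrime S K) (famRep S K) ↔
    coeffEquiv S K 2 y ∈ LinearMap.ker (locResK S K (TpK p K) 2)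
  rw [mem_sha2Mu_iff, LinearMap.mem_ker]
  constructor
  · intro h
    funext q w
    exact (locMu_eq_zero_iff S (q.1 : ℕ) K (placeRep (q.1 : ℕ) K w) hζ hζS hζK 2 y).1 (h ⟨q, w⟩)
  · intro h i
    exact (locMu_eq_zero_iff S (i.1.1 : ℕ) K (placeRep (i.1.1 : ℕ) K i.2) hζ hζS hζK 2 y).2
      (congrFun (congrFun h i.1) i.2)

/-- The HASSE PRINCIPLE hypothesis (helper78's shape, `HlcSha2.lean`) for the family of all places
of `K` above `S`: a `p`-torsion class of `Hlc²(G_{K,S}, O_S^×)` which dies in every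
`Hlc²(G_w, Ω^×)` is zero.  This is what `[A]` + (LM-J) deliver (`KummerBridge.e2_inj`). -/
def HasseHyp (p : ℕ) : Prop :=
  ∀ z : Hlc (levelK S K) (sUnitsK S K) 2, (p : ℤ) • z = 0 →
    (∀ i : PlaceFam S K, HlcPull (isContHom_locHomAlg S (famPrime S K i) K (famRep S K i))
      (locSUnitsHom S (famPrime S K i) K (famRep S K i)) 2 z = 0) → z = 0

include hζ hζS hζK in
/-- Under the Hasse principle, `Ш²(ℤ/p)` is finite (`X = Hlc¹(G_{K,S}, O_S^×)` finite). -/
theorem finite_sha2All (hpS : (⟨p, Fact.out⟩ : Nat.Primes) ∈ S) (hHasse : HasseHyp S K p)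
    [Finite (Hlc (levelK S K) (sUnitsK S K) 1)] : Finite (sha2All S K hζ hζS hζK) := by
  have hsub : (sha2All S K hζ hζS hζK : Set (Hlc (levelK S K) (TzK p K) 2)) ⊆
      Set.range ((KumH.kummerSeq K hζ hζS hζK Fact.out hpS).δ (levelK S K) 1) := by
    intro y hy
    exact exists_δ_eq_of_loc_eq_zero K hζ hζS hζK Fact.out hpS (famPrime S K) (famRep S K)
      hHasse y ((mem_sha2Mu_iff K hζ hζS hζK _ _ y).1 hy)
  exact ((Set.finite_range _).subset hsub).to_subtype

include hζ hζS hζK in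
/-- **`hC1` of `BaseInputs`, in `K`-form** (helper59 2000).  `K ∋ ζ_p` finite, unramified outside
`S ∋ p`; HASSE for the `p`-torsion of `Hlc²(G_{K,S}, O_S^×)`; Dirichlet `|O_{K,S}^×/p| = p^e0` with
`2·e0 = 2·#S_K + [K:ℚ]`.  Then, with `ZMod p`-coefficients and in helper69's `TotalLoc` language,
`ℓ¹ + 2·dim ker(loc²) ≤ 2·h¹`. -/
theorem hC1_K (hK : K.IsUnramifiedOutside S) (hpS : (⟨p, Fact.out⟩ : Nat.Primes) ∈ S)
    (hHasse : HasseHyp S K p) (e0 : ℕ)
    (h0 : Nat.card (Hlc (levelK S K) (sUnitsK S K) 0 ⧸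
      divC (p : ℤ) (Hlc (levelK S K) (sUnitsK S K) 0)) = p ^ e0)
    (hnum : 2 * e0 = 2 * numPlaces S K + Module.finrank ℚ K) :
    FiniteDimensional (ZMod p) (Hlc (levelK S K) (TpK p K) 1) ∧
    FiniteDimensional (ZMod p) (∀ q : ↥S, ∀ w : placeIdx (q.1 : ℕ) K,
        HlcW S K (TpK p K) (q.1 : ℕ) (placeRep (q.1 : ℕ) K w) 1) ∧
    FiniteDimensional (ZMod p) (LinearMap.ker (locResK S K (TpK p K) 2)) ∧
    Module.finrank (ZMod p) (∀ q : ↥S, ∀ w : placeIdx (q.1 : ℕ) K,
        HlcW S K (TpK p K) (q.1 : ℕ) (placeRep (q.1 : ℕ) K w) 1) +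
      2 * Module.finrank (ZMod p) (LinearMap.ker (locResK S K (TpK p K) 2)) ≤
      2 * Module.finrank (ZMod p) (Hlc (levelK S K) (TpK p K) 1) := by
  have hp : p.Prime := Fact.out
  haveI hX : Finite (Hlc (levelK S K) (sUnitsK S K) 1) := (KumXF.finite_hlc_one_sUnitsK hK).1
  set KS := KumH.kummerSeq K hζ hζS hζK hp hpS with hKS
  -- global `h¹` over `ℤ`
  haveI hf0 : Finite (Hlc (levelK S K) (sUnitsK S K) 0 ⧸
      divC (p : ℤ) (Hlc (levelK S K) (sUnitsK S K) 0)) :=
    Nat.finite_of_card_ne_zero (by rw [h0]; exact pow_ne_zero _ hp.ne_zero)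
  haveI hf1 : Finite (torsC (p : ℤ) (Hlc (levelK S K) (sUnitsK S K) (0 + 1))) :=
    Subtype.finite
  haveI hH1z : Finite (Hlc (levelK S K) (TzK p K) (0 + 1)) := finite_hlc_succ (levelK S K) KS 0
  have c1 := card_hlc_succ (levelK S K) KS 0
  rw [h0] at c1
  set t := Nat.card (torsC (p : ℤ) (Hlc (levelK S K) (sUnitsK S K) (0 + 1))) with ht
  -- transfer to `ZMod p`
  haveI hH1p : Finite (Hlc (levelK S K) (TpK p K) 1) :=
    Finite.of_equiv _ (coeffEquiv S K 1).toEquiv
  have c1p : Nat.card (Hlc (levelK S K) (TpK p K) 1) = p ^ e0 * t := by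
    rw [← c1]
    exact (Nat.card_congr (coeffEquiv S K 1).toEquiv).symm
  -- `Ш²`
  haveI hsha : Finite (sha2All S K hζ hζS hζK) := finite_sha2All S K hζ hζS hζK hpS hHasse
  have c2 : Nat.card (LinearMap.ker (locResK S K (TpK p K) 2)) ≤ t := by
    rw [card_ker_locResK_two S K hζ hζS hζK]
    refine (card_sha2Mu_le K hζ hζS hζK hp hpS (famPrime S K) (famRep S K) hHasse).trans ?_
    refine le_of_eq (Nat.card_congr (Equiv.subtypeEquivRight fun x => ?_))
    rw [mem_torsC, Nat.cast_smul_eq_nsmul]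
  haveI hker : Finite (LinearMap.ker (locResK S K (TpK p K) 2)) := by
    apply Nat.finite_of_card_ne_zero
    rw [card_ker_locResK_two S K hζ hζS hζK]
    exact Nat.card_pos.ne'
  -- local
  have c3 := card_L1 S K hζ hζS hζK hpS
  haveI hL1 : Finite (∀ q : ↥S, ∀ w : placeIdx (q.1 : ℕ) K,
      HlcW S K (TpK p K) (q.1 : ℕ) (placeRep (q.1 : ℕ) K w) 1) :=
    Nat.finite_of_card_ne_zero (by rw [c3]; exact pow_ne_zero _ hp.ne_zero)
  -- finite-dimensionality
  have fd1 : FiniteDimensional (ZMod p) (Hlc (levelK S K) (TpK p K) 1) :=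
    Module.Finite.of_finite
  have fd2 : FiniteDimensional (ZMod p) (∀ q : ↥S, ∀ w : placeIdx (q.1 : ℕ) K,
      HlcW S K (TpK p K) (q.1 : ℕ) (placeRep (q.1 : ℕ) K w) 1) := Module.Finite.of_finite
  have fd3 : FiniteDimensional (ZMod p) (LinearMap.ker (locResK S K (TpK p K) 2)) :=
    Module.Finite.of_finite
  refine ⟨fd1, fd2, fd3, ?_⟩
  -- cardinalities as powers of `p`
  have e1 := Module.natCard_eq_pow_finrank (K := ZMod p) (V := Hlc (levelK S K) (TpK p K) 1)
  have e2 := Module.natCard_eq_pow_finrank (K := ZMod p) (V := ∀ q : ↥S, ∀ w : placeIdx (q.1 : ℕ) K,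
      HlcW S K (TpK p K) (q.1 : ℕ) (placeRep (q.1 : ℕ) K w) 1)
  have e3 := Module.natCard_eq_pow_finrank (K := ZMod p)
    (V := LinearMap.ker (locResK S K (TpK p K) 2))
  rw [Nat.card_zmod] at e1 e2 e3
  rw [c1p] at e1
  rw [c3] at e2
  rw [e3] at c2
  set a := Module.finrank (ZMod p) (∀ q : ↥S, ∀ w : placeIdx (q.1 : ℕ) K,
      HlcW S K (TpK p K) (q.1 : ℕ) (placeRep (q.1 : ℕ) K w) 1)
  set b := Module.finrank (ZMod p) (LinearMap.ker (locResK S K (TpK p K) 2))
  set c := Module.finrank (ZMod p) (Hlc (levelK S K) (TpK p K) 1)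
  have ha : a = 2 * numPlaces S K + Module.finrank ℚ K :=
    (Nat.pow_right_injective hp.two_le e2).symm
  rw [← Nat.pow_le_pow_iff_right hp.one_lt]
  calc p ^ (a + 2 * b) = p ^ a * (p ^ b) ^ 2 := by rw [pow_add, ← pow_mul, mul_comm b 2]
    _ ≤ p ^ a * t ^ 2 := Nat.mul_le_mul_left _ (Nat.pow_le_pow_left c2 2)
    _ = (p ^ e0 * t) ^ 2 := by rw [ha, ← hnum, mul_pow, ← pow_mul, mul_comm e0 2]
    _ = p ^ (2 * c) := by rw [e1, ← pow_mul, mul_comm c 2]

omit [FiniteDimensional ℚ K] in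
include hζ hζS hζK in
/-- **(N-b), `h3` of `BaseInputs` in `K`-form**: `Hlc³(G_K, ZMod p) = 0` if `Hlc²(G_{K,S}, O_S^×)` is
`p`-divisible and `Hlc³(G_{K,S}, O_S^×)` has no `p`-torsion (`EJDHyp.e2_div`, `EJDHyp.e3_tf`). -/
theorem h3_K (hpS : (⟨p, Fact.out⟩ : Nat.Primes) ∈ S)
    (hdiv : ∀ x : Hlc (levelK S K) (sUnitsK S K) 2,
      ∃ x' : Hlc (levelK S K) (sUnitsK S K) 2, (p : ℤ) • x' = x)
    (htf : ∀ z : Hlc (levelK S K) (sUnitsK S K) 3, (p : ℤ) • z = 0 → z = 0) :
    Limits.IsZero (Hlc (levelK S K) (TpK p K) 3) := by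
  rw [ModuleCat.isZero_iff_subsingleton]
  have h : Subsingleton (Hlc (levelK S K) (TzK p K) 3) :=
    ⟨fun a b => (hlc_zmod_eq_zero_of_sUnitsK K hζ hζS hζK Fact.out hpS 2 hdiv htf a).trans
      (hlc_zmod_eq_zero_of_sUnitsK K hζ hζS hζK Fact.out hpS 2 hdiv htf b).symm⟩
  exact (coeffEquiv S K 3).symm.toEquiv.subsingleton

/-- Under the Hasse principle the `p`-torsion of `Hlc²(G_{K,S}, O_S^×)` is finite (it embeds into
the product of the `Br(K_w)[p]`). -/
theorem finite_tors_E2 (hHasse : HasseHyp S K p) :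
    Finite (torsC (p : ℤ) (Hlc (levelK S K) (sUnitsK S K) 2)) := by
  classical
  let Φ : torsC (p : ℤ) (Hlc (levelK S K) (sUnitsK S K) 2) →
      ∀ i : PlaceFam S K,
        {x : Hlc (galLevels (locField (famPrime S K i) K (famRep S K i))
            (PadicAlgCl (famPrime S K i)))
          (unitsRep (locField (famPrime S K i) K (famRep S K i))
            (PadicAlgCl (famPrime S K i))) 2 // p • x = 0} :=
    fun z i => ⟨HlcPull (isContHom_locHomAlg S (famPrime S K i) K (famRep S K i))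
      (locSUnitsHom S (famPrime S K i) K (famRep S K i)) 2 z.1, by
        rw [← map_nsmul, ← Nat.cast_smul_eq_nsmul ℤ, mem_torsC.1 z.2, map_zero]⟩
  have hΦ : Function.Injective Φ := by
    intro z z' h
    have hd : z.1 - z'.1 = 0 := by
      apply hHasse
      · have h1 := mem_torsC.1 (Submodule.sub_mem _ z.2 z'.2)
        exact (int_smul_eq_zsmul _ _ _).symm.trans h1
      · intro i
        have := congrArg Subtype.val (congrFun h i)
        rw [map_sub]
        exact sub_eq_zero.2 this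
    exact Subtype.ext (sub_eq_zero.1 hd)
  have hfac : ∀ i : PlaceFam S K, Finite
      {x : Hlc (galLevels (locField (famPrime S K i) K (famRep S K i))
            (PadicAlgCl (famPrime S K i)))
          (unitsRep (locField (famPrime S K i) K (famRep S K i))
            (PadicAlgCl (famPrime S K i))) 2 // p • x = 0} := fun i =>
    Nat.finite_of_card_ne_zero (by
      rw [Local.LocalNum.local_card_torsion_hlc_two_units]
      exact (Fact.out : p.Prime).ne_zero)
  exact Finite.of_injective Φ hΦ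

include hζ hζS hζK in
/-- **(N-b), `fin2` of `BaseInputs` in `K`-form**: `Hlc²(G_K, ZMod p)` is finite-dimensional under
the Hasse principle. -/
theorem fin2_K (hK : K.IsUnramifiedOutside S) (hpS : (⟨p, Fact.out⟩ : Nat.Primes) ∈ S)
    (hHasse : HasseHyp S K p) :
    FiniteDimensional (ZMod p) (Hlc (levelK S K) (TpK p K) 2) := by
  haveI hX : Finite (Hlc (levelK S K) (sUnitsK S K) 1) := (KumXF.finite_hlc_one_sUnitsK hK).1
  haveI : Finite (Hlc (levelK S K) (sUnitsK S K) 1 ⧸
      divC (p : ℤ) (Hlc (levelK S K) (sUnitsK S K) 1)) := Quotient.finite _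
  haveI : Finite (torsC (p : ℤ) (Hlc (levelK S K) (sUnitsK S K) (1 + 1))) :=
    finite_tors_E2 S K hHasse
  haveI : Finite (Hlc (levelK S K) (TzK p K) (1 + 1)) :=
    finite_hlc_succ (levelK S K) (KumH.kummerSeq K hζ hζS hζK Fact.out hpS) 1
  haveI : Finite (Hlc (levelK S K) (TpK p K) 2) := Finite.of_equiv _ (coeffEquiv S K 2).toEquiv
  exact Module.Finite.of_finite

end Total

end Fermat.Agent.GC.KBInst
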