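/-
GATE-C / C4→C5 KUMMER-BRIDGE (helper77), part 2: `p`-primary reductions.

`Hlc^(n+1)` is a torsion group (finite levels + `|G/U|` kills `H^(n+1)(G/U, -)`), hence for a prime
`p` and `c = (p : k)` the hypotheses `[A]`, `[B']` of part 1 only need to be known on `p`-primary
parts:
* `adiv_of_atf` : no `p`-torsion in `Hlc^(n+1)(M)` ⟹ `Hlc^(n+1)(M)` is `p`-divisible;
* `bonto_of_bontop` : `p`-primary classes of `Hlc²(D)` come from `Hlc²(J)` ⟹ the cokernel of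
  `Hlc²(J) → Hlc²(D)` has no `p`-torsion;
* `bdiv_of_bdivp` : the `p`-primary part of `ker(Hlc²(J) → Hlc²(D))` is `p`-divisible ⟹ the whole
  kernel is.
-/
import Fermat.Agent.GC.Global.KummerBridge
import Fermat.Agent.GC.Prof.FiniteLevelH
import Fermat.Agent.GC.Tate.Cor

set_option autoImplicit false

open CategoryTheory

noncomputable section

namespace Fermat.Agent.GC.Global.KummerBridge

open Fermat.Agent.GC.Prof Fermat.Agent.GC.KumH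

universe u

/-! ### Torsion -/

section Torsion

variable {k G : Type u} [CommRing k] [Group G] (𝒰 : LevelSystem G)

/-- Positive-degree level-constant cohomology is torsion. -/
theorem hlc_torsion (M : Rep.{u} k G) [IsDiscrete 𝒰 M] (n : ℕ) (x : Hlc 𝒰 M (n + 1)) :
    ∃ N : ℕ, N ≠ 0 ∧ N • x = 0 := by
  obtain ⟨U₀, hU₀, -, -⟩ := 𝒰.exists_normal
  obtain ⟨V, hV, -, hfi, hn, y, rfl⟩ := exists_Hinfl_eq 𝒰 M x hU₀
  haveI := hn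
  haveI := hfi
  haveI : Finite (G ⧸ V) := Subgroup.finite_quotient_of_finiteIndex
  refine ⟨Nat.card (G ⧸ V), Nat.card_pos.ne', ?_⟩
  rw [← map_nsmul, Fermat.Agent.GC.Tate.card_nsmul_groupCohomology_eq_zero, map_zero]

end Torsion

/-! ### The `p`-primary decomposition of a torsion element -/

section Decomp

variable {M : Type*} [AddCommGroup M]

/-- A torsion element `x` is `w' • x + p • (w • x)` with `w' • x` of `p`-power order. -/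
theorem torsion_decomp {p : ℕ} (hp : p.Prime) (x : M) (N : ℕ) (hN : N ≠ 0) (hx : N • x = 0) :
    ∃ (a : ℕ) (w w' : ℤ), (p ^ a) • (w' • x) = 0 ∧ x = w' • x + p • (w • x) := by
  set e := N.factorization p with he
  set m := N / p ^ e with hm
  have hNpm : p ^ e * m = N := Nat.ordProj_mul_ordCompl_eq_self N p
  have hcop : Nat.Coprime (p ^ (e + 1)) m := (Nat.coprime_ordCompl hp hN).pow_left _
  have hcopZ : IsCoprime ((p ^ (e + 1) : ℕ) : ℤ) (m : ℤ) := Nat.isCoprime_iff_coprime.2 hcop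
  obtain ⟨u, v, huv⟩ := hcopZ
  refine ⟨e + 1, u * (p ^ e : ℕ), v * m, ?_, ?_⟩
  · rw [← natCast_zsmul, ← mul_smul]
    have : ((p ^ (e + 1) : ℕ) : ℤ) * (v * m) = (v * p) * ((p ^ e * m : ℕ) : ℤ) := by
      push_cast
      ring
    rw [this, hNpm, mul_smul, natCast_zsmul, hx, smul_zero]
  · have h1 : v * (m : ℤ) + (p : ℤ) * (u * ((p ^ e : ℕ) : ℤ)) = 1 := by
      rw [← huv]
      push_cast
      ring
    have h2 : p • ((u * ((p ^ e : ℕ) : ℤ)) • x) = ((p : ℤ) * (u * ((p ^ e : ℕ) : ℤ))) • x := by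
      rw [mul_smul (p : ℤ) (u * ((p ^ e : ℕ) : ℤ)) x, natCast_zsmul]
    rw [h2, ← add_smul, h1, one_smul]

/-- No `p`-torsion implies no `p^a`-torsion. -/
theorem eq_zero_of_pow_nsmul_eq_zero {p : ℕ} (htf : ∀ y : M, p • y = 0 → y = 0) (a : ℕ) (y : M)
    (hy : (p ^ a) • y = 0) : y = 0 := by
  induction a with
  | zero => simpa using hy
  | succ a ih =>
    apply ih
    apply htf
    rw [← mul_smul, ← pow_succ']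
    exact hy

end Decomp

/-! ### `p`-primary reductions -/

section Reductions

variable {k G : Type u} [CommRing k] [Group G] (𝒰 : LevelSystem G) {p : ℕ}

/-- **`[A]`, divisibility half for free**: if `Hlc^(n+1)(M)` has no `p`-torsion, it is
`p`-divisible. -/
theorem adiv_of_atf (hp : p.Prime) (M : Rep.{u} k G) [IsDiscrete 𝒰 M] (n : ℕ)
    (hAtf : ∀ d : Hlc 𝒰 M (n + 1), (p : k) • d = 0 → d = 0) (d : Hlc 𝒰 M (n + 1)) :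
    ∃ d' : Hlc 𝒰 M (n + 1), (p : k) • d' = d := by
  obtain ⟨N, hN, hNd⟩ := hlc_torsion 𝒰 M n d
  obtain ⟨a, w, w', h1, h2⟩ := torsion_decomp hp d N hN hNd
  have htf : ∀ y : Hlc 𝒰 M (n + 1), p • y = 0 → y = 0 := fun y hy =>
    hAtf y (by rw [Nat.cast_smul_eq_nsmul]; exact hy)
  have h3 := eq_zero_of_pow_nsmul_eq_zero htf a _ h1
  refine ⟨w • d, ?_⟩
  rw [Nat.cast_smul_eq_nsmul]
  rw [h3, zero_add] at h2
  exact h2.symm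

variable {X : ShortComplex (Rep.{u} k G)} [IsDiscrete 𝒰 X.X₂] [IsDiscrete 𝒰 X.X₃]

/-- **`[B']`, onto half**: if every `p`-primary class of `Hlc^(n+1)(D)` comes from `Hlc^(n+1)(J)`
then the cokernel of `Hlc^(n+1)(J) → Hlc^(n+1)(D)` has no `p`-torsion. -/
theorem bonto_of_bontop (hp : p.Prime) (n : ℕ)
    (hBontop : ∀ z : Hlc 𝒰 X.X₃ (n + 1), (∃ a : ℕ, (p ^ a) • z = 0) →
      ∃ x : Hlc 𝒰 X.X₂ (n + 1), HlcMap 𝒰 X.g (n + 1) x = z)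
    (z : Hlc 𝒰 X.X₃ (n + 1))
    (hz : ∃ x : Hlc 𝒰 X.X₂ (n + 1), HlcMap 𝒰 X.g (n + 1) x = (p : k) • z) :
    ∃ x : Hlc 𝒰 X.X₂ (n + 1), HlcMap 𝒰 X.g (n + 1) x = z := by
  obtain ⟨x₁, hx₁⟩ := hz
  obtain ⟨N, hN, hNz⟩ := hlc_torsion 𝒰 X.X₃ n z
  obtain ⟨a, w, w', h1, h2⟩ := torsion_decomp hp z N hN hNz
  obtain ⟨x₂, hx₂⟩ := hBontop (w' • z) ⟨a, h1⟩
  refine ⟨x₂ + w • x₁, ?_⟩
  rw [map_add, hx₂, map_zsmul, hx₁, Nat.cast_smul_eq_nsmul, smul_comm w p z]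
  exact h2.symm

/-- **`[B']`, kernel half**: if the `p`-primary part of `ker(Hlc^(n+1)(J) → Hlc^(n+1)(D))` is
`p`-divisible (inside the kernel), so is the whole kernel. -/
theorem bdiv_of_bdivp (hp : p.Prime) (n : ℕ)
    (hBdivp : ∀ x : Hlc 𝒰 X.X₂ (n + 1), HlcMap 𝒰 X.g (n + 1) x = 0 → (∃ a : ℕ, (p ^ a) • x = 0) →
      ∃ x' : Hlc 𝒰 X.X₂ (n + 1), HlcMap 𝒰 X.g (n + 1) x' = 0 ∧ (p : k) • x' = x)
    (x : Hlc 𝒰 X.X₂ (n + 1)) (hx : HlcMap 𝒰 X.g (n + 1) x = 0) :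
    ∃ x' : Hlc 𝒰 X.X₂ (n + 1), HlcMap 𝒰 X.g (n + 1) x' = 0 ∧ (p : k) • x' = x := by
  obtain ⟨N, hN, hNx⟩ := hlc_torsion 𝒰 X.X₂ n x
  obtain ⟨a, w, w', h1, h2⟩ := torsion_decomp hp x N hN hNx
  obtain ⟨x'', hgx'', hx''⟩ := hBdivp (w' • x) (by rw [map_zsmul, hx, smul_zero]) ⟨a, h1⟩
  refine ⟨x'' + w • x, ?_, ?_⟩
  · rw [map_add, hgx'', map_zsmul, hx, smul_zero, add_zero]
  · rw [smul_add, hx'', Nat.cast_smul_eq_nsmul]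
    exact h2.symm

end Reductions

/-! ### The hypothesis package `[A] + [B'] + (LM-J)` and its consequences for `E` -/

section Package

variable {k G : Type u} [CommRing k] [Group G] (𝒰 : LevelSystem G) (p : ℕ)
  (X : ShortComplex (Rep.{u} k G)) [IsDiscrete 𝒰 X.X₁] [IsDiscrete 𝒰 X.X₂] [IsDiscrete 𝒰 X.X₃]

/-- What C4 delivers about `0 → E → J → D → 0` (`E = X.X₁` the `S`-units, `J = X.X₂` the
`S`-ideles, `D = X.X₃` the class module), all on `p`-primary parts: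
* `atf`   = `[A]`: `Hlc¹(D)` has no `p`-torsion;
* `j1`    = Hilbert 90 for `J` (weak form: `Hlc¹(J) → Hlc¹(D)` is zero);
* `j3`    = local `H³`: `Hlc³(J)` has no `p`-torsion;
* `bdivp` = `[B']`: the `p`-primary part of `ker(Hlc²(J) → Hlc²(D))` is `p`-divisible;
* `bontop`= `[B']`: every `p`-primary class of `Hlc²(D)` comes from `Hlc²(J)`. -/
structure EJDHyp : Prop where
  atf : ∀ d : Hlc 𝒰 X.X₃ 1, (p : k) • d = 0 → d = 0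
  j1 : ∀ x : Hlc 𝒰 X.X₂ 1, HlcMap 𝒰 X.g 1 x = 0
  j3 : ∀ x : Hlc 𝒰 X.X₂ 3, (p : k) • x = 0 → x = 0
  bdivp : ∀ x : Hlc 𝒰 X.X₂ 2, HlcMap 𝒰 X.g 2 x = 0 → (∃ a : ℕ, (p ^ a) • x = 0) →
    ∃ x' : Hlc 𝒰 X.X₂ 2, HlcMap 𝒰 X.g 2 x' = 0 ∧ (p : k) • x' = x
  bontop : ∀ z : Hlc 𝒰 X.X₃ 2, (∃ a : ℕ, (p ^ a) • z = 0) →
    ∃ x : Hlc 𝒰 X.X₂ 2, HlcMap 𝒰 X.g 2 x = z

namespace EJDHyp

variable {𝒰 p X} (H : EJDHyp 𝒰 p X) (hp : p.Prime) (hX : X.ShortExact)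

omit [IsDiscrete 𝒰 X.X₁] in
include H hp in
theorem adiv (d : Hlc 𝒰 X.X₃ 1) : ∃ d' : Hlc 𝒰 X.X₃ 1, (p : k) • d' = d :=
  adiv_of_atf 𝒰 hp X.X₃ 0 H.atf d

omit [IsDiscrete 𝒰 X.X₁] in
include H hp in
theorem bdiv (x : Hlc 𝒰 X.X₂ 2) (hx : HlcMap 𝒰 X.g 2 x = 0) :
    ∃ x' : Hlc 𝒰 X.X₂ 2, HlcMap 𝒰 X.g 2 x' = 0 ∧ (p : k) • x' = x :=
  bdiv_of_bdivp 𝒰 hp 1 H.bdivp x hx

omit [IsDiscrete 𝒰 X.X₁] in
include H hp in
theorem bonto (z : Hlc 𝒰 X.X₃ 2) (hz : ∃ x : Hlc 𝒰 X.X₂ 2, HlcMap 𝒰 X.g 2 x = (p : k) • z) :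
    ∃ x : Hlc 𝒰 X.X₂ 2, HlcMap 𝒰 X.g 2 x = z :=
  bonto_of_bontop 𝒰 hp 1 H.bontop z hz

omit [IsDiscrete 𝒰 X.X₁] in
include H in
theorem d2 (z : Hlc 𝒰 X.X₃ 2) (hz : (p : k) • z = 0) :
    ∃ x : Hlc 𝒰 X.X₂ 2, HlcMap 𝒰 X.g 2 x = z :=
  H.bontop z ⟨1, by rw [pow_one, ← Nat.cast_smul_eq_nsmul k]; exact hz⟩

include H hp hX in
/-- `Hlc²(E)` is `p`-divisible. -/
theorem e2_div (y : Hlc 𝒰 X.X₁ 2) : ∃ y' : Hlc 𝒰 X.X₁ 2, (p : k) • y' = y :=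
  KummerBridge.e2_div 𝒰 hX (p : k) (H.adiv hp) (H.bdiv hp) y

include H hp hX in
/-- `Hlc³(E)` has no `p`-torsion. -/
theorem e3_tf (y : Hlc 𝒰 X.X₁ 3) (hy : (p : k) • y = 0) : y = 0 :=
  KummerBridge.e3_tf 𝒰 hX (p : k) H.j3 (H.bonto hp) y hy

include H hp hX in
/-- `|Hlc²(J)[p]| = |Hlc²(E)[p]| · |Hlc²(D)[p]|`. -/
theorem card_tors :
    Nat.card (torsC (p : k) (Hlc 𝒰 X.X₂ 2)) =
      Nat.card (torsC (p : k) (Hlc 𝒰 X.X₁ 2)) * Nat.card (torsC (p : k) (Hlc 𝒰 X.X₃ 2)) :=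
  card_tors_e2 𝒰 hX (p : k) H.atf (H.adiv hp) H.j1 (H.bdiv hp) H.d2

end EJDHyp

end Package

/-! ### The bridge: `(N-a)`, `(N-b)`, `(N-d)` for `T = E[p]` -/

section Final

variable {k G : Type u} [CommRing k] [Group G] {𝒰 : LevelSystem G} {p : ℕ}
  {X : ShortComplex (Rep.{u} k G)} [IsDiscrete 𝒰 X.X₁] [IsDiscrete 𝒰 X.X₂] [IsDiscrete 𝒰 X.X₃]
  (H : EJDHyp 𝒰 p X) (hp : p.Prime) (hX : X.ShortExact)
  {T : Rep.{u} k G} [IsDiscrete 𝒰 T] (KS : KummerSeq T X.X₁ (p : k))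

include H hp hX KS in
/-- **(N-b)**: `Hlc³(G, T) = 0`. -/
theorem hlc_three_eq_zero (y : Hlc 𝒰 T 3) : y = 0 :=
  hlc_succ_eq_zero 𝒰 KS 2 (H.e2_div hp hX) (H.e3_tf hp hX) y

include H hp hX KS in
/-- **(N-b) + (N-d)**: with `|Hlc⁰(E)/p| = p^e0` (Dirichlet), `Hlc¹(E)` finite (X-FINITE),
`|Hlc²(J)[p]| = p^s` (local Brauer groups) and `|Hlc²(D)[p]| = p` (`[B']`): `Hlc¹(T)`, `Hlc²(T)` are
finite and `|Hlc¹(T)| · p^s = |Hlc²(T)| · p^(e0+1)`. -/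
theorem euler (e0 s : ℕ)
    (h0 : Nat.card (Hlc 𝒰 X.X₁ 0 ⧸ divC (p : k) (Hlc 𝒰 X.X₁ 0)) = p ^ e0)
    [Finite (Hlc 𝒰 X.X₁ 1)]
    (hJ2 : Nat.card (torsC (p : k) (Hlc 𝒰 X.X₂ 2)) = p ^ s)
    (hD2 : Nat.card (torsC (p : k) (Hlc 𝒰 X.X₃ 2)) = p) :
    Finite (Hlc 𝒰 T 1) ∧ Finite (Hlc 𝒰 T 2) ∧
      Nat.card (Hlc 𝒰 T 1) * p ^ s = Nat.card (Hlc 𝒰 T 2) * p ^ (e0 + 1) := by
  have hct := H.card_tors hp hX
  rw [hJ2, hD2] at hct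
  have hp0 : p ≠ 0 := hp.ne_zero
  cases s with
  | zero =>
    exfalso
    rw [pow_zero] at hct
    have := Nat.eq_one_of_mul_eq_one_left hct.symm
    exact hp.one_lt.ne' this
  | succ s' =>
    have hcE : Nat.card (torsC (p : k) (Hlc 𝒰 X.X₁ 2)) = p ^ s' := by
      rw [pow_succ] at hct
      exact (Nat.eq_of_mul_eq_mul_right hp.pos hct).symm
    obtain ⟨f1, f2, he⟩ := euler_card 𝒰 KS p e0 s' h0 hp0 hcE
    refine ⟨f1, f2, ?_⟩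
    rw [pow_succ, pow_succ, ← mul_assoc, he, mul_assoc]

include H hp hX KS in
/-- **(N-d)**, exponent form: if `|Hlc¹(T)| = p^a1`, `|Hlc²(T)| = p^a2` then
`a1 + s = a2 + e0 + 1`. -/
theorem euler_exponent (e0 s a1 a2 : ℕ)
    (h0 : Nat.card (Hlc 𝒰 X.X₁ 0 ⧸ divC (p : k) (Hlc 𝒰 X.X₁ 0)) = p ^ e0)
    [Finite (Hlc 𝒰 X.X₁ 1)]
    (hJ2 : Nat.card (torsC (p : k) (Hlc 𝒰 X.X₂ 2)) = p ^ s)
    (hD2 : Nat.card (torsC (p : k) (Hlc 𝒰 X.X₃ 2)) = p)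
    (h1 : Nat.card (Hlc 𝒰 T 1) = p ^ a1) (h2 : Nat.card (Hlc 𝒰 T 2) = p ^ a2) :
    a1 + s = a2 + e0 + 1 := by
  obtain ⟨-, -, he⟩ := euler H hp hX KS e0 s h0 hJ2 hD2
  rw [h1, h2, ← pow_add, ← pow_add] at he
  have := Nat.pow_right_injective hp.two_le he
  omega

variable {ι : Type*} {Gv : ι → Type u} [∀ v, Group (Gv v)] (𝒰v : ∀ v, LevelSystem (Gv v))
  {φ : ∀ v, Gv v →* G} (hφ : ∀ v, IsContHom (𝒰v v) 𝒰 (φ v))
  {Ω : ∀ v, Rep.{u} k (Gv v)} [∀ v, IsDiscrete (𝒰v v) (Ω v)]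
  [∀ v, IsDiscrete (𝒰v v) (Rep.res (φ v) T)]
  (KSv : ∀ v, KummerSeq (Rep.res (φ v) T) (Ω v) (p : k))
  (π : ∀ v, Rep.res (φ v) X.X₂ ⟶ Ω v)

include H hp hX in
/-- **(N-a)**: the image of `Hlc²(G, T) → ∏_v Hlc²(G_v, T)` has index at most `p`. -/
theorem na_card (hcompat : ∀ v, (Rep.resFunctor (φ v)).map (KS.ι ≫ X.f) ≫ π v = (KSv v).ι)
    (hH90 : ∀ v, ∀ x : Hlc (𝒰v v) (Ω v) 1, ∃ x' : Hlc (𝒰v v) (Ω v) 1, (p : k) • x' = x)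
    (hLJ : ∀ b : (∀ v, Hlc (𝒰v v) (Ω v) 2), (p : k) • b = 0 →
      ∃ x : Hlc 𝒰 X.X₂ 2, (p : k) • x = 0 ∧ locJ 𝒰 𝒰v hφ π 2 x = b)
    [Finite (∀ v, Hlc (𝒰v v) (Rep.res (φ v) T) 2)]
    (hD2 : Nat.card (torsC (p : k) (Hlc 𝒰 X.X₃ 2)) = p) :
    Nat.card (∀ v, Hlc (𝒰v v) (Rep.res (φ v) T) 2) ≤
      p * Nat.card (LinearMap.range (locT 𝒰 (T := T) 𝒰v hφ 2)) := by
  haveI : Finite (torsC (p : k) (Hlc 𝒰 X.X₃ 2)) :=
    Nat.finite_of_card_ne_zero (by rw [hD2]; exact hp.ne_zero)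
  have := card_pi_le 𝒰 hX KS 𝒰v hφ KSv π hcompat (H.adiv hp) hH90 hLJ
  rwa [hD2] at this

end Final

end Fermat.Agent.GC.Global.KummerBridge
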