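/-
GATE-C / C4→C5 KUMMER-BRIDGE (helper77), part 4: **(N-a) in `K`-form** (`cokK` of `BaseInputs`).

`K ⊂ ℚ̄` finite, unramified outside `S ∋ p`, `ζ_p ∈ K`.  We instantiate `KummerBridge.na_card` at
* `X = Res_{G_K} (O_S^× → J_S → D_S)` (helper71's `ideleSShortComplex`),
* the family of all places `w ∣ q ∈ S` of `K` in the SUBGROUP language of helper69
  (`locGroup`, `levelLoc`, `locHom`), local coefficients `Ω_q^×` (`LimJ.locFullCoeff`),
* the `w`-component `LimJ.JSlocFull` of an idele, and the local Kummer sequences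
  `0 → ℤ/p → Ω_q^× → Ω_q^× → 0`, `a ↦ ι_q (s ζ)^a`,
and translate the resulting cardinality inequality into the `ZMod p`-dimension inequality
`dim ∏_w Hlc²(G_w, ℤ/p) ≤ dim (im loc²) + 1` in helper69's `TotalLoc` language.
-/
import Fermat.Agent.GC.Global.KummerBridgeInst
import Fermat.Agent.GC.Global.KummerBridgeZ
import Fermat.Agent.GC.Global.Limit.IdeleSLocal
import Fermat.Agent.GC.Global.Limit.TowerDS
import Fermat.Agent.GC.Local.CorInjMu
import Fermat.Agent.GC.Places.MackeyH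

set_option autoImplicit false

open CategoryTheory

noncomputable section

namespace Fermat.Agent.GC.KBInst

open Fermat.Agent.GC.Global.KummerBridge
open Fermat.Agent.GC.Prof Fermat.Agent.GC.KumH Fermat.Agent.GC.Places Fermat.Agent.GC.Local.Abs
  Fermat.Agent.GC.C0 Fermat.Agent.GC.Local.KR

local notation "Qb" => AlgebraicClosure ℚ
local notation "GQ" => (AlgebraicClosure ℚ ≃ₐ[ℚ] AlgebraicClosure ℚ)

attribute [local instance] Fermat.Agent.GC.Places.fact_prime

/-! ### The complex `X = Res_{G_K} (O_S^× → J_S → D_S)` -/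

section Complex

variable (S : Finset Nat.Primes) (K : IntermediateField ℚ Qb)

/-- `0 → O_S^× → J_S → D_S → 0` restricted to `G_K`. -/
abbrev XK : ShortComplex (Rep ℤ K.fixingSubgroup) :=
  (LimJ.ideleSShortComplex S).map (Rep.resFunctor K.fixingSubgroup.subtype)

instance isDiscrete_XK₁ : IsDiscrete (levelK S K) (XK S K).X₁ :=
  isDiscrete_res_levelK S K (sUnitsS S)

instance isDiscrete_XK₂ : IsDiscrete (levelK S K) (XK S K).X₂ :=
  isDiscrete_res_levelK S K (LimJ.JS S)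

instance isDiscrete_XK₃ : IsDiscrete (levelK S K) (XK S K).X₃ :=
  isDiscrete_res_levelK S K (LimJ.DS S)

theorem XK_shortExact (hS : S.Nonempty) : (XK S K).ShortExact :=
  Fermat.Agent.GC.Global.shortExact_of_forget _ (LimJ.EStoJS_injective S hS)
    (LimJ.JStoDS_surjective S) fun y hy => (LimJ.JStoDS_eq_zero_iff S y).1 hy

end Complex

/-! ### The local Kummer sequences in the subgroup language -/

section LocalKummer

variable (S : Finset Nat.Primes) (K : IntermediateField ℚ Qb) (q : ↥S) (s : GQ)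
  {p : ℕ} [Fact p.Prime] {ζ : Qbˣ} (hζ : IsPrimitiveRoot ζ p) (hζS : ζ ∈ sUnitsQS S)
  (hζK : ((ζ : Qbˣ) : Qb) ∈ K)

/-- The composite `ℤ/p → O_S^× → Ω_q^×`, `a ↦ ι_q (s ζ)^a`, over the local group. -/
def locKι : Rep.res (locHom ((q : Nat.Primes) : ℕ) K s) (TzK p K) ⟶
    LimJ.locFullCoeff ((q : Nat.Primes) : ℕ) K s :=
  (Rep.resFunctor (locHom ((q : Nat.Primes) : ℕ) K s)).map (muι K hζ hζS hζK) ≫
    LimJ.locSUnitsFull S K q s

/-- On underlying sets `locKι` is helper78's `locSUnitsAdd ∘ muAdd`. -/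
theorem locKι_hom_apply (a : ZMod p) :
    toU ℚ_[((q : Nat.Primes) : ℕ)] (PadicAlgCl ((q : Nat.Primes) : ℕ))
        ((locKι S K q s hζ hζS hζK).hom a) =
      locEmbU ((q : Nat.Primes) : ℕ) s (sUnitsS.unit S (muAdd hζ hζS a)) := by
  apply Units.ext
  rfl

theorem locKι_injective : Function.Injective (locKι S K q s hζ hζS hζK).hom := by
  intro a b h
  apply muAdd_injective hζ hζS
  apply sUnitsS.unit_injective
  apply locEmbU_injective ((q : Nat.Primes) : ℕ) s
  rw [← locKι_hom_apply S K q s hζ hζS hζK, ← locKι_hom_apply S K q s hζ hζS hζK, h]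

/-- Every `p`-th root of unity of `Ω_q` is `ι_q (s ζ)^a`. -/
theorem exists_locKι_eq
    (x : LimJ.locFullCoeff ((q : Nat.Primes) : ℕ) K s) (hx : (p : ℤ) • x = 0) :
    ∃ a : ZMod p, (locKι S K q s hζ hζS hζK).hom a = x := by
  haveI : NeZero p := ⟨(Fact.out : p.Prime).ne_zero⟩
  have hu : toU ℚ_[((q : Nat.Primes) : ℕ)] (PadicAlgCl ((q : Nat.Primes) : ℕ)) x ^ p = 1 :=
    (natCast_smul_eq_zero_iff ℚ_[((q : Nat.Primes) : ℕ)] (PadicAlgCl ((q : Nat.Primes) : ℕ)) p
      x).1 hx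
  obtain ⟨y, hy⟩ := exists_muι_eq (locField ((q : Nat.Primes) : ℕ) K s)
    (PadicAlgCl ((q : Nat.Primes) : ℕ)) p hu
  obtain ⟨a, ha⟩ := locMuHom_surjective ((q : Nat.Primes) : ℕ) K s hζ hζS hζK y
  refine ⟨a, ?_⟩
  apply toU_injective ℚ_[((q : Nat.Primes) : ℕ)] (PadicAlgCl ((q : Nat.Primes) : ℕ))
  rw [locKι_hom_apply]
  have h2 := muι_locMuHom ((q : Nat.Primes) : ℕ) K s hζ hζS hζK a
  rw [ha, hy] at h2
  have h3 := congrArg (toU (locField ((q : Nat.Primes) : ℕ) K s)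
    (PadicAlgCl ((q : Nat.Primes) : ℕ))) h2
  exact h3.symm

theorem locKι_comp_smul :
    locKι S K q s hζ hζS hζK ≫
      ((p : ℤ) • 𝟙 (LimJ.locFullCoeff ((q : Nat.Primes) : ℕ) K s)) = 0 := by
  haveI : NeZero p := ⟨(Fact.out : p.Prime).ne_zero⟩
  ext a
  apply toU_injective ℚ_[((q : Nat.Primes) : ℕ)] (PadicAlgCl ((q : Nat.Primes) : ℕ))
  have h1 : toU ℚ_[((q : Nat.Primes) : ℕ)] (PadicAlgCl ((q : Nat.Primes) : ℕ))
      ((p : ℤ) • (locKι S K q s hζ hζS hζK).hom a) =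
      toU ℚ_[((q : Nat.Primes) : ℕ)] (PadicAlgCl ((q : Nat.Primes) : ℕ))
        ((locKι S K q s hζ hζS hζK).hom a) ^ p :=
    toU_natCast_smul ℚ_[((q : Nat.Primes) : ℕ)] (PadicAlgCl ((q : Nat.Primes) : ℕ)) p _
  refine h1.trans ?_
  rw [locKι_hom_apply, ← map_pow, ← sUnitsS.unit_zsmul_natCast, p_smul_muAdd, sUnitsS.unit_zero,
    map_one]
  rfl

theorem smul_surjective_locFullCoeff (x : LimJ.locFullCoeff ((q : Nat.Primes) : ℕ) K s) :
    ∃ y : LimJ.locFullCoeff ((q : Nat.Primes) : ℕ) K s, (p : ℤ) • y = x := by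
  obtain ⟨y, hy⟩ := Local.LocalNum.hasRoots_padicAlgCl ((q : Nat.Primes) : ℕ) p
    (toU ℚ_[((q : Nat.Primes) : ℕ)] (PadicAlgCl ((q : Nat.Primes) : ℕ)) x)
  refine ⟨ofU ℚ_[((q : Nat.Primes) : ℕ)] (PadicAlgCl ((q : Nat.Primes) : ℕ)) y, ?_⟩
  apply toU_injective ℚ_[((q : Nat.Primes) : ℕ)] (PadicAlgCl ((q : Nat.Primes) : ℕ))
  have h1 := toU_natCast_smul ℚ_[((q : Nat.Primes) : ℕ)] (PadicAlgCl ((q : Nat.Primes) : ℕ)) p
    (ofU ℚ_[((q : Nat.Primes) : ℕ)] (PadicAlgCl ((q : Nat.Primes) : ℕ)) y)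
  rw [toU_ofU, hy] at h1
  exact h1

/-- **The local Kummer sequence** `0 → ℤ/p → Ω_q^× -p→ Ω_q^× → 0` over the local group
`locGroup q K s`, with inclusion `a ↦ ι_q (s ζ)^a` (the localisation of the global one). -/
def locKS :
    KummerSeq (Rep.res (locHom ((q : Nat.Primes) : ℕ) K s) (TzK p K))
      (LimJ.locFullCoeff ((q : Nat.Primes) : ℕ) K s) (p : ℤ) where
  ι := locKι S K q s hζ hζS hζK
  zero := locKι_comp_smul S K q s hζ hζS hζK
  shortExact :=
    Fermat.Agent.GC.Tate.shortExact_of_concrete _ (locKι_injective S K q s hζ hζS hζK)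
      (smul_surjective_locFullCoeff S K q s)
      (fun x hx => exists_locKι_eq S K q s hζ hζS hζK x hx)

end LocalKummer

/-! ### `(N-a)` over `K`: the counting form -/

section Na

variable (S : Finset Nat.Primes) (K : IntermediateField ℚ Qb) [FiniteDimensional ℚ K]
  {p : ℕ} [Fact p.Prime] {ζ : Qbˣ} (hζ : IsPrimitiveRoot ζ p) (hζS : ζ ∈ sUnitsQS S)
  (hζK : ((ζ : Qbˣ) : Qb) ∈ K)

/-- The local hypothesis `hLJ` of `na_card` for the family of all places of `K` above `S`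
(helper71's (D)-INST + helper26's (D)-SURJ): every family of `p`-torsion classes of the local
Brauer groups `Hlc²(G_w, Ω_q^×)` is the family of `w`-components of a `p`-torsion class of
`Hlc²(G_{K,S}, J_S)`. -/
def LJHyp (p : ℕ) : Prop :=
  ∀ b : (∀ i : PlaceFam S K, Hlc (levelLoc (famPrime S K i) K (famRep S K i))
      (LimJ.locFullCoeff (famPrime S K i) K (famRep S K i)) 2), (∀ i, (p : ℤ) • b i = 0) →
    ∃ x : Hlc (levelK S K) (LimJ.JSK S K) 2, (p : ℤ) • x = 0 ∧
      ∀ i : PlaceFam S K, HlcPull (isContHom_locHom S (famPrime S K i) K (famRep S K i))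
        (LimJ.JSlocFull S K i.1 (famRep S K i)) 2 x = b i

/-- Hilbert 90 over the local group `locGroup q K s` (helper21). -/
theorem hlc_one_locFullCoeff_eq_zero (q : ℕ) [Fact q.Prime] (s : GQ)
    (x : Hlc (levelLoc q K s) (LimJ.locFullCoeff q K s) 1) : x = 0 :=
  (Local.CorInjMu.subsingleton_Hlc_one_unitsS (K := ℚ_[q]) (Ω := PadicAlgCl q)
    (isOpenSub_locGroup q K s)).elim x 0

/-- Change of coefficient ring `ℤ → ZMod p` on the local `Hlc^n(G_w, ℤ/p)` (PLACES language). -/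
def coeffEquivLoc (q : ℕ) [Fact q.Prime] (s : GQ) (n : ℕ) :
    HlcW S K (TzK p K) q s n ≃+ HlcW S K (TpK p K) q s n :=
  @HlcAddEquiv ℤ (ZMod p) (locGroup q K s) _ _ _ (levelLoc q K s) (locCoeff q K (TzK p K) s)
    (locCoeff q K (TpK p K) s) (isDiscrete_res_locHom S q K s (TzK p K))
    (isDiscrete_res_locHom S q K s (TpK p K)) (AddEquiv.refl (ZMod p)) (fun _ _ => rfl) n

include hζ hζS hζK in
theorem finite_HlcW_two_int (q : ℕ) [Fact q.Prime] (s : GQ) :
    Finite (HlcW S K (TzK p K) q s 2) := by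
  haveI : Finite (HlcW S K (TpK p K) q s 2) :=
    Nat.finite_of_card_ne_zero (by
      rw [card_HlcW_two S q K s hζ hζS hζK]
      exact (Fact.out : p.Prime).ne_zero)
  exact Finite.of_equiv _ (coeffEquivLoc S K q s 2).symm.toEquiv

/-- The total localisation map on `Hlc^n(G_K, ℤ/p)` (`ℤ`-coefficients), places indexed by
`PlaceFam S K`. -/
def locFamZ (n : ℕ) (y : Hlc (levelK S K) (TzK p K) n) (i : PlaceFam S K) :
    HlcW S K (TzK p K) (famPrime S K i) (famRep S K i) n :=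
  HlcWRes S K (TzK p K) (famPrime S K i) (famRep S K i) n y

include hζ hζS hζK in
/-- **(N-a) over `K`, counting form** (`ℤ`-coefficients, places indexed by `PlaceFam S K`). -/
theorem card_pi_loc_two_le (hpS : (⟨p, Fact.out⟩ : Nat.Primes) ∈ S)
    (H : EJDHyp (levelK S K) p (XK S K)) (hLJ : LJHyp S K p)
    (hD2 : Nat.card (torsC (p : ℤ) (Hlc (levelK S K) (XK S K).X₃ 2)) = p) :
    Nat.card (∀ i : PlaceFam S K, HlcW S K (TzK p K) (famPrime S K i) (famRep S K i) 2) ≤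
      p * Nat.card (Set.range (locFamZ S K (p := p) 2)) := by
  have hp : p.Prime := Fact.out
  have hS : S.Nonempty := ⟨_, hpS⟩
  haveI : ∀ i : PlaceFam S K, Finite (HlcW S K (TzK p K) (famPrime S K i) (famRep S K i) 2) :=
    fun i => finite_HlcW_two_int S K hζ hζS hζK _ _
  have key := @na_card ℤ K.fixingSubgroup _ _ (levelK S K) p (XK S K) _ _ _ H hp
    (XK_shortExact S K hS)
    (TzK p K) _ (kummerSeq K hζ hζS hζK hp hpS) (PlaceFam S K)
    (fun i => locGroup (famPrime S K i) K (famRep S K i)) _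
    (fun i => levelLoc (famPrime S K i) K (famRep S K i))
    (fun i => locHom (famPrime S K i) K (famRep S K i))
    (fun i => isContHom_locHom S (famPrime S K i) K (famRep S K i))
    (fun i => LimJ.locFullCoeff (famPrime S K i) K (famRep S K i))
    (fun i => LimJ.isDiscrete_locFullCoeff (famPrime S K i) K (famRep S K i))
    (fun i => isDiscrete_res_locHom S (famPrime S K i) K (famRep S K i) (TzK p K))
    (fun i => locKS S K i.1 (famRep S K i) hζ hζS hζK)
    (fun i => LimJ.JSlocFull S K i.1 (famRep S K i))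
    (fun i => by
      rw [Functor.map_comp, Category.assoc]
      rfl)
    (fun i x => ⟨0, by
      rw [smul_zero]
      exact (hlc_one_locFullCoeff_eq_zero K (famPrime S K i) (famRep S K i) x).symm⟩)
    (fun b hb => by
      obtain ⟨x, hx, hxb⟩ := hLJ b (fun i =>
        (int_smul_eq_zsmul _ (p : ℤ) (b i)).symm.trans (congrFun hb i))
      exact ⟨x, (int_smul_eq_zsmul _ (p : ℤ) x).trans hx, funext hxb⟩)
    inferInstance hD2
  exact key

omit [FiniteDimensional ℚ K] in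
/-- The coefficient change `ℤ → ZMod p` commutes with localisation. -/
theorem coeffEquivLoc_res (q : ℕ) [Fact q.Prime] (s : GQ) (n : ℕ)
    (y : Hlc (levelK S K) (TzK p K) n) :
    coeffEquivLoc S K q s n (HlcWRes S K (TzK p K) q s n y) =
      HlcWRes S K (TpK p K) q s n (coeffEquiv S K n y) := by
  haveI := isDiscrete_res_locHom S q K s (TzK p K)
  haveI := isDiscrete_res_locHom S q K s (TpK p K)
  exact HlcAdd_HlcRes (levelK S K) (isContHom_locHom S q K s) (A := TzK p K) (M := TpK p K)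
    (AddEquiv.refl (ZMod p)).toAddMonoidHom (fun _ _ => rfl) n y

/-- From the `ℤ`-coefficient family indexed by `PlaceFam S K` to the `ZMod p`-coefficient nested
family of helper69's `TotalLoc`. -/
def famEquiv (n : ℕ) :
    (∀ i : PlaceFam S K, HlcW S K (TzK p K) (famPrime S K i) (famRep S K i) n) ≃
      (∀ q : ↥S, ∀ w : placeIdx (q.1 : ℕ) K,
        HlcW S K (TpK p K) (q.1 : ℕ) (placeRep (q.1 : ℕ) K w) n) :=
  (Equiv.piCongrRight fun i : PlaceFam S K =>
    (coeffEquivLoc S K (famPrime S K i) (famRep S K i) n).toEquiv).trans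
    (Equiv.piCurry (fun (q : ↥S) (w : placeIdx (q.1 : ℕ) K) =>
      HlcW S K (TpK p K) (q.1 : ℕ) (placeRep (q.1 : ℕ) K w) n))

omit [FiniteDimensional ℚ K] in
theorem famEquiv_apply (n : ℕ)
    (x : ∀ i : PlaceFam S K, HlcW S K (TzK p K) (famPrime S K i) (famRep S K i) n)
    (q : ↥S) (w : placeIdx (q.1 : ℕ) K) :
    famEquiv S K n x q w = coeffEquivLoc S K (q.1 : ℕ) (placeRep (q.1 : ℕ) K w) n (x ⟨q, w⟩) :=
  rfl

omit [FiniteDimensional ℚ K] in
theorem famEquiv_locFamZ (n : ℕ) (y : Hlc (levelK S K) (TzK p K) n) :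
    famEquiv S K n (locFamZ S K n y) = locResK S K (TpK p K) n (coeffEquiv S K n y) := by
  funext q w
  rw [famEquiv_apply, locResK_apply]
  exact coeffEquivLoc_res S K (q.1 : ℕ) (placeRep (q.1 : ℕ) K w) n y

omit [FiniteDimensional ℚ K] in
theorem card_range_locFamZ (n : ℕ) :
    Nat.card (Set.range (locFamZ S K (p := p) n)) =
      Nat.card (LinearMap.range (locResK S K (TpK p K) n)) := by
  refine Nat.card_congr ((famEquiv S K n).subtypeEquiv fun x => ?_)
  constructor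
  · rintro ⟨y, rfl⟩
    exact ⟨coeffEquiv S K n y, (famEquiv_locFamZ S K n y).symm⟩
  · rintro ⟨y', hy'⟩
    refine ⟨(coeffEquiv S K n).symm y', (famEquiv S K n).injective ?_⟩
    rw [famEquiv_locFamZ, AddEquiv.apply_symm_apply]
    exact hy'

include hζ hζS hζK in
/-- **(N-a) in `K`-form = `cokK` of `BaseInputs`**: in helper69's `TotalLoc` language and with
`ZMod p`-coefficients, `dim ∏_w Hlc²(G_w, ℤ/p) ≤ dim (im loc²) + 1`. -/
theorem cokK_K (hpS : (⟨p, Fact.out⟩ : Nat.Primes) ∈ S)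
    (H : EJDHyp (levelK S K) p (XK S K)) (hLJ : LJHyp S K p)
    (hD2 : Nat.card (torsC (p : ℤ) (Hlc (levelK S K) (XK S K).X₃ 2)) = p) :
    FiniteDimensional (ZMod p) (∀ q : ↥S, ∀ w : placeIdx (q.1 : ℕ) K,
        HlcW S K (TpK p K) (q.1 : ℕ) (placeRep (q.1 : ℕ) K w) 2) ∧
      Module.finrank (ZMod p) (∀ q : ↥S, ∀ w : placeIdx (q.1 : ℕ) K,
        HlcW S K (TpK p K) (q.1 : ℕ) (placeRep (q.1 : ℕ) K w) 2) ≤
      Module.finrank (ZMod p) (LinearMap.range (locResK S K (TpK p K) 2)) + 1 := by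
  have hp : p.Prime := Fact.out
  haveI : ∀ (q : ↥S) (w : placeIdx (q.1 : ℕ) K),
      Finite (HlcW S K (TpK p K) (q.1 : ℕ) (placeRep (q.1 : ℕ) K w) 2) := fun q w =>
    Nat.finite_of_card_ne_zero (by
      rw [card_HlcW_two S (q.1 : ℕ) K _ hζ hζS hζK]
      exact hp.ne_zero)
  haveI : Finite (∀ q : ↥S, ∀ w : placeIdx (q.1 : ℕ) K,
      HlcW S K (TpK p K) (q.1 : ℕ) (placeRep (q.1 : ℕ) K w) 2) := inferInstance
  haveI hfd : FiniteDimensional (ZMod p) (∀ q : ↥S, ∀ w : placeIdx (q.1 : ℕ) K,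
      HlcW S K (TpK p K) (q.1 : ℕ) (placeRep (q.1 : ℕ) K w) 2) := Module.Finite.of_finite
  refine ⟨hfd, ?_⟩
  have key := card_pi_loc_two_le S K hζ hζS hζK hpS H hLJ hD2
  rw [card_range_locFamZ, Nat.card_congr (famEquiv S K (p := p) 2)] at key
  have e1 := Module.natCard_eq_pow_finrank (K := ZMod p) (V := ∀ q : ↥S,
    ∀ w : placeIdx (q.1 : ℕ) K, HlcW S K (TpK p K) (q.1 : ℕ) (placeRep (q.1 : ℕ) K w) 2)
  have e2 := Module.natCard_eq_pow_finrank (K := ZMod p)
    (V := LinearMap.range (locResK S K (TpK p K) 2))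
  rw [Nat.card_zmod] at e1 e2
  rw [e1, e2, ← pow_succ'] at key
  exact (Nat.pow_le_pow_iff_right hp.one_lt).1 key

end Na

end Fermat.Agent.GC.KBInst
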