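/-
GATE-C / C4→C5 glue (helper19): **`KummerK S K p` from the four arithmetic hypotheses per field.**

For `K ⊂ ℚ_S` finite with `χ_cyc|_{G_K} = 1` (so `ζ_p ∈ K`), `p` odd, `p ∈ S`, the five global
fields `fin1 fin2 h3 cokK c1K` of `BaseInputsQ.KummerK` (= the `hKum` input of
`C0.s55_of_NC_kummerAll`) follow from helper77's `K`-forms `hC1_K`, `h3_K`, `fin2_K`, `cokK_K`
once the Dirichlet count `h0` (helper51 `H0Count`), the place count (helper11 `PlaceCountNum`) and
`[K:ℚ] = 2 r₂` (helper51 `R2Count`) are plugged in.  What remains per field `K` is the package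
`KHyps S K p` = HASSE + `EJDHyp` + `LJHyp` + `|Hlc²(D_S)[p]| = p`.
-/
import Mathlib
import Fermat.Agent.GC.Global.KummerBridgeNa
import Fermat.Agent.GC.PT.BaseInputsKOfKummer
import Fermat.Agent.GC.Kummer.H0Count
import Fermat.Agent.GC.Kummer.R2Count
import Fermat.Agent.GC.Places.PlaceCountNum

set_option autoImplicit false

open CategoryTheory Module

noncomputable section

namespace Fermat.Agent.GC.KBGlue

open Fermat.Agent.GC.Global.KummerBridge
open Fermat.Agent.GC.Prof Fermat.Agent.GC.KumH Fermat.Agent.GC.Places Fermat.Agent.GC.C0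
open Fermat.Agent.GC.KBInst Fermat.Agent.GC.PT.BaseInputsQ Fermat.Agent.GC.PT.BaseInstQ
open Fermat.Agent.GC.Global.Adapter
open ExtCitation

local notation "Qb" => AlgebraicClosure ℚ
local notation "GQ" => (AlgebraicClosure ℚ ≃ₐ[ℚ] AlgebraicClosure ℚ)

attribute [local instance] Fermat.Agent.GC.Places.fact_prime

/-- **The arithmetic hypotheses at one field `K ⊂ ℚ_S`, `ζ_p ∈ K`** (all in helper77's shapes):
the Hasse principle for `Hlc²(G_{K,S}, O_S^×)[p]`, the `E → J → D` package, the local–global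
surjectivity on `p`-torsion of Brauer groups, and `|Hlc²(G_{K,S}, D_S)[p]| = p`. -/
structure KHyps (S : Finset Nat.Primes) (K : IntermediateField ℚ Qb) [FiniteDimensional ℚ K]
    (p : ℕ) [Fact p.Prime] : Prop where
  hasse : HasseHyp S K p
  ejd : EJDHyp (levelK S K) p (XK S K)
  lj : LJHyp S K p
  d2 : Nat.card (torsC (p : ℤ) (Hlc (levelK S K) (XK S K).X₃ 2)) = p

variable {p : ℕ} [Fact p.Prime]

/-- **`KummerK` from `KHyps`.** -/
theorem kummerK_of_hyps (hp2 : p ≠ 2) (S : Finset Nat.Primes) (hpS : pPrime p ∈ S)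
    (K : IntermediateField ℚ Qb) [FiniteDimensional ℚ K]
    [InstDisc S K (trivK (ZMod p) K)] [ChiDisc S K (cycloChar p)]
    (hK : K.IsUnramifiedOutside S)
    (hχK : ∀ s : K.fixingSubgroup, cycloChar p (s : GQ) = 1)
    (h : KHyps S K p) : KummerK S K p := by
  have hp : p.Prime := Fact.out
  obtain ⟨ζ, hζ, hζK⟩ :=
    exists_primitiveRoot_units_mem_of_cycloChar_eq_one K (fun g hg => hχK ⟨g, hg⟩)
  have hζS : ζ ∈ sUnitsQS S := mem_sUnitsQS_of_pow_eq_one hp hpS ζ hζ.pow_eq_one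
  have : NumberField K := ⟨⟩
  have hS : S.Nonempty := ⟨_, hpS⟩
  have h0 := KumXF.card_hlc_zero_sUnitsK_quot hK hp hp2 hζ hζK
  have hnum : 2 * (NumberField.InfinitePlace.nrComplexPlaces ↥K + (primesAbove ↥K S).card) =
      2 * KBInst.numPlaces S K + Module.finrank ℚ K := by
    rw [PlaceCount.card_primesAbove_eq_numPlaces,
      KumXF.finrank_eq_two_mul_nrComplexPlaces hp hp2 hζ hζK]
    show _ = 2 * LocalNum.numPlaces S K + _
    ring
  obtain ⟨f1, -, -, c1⟩ := hC1_K S K hζ hζS hζK hK hpS h.hasse _ h0 hnum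
  exact ⟨f1, fin2_K S K hζ hζS hζK hK hpS h.hasse,
    h3_K S K hζ hζS hζK hpS
      (fun x => by
        obtain ⟨y, hy⟩ := h.ejd.e2_div hp (XK_shortExact S K hS) x
        exact ⟨y, (int_smul_eq_zsmul _ (p : ℤ) y).symm.trans hy⟩)
      (fun z hz => h.ejd.e3_tf hp (XK_shortExact S K hS) z
        ((int_smul_eq_zsmul _ (p : ℤ) z).trans hz)),
    (cokK_K S K hζ hζS hζK hpS h.ejd h.lj h.d2).2, c1⟩

/-- **`KummerAll` from `KHyps` at every finite `K ⊂ ℚ_S` containing `ζ_p`.** -/
theorem kummerAll_of_hyps (hp2 : p ≠ 2) (S : Finset Nat.Primes) (hpS : pPrime p ∈ S)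
    [IsDiscrete (levelS S) (chiRep (k := ZMod p) (cycloChar p))]
    (h : ∀ (K : IntermediateField ℚ Qb) [FiniteDimensional ℚ K], K.IsUnramifiedOutside S →
      (∀ s : K.fixingSubgroup, cycloChar p (s : GQ) = 1) → KHyps S K p) :
    KummerAll S p := by
  intro K _ _ _ hK hχK
  exact kummerK_of_hyps hp2 S hpS K hK hχK (h K hK hχK)

end Fermat.Agent.GC.KBGlue
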