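/-
GATE-C / C4 leaf (GB) part 2 (helper72): MACKEY + SHAPIRO in the classical form

  `Hⁿ(H, Res_H coind_φ A) ≃ ∏_{s ∈ φ(D) \ G / H} Hⁿ(D_s, A)`,   `D_s := φ⁻¹(s H s⁻¹) ≤ D`,

i.e. the local factors are SUBGROUPS OF `D` acting on `A` by restriction (for `D` a decomposition
group and `A = L_qˣ` these are the local Galois groups of `L_w / K_w`, `K = L^H`).
Consequences: the cardinality formula, vanishing of the factors with `D_s = ⊥`, and the
dichotomy `D_s = ⊥` or `|D_s| = p` when `|H| = p` is prime.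
-/
import Fermat.Agent.GC.Global.Mackey

set_option autoImplicit false

open CategoryTheory

universe u

namespace Fermat.Agent.GC.Global.Mackey

variable {k G D : Type u} [CommRing k] [Group G] [Group D]
  (φ : D →* G) (hφ : Function.Injective φ) (H : Subgroup G) (A : Rep.{u} k D)

/-- For a finite group the set of double cosets is finite. -/
instance finite_DC [Finite G] : Finite (DC φ H) :=
  Finite.of_surjective (dc φ H) (Quotient.mk''_surjective)

/-- `D_s = φ⁻¹(s H s⁻¹)`, a subgroup of `D`. -/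
def dSub (s : G) : Subgroup D :=
  (H.comap (MulAut.conj s⁻¹).toMonoidHom).comap φ

variable {φ H} in
lemma mem_dSub {s : G} {d : D} : d ∈ dSub φ H s ↔ s⁻¹ * φ d * s ∈ H := by
  simp [dSub]

lemma conjHom_mem_dSub (s : G) (h : conjSub φ H s) : conjHom φ hφ H s h ∈ dSub φ H s := by
  rw [mem_dSub, apply_conjHom]
  have : s⁻¹ * (s * ((h : H) : G) * s⁻¹) * s = ((h : H) : G) := by group
  rw [this]
  exact (h : H).2

/-- `conjHom` with values in `D_s`. -/
noncomputable def conjHomD (s : G) : conjSub φ H s →* dSub φ H s :=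
  (conjHom φ hφ H s).codRestrict (dSub φ H s) (conjHom_mem_dSub φ hφ H s)

@[simp] lemma coe_conjHomD (s : G) (h : conjSub φ H s) :
    ((conjHomD φ hφ H s h : dSub φ H s) : D) = conjHom φ hφ H s h := rfl

lemma conjHomD_bijective (s : G) : Function.Bijective (conjHomD φ hφ H s) := by
  constructor
  · intro a b hab
    have h1 : φ (conjHom φ hφ H s a) = φ (conjHom φ hφ H s b) := by
      have := congrArg (fun x : dSub φ H s => φ (x : D)) hab
      simpa using this
    rw [apply_conjHom, apply_conjHom] at h1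
    have h2 : ((a : H) : G) = ((b : H) : G) := by
      have := congrArg (fun x => s⁻¹ * x * s) h1
      simpa [mul_assoc] using this
    exact Subtype.ext (Subtype.ext h2)
  · intro d
    have hd := mem_dSub.1 d.2
    have hmem : (⟨s⁻¹ * φ (d : D) * s, hd⟩ : H) ∈ conjSub φ H s := by
      rw [mem_conjSub]
      refine ⟨(d : D), ?_⟩
      show φ (d : D) = s * (s⁻¹ * φ (d : D) * s) * s⁻¹
      group
    refine ⟨⟨⟨s⁻¹ * φ (d : D) * s, hd⟩, hmem⟩, ?_⟩
    apply Subtype.ext
    apply hφ
    rw [coe_conjHomD, apply_conjHom]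
    show s * (s⁻¹ * φ (d : D) * s) * s⁻¹ = φ (d : D)
    group

/-- The isomorphism `H ∩ s⁻¹ φ(D) s ≃ D_s = φ⁻¹(s H s⁻¹)`, `h ↦ φ⁻¹(s h s⁻¹)`. -/
noncomputable def conjEquiv (s : G) : conjSub φ H s ≃* dSub φ H s :=
  MulEquiv.ofBijective (conjHomD φ hφ H s) (conjHomD_bijective φ hφ H s)

@[simp] lemma coe_conjEquiv (s : G) (h : conjSub φ H s) :
    ((conjEquiv φ hφ H s h : dSub φ H s) : D) = conjHom φ hφ H s h := rfl

/-- The local factor `Hⁿ(H ∩ s⁻¹ φ(D) s, A^s)` is `Hⁿ(D_s, A)`. -/
noncomputable def twistIso (s : G) (n : ℕ) :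
    groupCohomology (twist φ hφ H A s) n ≅
      groupCohomology (Rep.res (dSub φ H s).subtype A) n :=
  groupCohomology.mapIso (conjEquiv φ hφ H s) (LinearEquiv.refl k A.V) (fun g => by
    ext x
    rfl) n

/-- **Mackey + Shapiro**, classical form: for `φ(D) \ G / H` finite,
`Hⁿ(H, Res_H coind_φ A) ≃ ∏_{q} Hⁿ(D_{rep q}, A)`. -/
noncomputable def mackeyShapiroEquiv [Finite (DC φ H)] (n : ℕ) :
    groupCohomology (Rep.res H.subtype (Rep.coind φ A)) n ≃ₗ[k]
      ∀ q : DC φ H, groupCohomology (Rep.res (dSub φ H (rep q)).subtype A) n :=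
  (mackeyCohomologyEquiv φ hφ H A n).trans
    (LinearEquiv.piCongrRight fun q => (twistIso φ hφ H A (rep q) n).toLinearEquiv)

include hφ in
/-- The cardinality form of Mackey + Shapiro. -/
theorem card_mackeyShapiro [Fintype (DC φ H)] (n : ℕ) :
    Nat.card (groupCohomology (Rep.res H.subtype (Rep.coind φ A)) n) =
      ∏ q : DC φ H, Nat.card (groupCohomology (Rep.res (dSub φ H (rep q)).subtype A) n) := by
  rw [Nat.card_congr (mackeyShapiroEquiv φ hφ H A n).toEquiv, Nat.card_pi]

/-- Factors with trivial `D_s` vanish in positive degrees. -/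
theorem isZero_of_dSub_eq_bot {s : G} (hs : dSub φ H s = ⊥) (n : ℕ) :
    Limits.IsZero (groupCohomology (Rep.res (dSub φ H s).subtype A) (n + 1)) := by
  have : Subsingleton (dSub φ H s) := by rw [hs]; infer_instance
  exact isZero_groupCohomology_succ_of_subsingleton _ n

theorem card_eq_one_of_dSub_eq_bot {s : G} (hs : dSub φ H s = ⊥) (n : ℕ) :
    Nat.card (groupCohomology (Rep.res (dSub φ H s).subtype A) (n + 1)) = 1 := by
  have := ModuleCat.subsingleton_of_isZero (isZero_of_dSub_eq_bot φ H A hs n)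
  exact Nat.card_unique

include hφ in
/-- `|D_s|` divides `|H|`. -/
theorem card_dSub_dvd (s : G) : Nat.card (dSub φ H s) ∣ Nat.card H := by
  rw [← Nat.card_congr (conjEquiv φ hφ H s).toEquiv]
  exact Subgroup.card_subgroup_dvd_card _

include hφ in
/-- If `|H| = p` is prime, every `D_s` is trivial or of order `p`. -/
theorem dSub_eq_bot_or_card_eq {p : ℕ} (hp : p.Prime) (hH : Nat.card H = p) (s : G) :
    dSub φ H s = ⊥ ∨ Nat.card (dSub φ H s) = p := by
  have h := card_dSub_dvd φ hφ H s
  rw [hH] at h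
  rcases (Nat.dvd_prime hp).1 h with h1 | h1
  · left
    exact Subgroup.card_eq_one.1 h1
  · right
    exact h1

/-- `D_s` has the same order as `H` iff `s H s⁻¹ ⊆ φ(D)` (the place is "non-split"). -/
theorem conjSub_eq_top_iff (s : G) :
    conjSub φ H s = ⊤ ↔ ∀ h ∈ H, s * h * s⁻¹ ∈ φ.range := by
  constructor
  · intro hs h hh
    have : (⟨h, hh⟩ : H) ∈ conjSub φ H s := by rw [hs]; trivial
    exact mem_conjSub.1 this
  · intro hs
    rw [eq_top_iff]
    intro h _
    exact mem_conjSub.2 (hs h h.2)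



/-! ### Degree `0`, explicitly: `H`-invariants of `coind_φ A` are families of `D_s`-invariants -/

section Invariants

/-- The value at `s` of an `H`-invariant element of `coind_φ A` is `D_s`-invariant. -/
lemma eval_mem_invariants (f : Representation.coindV φ A.ρ)
    (hf : ∀ h : H, (Rep.coind φ A).ρ (h : G) f = f) (s : G) (d : dSub φ H s) :
    A.ρ (d : D) (f.1 s) = f.1 s := by
  rw [← f.2 (d : D) s]
  have hmem := mem_dSub.1 d.2
  have h2 := congrArg (fun F : Representation.coindV φ A.ρ => F.1 s) (hf ⟨_, hmem⟩)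
  have h3 : s * (s⁻¹ * φ (d : D) * s) = φ (d : D) * s := by group
  have h4 : ((Rep.coind φ A).ρ (s⁻¹ * φ (d : D) * s) f).1 s = f.1 (s * (s⁻¹ * φ (d : D) * s)) := rfl
  simp only [h4, h3] at h2
  exact h2

/-- An `H`-invariant element of `coind_φ A` is determined by its values at the representatives:
`f (φ d * s * h) = d • f s`. -/
lemma invariant_apply (f : Representation.coindV φ A.ρ)
    (hf : ∀ h : H, (Rep.coind φ A).ρ (h : G) f = f) (d : D) (s : G) (h : H) :
    f.1 (φ d * s * (h : G)) = A.ρ d (f.1 s) := by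
  rw [mul_assoc, f.2 d (s * (h : G))]
  congr 1
  exact congrArg (fun F : Representation.coindV φ A.ρ => F.1 s) (hf h)

/-- Evaluation at the representatives, on `H`-invariants. -/
noncomputable def invariantsEval :
    (Rep.res H.subtype (Rep.coind φ A)).ρ.invariants →ₗ[k]
      ∀ q : DC φ H, (Rep.res (dSub φ H (rep q)).subtype A).ρ.invariants where
  toFun f q := ⟨f.1.1 (rep q), fun d => eval_mem_invariants φ H A f.1 f.2 (rep q) d⟩
  map_add' f g := by funext q; rfl
  map_smul' c f := by funext q; rfl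

@[simp] lemma invariantsEval_apply
    (f : (Rep.res H.subtype (Rep.coind φ A)).ρ.invariants) (q : DC φ H) :
    ((invariantsEval φ H A f q : (Rep.res (dSub φ H (rep q)).subtype A).ρ.invariants) : A) =
      f.1.1 (rep q) := rfl

lemma invariantsEval_injective : Function.Injective (invariantsEval φ H A) := by
  rw [injective_iff_map_eq_zero]
  intro f hf
  apply Subtype.ext
  apply Subtype.ext
  funext g
  have e := decomp_spec φ H g
  have h1 := invariant_apply φ H A f.1 f.2 (dpart φ H g) (rep (dc φ H g)) (hpart φ H g)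
  rw [← e] at h1
  have h2 : f.1.1 (rep (dc φ H g)) = 0 :=
    congrArg (fun F : (Rep.res (dSub φ H (rep (dc φ H g))).subtype A).ρ.invariants => (F : A))
      (congrFun hf (dc φ H g))
  rw [h1, h2, map_zero]
  rfl

/-- The constant local section attached to a `D_s`-invariant vector. -/
noncomputable def constSection (s : G) (a : (Rep.res (dSub φ H s).subtype A).ρ.invariants) :
    Representation.coindV (conjSub φ H s).subtype (twist φ hφ H A s).ρ :=
  ⟨fun _ => (a : A), fun h₀ _ => (a.2 ⟨conjHom φ hφ H s h₀, conjHom_mem_dSub φ hφ H s h₀⟩).symm⟩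

/-- The family of constant local sections attached to a family of invariant vectors. -/
noncomputable def constFamily
    (a : ∀ q : DC φ H, (Rep.res (dSub φ H (rep q)).subtype A).ρ.invariants) :
    LocalFamily φ hφ H A :=
  fun q => constSection φ hφ H A (rep q) (a q)

lemma constFamily_apply
    (a : ∀ q : DC φ H, (Rep.res (dSub φ H (rep q)).subtype A).ρ.invariants) (q : DC φ H) (h : H) :
    (constFamily φ hφ H A a q).1 h = (a q : A) := rfl

lemma glue_constFamily_invariant
    (a : ∀ q : DC φ H, (Rep.res (dSub φ H (rep q)).subtype A).ρ.invariants) (h' : H) :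
    (Rep.coind φ A).ρ (h' : G) (glue φ hφ H A (constFamily φ hφ H A a)) =
      glue φ hφ H A (constFamily φ hφ H A a) := by
  apply Subtype.ext
  funext g
  show glueFun φ hφ H A (constFamily φ hφ H A a) (g * (h' : G)) =
    glueFun φ hφ H A (constFamily φ hφ H A a) g
  rw [glueFun_eq φ hφ H A _ (dc φ H g) (g * (h' : G)) (dc_mul_right φ H g h')
      (dpart φ H g) (hpart φ H g * h')
      (by push_cast; rw [← mul_assoc, ← decomp_spec]),
    glueFun_eq φ hφ H A _ (dc φ H g) g rfl (dpart φ H g) (hpart φ H g) (decomp_spec φ H g)]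
  rfl

/-- The inverse of `invariantsEval`: glue the constant sections. -/
noncomputable def invariantsGlue
    (a : ∀ q : DC φ H, (Rep.res (dSub φ H (rep q)).subtype A).ρ.invariants) :
    (Rep.res H.subtype (Rep.coind φ A)).ρ.invariants :=
  ⟨glue φ hφ H A (constFamily φ hφ H A a), fun h' => glue_constFamily_invariant φ hφ H A a h'⟩

lemma invariantsEval_glue
    (a : ∀ q : DC φ H, (Rep.res (dSub φ H (rep q)).subtype A).ρ.invariants) :
    invariantsEval φ H A (invariantsGlue φ hφ H A a) = a := by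
  funext q
  apply Subtype.ext
  show glueFun φ hφ H A (constFamily φ hφ H A a) (rep q) = (a q : A)
  rw [glueFun_eq φ hφ H A _ q (rep q) (dc_rep φ H q) 1 1 (by simp)]
  simp [constFamily_apply]

/-- **Degree `0` Mackey + Shapiro, explicit**: `(coind_φ A)^H ≃ ∏_q A^{D_{rep q}}`,
`f ↦ (f (rep q))_q`.  No finiteness needed. -/
noncomputable def invariantsEquiv :
    (Rep.res H.subtype (Rep.coind φ A)).ρ.invariants ≃ₗ[k]
      ∀ q : DC φ H, (Rep.res (dSub φ H (rep q)).subtype A).ρ.invariants :=
  LinearEquiv.ofBijective (invariantsEval φ H A)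
    ⟨invariantsEval_injective φ H A,
      fun a => ⟨invariantsGlue φ hφ H A a, invariantsEval_glue φ hφ H A a⟩⟩

@[simp] lemma invariantsEquiv_apply
    (f : (Rep.res H.subtype (Rep.coind φ A)).ρ.invariants) (q : DC φ H) :
    ((invariantsEquiv φ hφ H A f q : (Rep.res (dSub φ H (rep q)).subtype A).ρ.invariants) : A) =
      f.1.1 (rep q) := rfl

end Invariants

/-! ### Finite products of coinduced modules (the shape of `J(L,T) = ∏_{q ∈ T} Jq`) -/

section PiCoind

variable {ι : Type u} [Finite ι] {Dι : ι → Type u} [∀ i, Group (Dι i)]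
  (φι : ∀ i, Dι i →* G) (hφι : ∀ i, Function.Injective (φι i))
  (Aι : ∀ i, Rep.{u} k (Dι i)) [∀ i, Finite (DC (φι i) H)]

omit [Finite ι] in
/-- Restriction commutes with products of representations (definitionally). -/
lemma res_piRep {G' : Type u} [Group G'] (f : G' →* G) (M : ι → Rep.{u} k G) :
    Rep.res f (piRep M) = piRep (fun i => Rep.res f (M i)) := rfl

/-- **Mackey + Shapiro for a finite product of coinduced modules**:
`Hⁿ(H, Res_H ∏_i coind_{φ_i} A_i) ≃ ∏_i ∏_{q ∈ φ_i(D_i) \ G / H} Hⁿ((D_i)_{rep q}, A_i)`. -/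
noncomputable def mackeyShapiroPiEquiv (n : ℕ) :
    groupCohomology (Rep.res H.subtype (piRep fun i => Rep.coind (φι i) (Aι i))) n ≃ₗ[k]
      ∀ i, ∀ q : DC (φι i) H,
        groupCohomology (Rep.res (dSub (φι i) H (rep q)).subtype (Aι i)) n :=
  (cohomologyPiEquiv n (fun i => Rep.res H.subtype (Rep.coind (φι i) (Aι i)))).trans
    (LinearEquiv.piCongrRight fun i => mackeyShapiroEquiv (φι i) (hφι i) H (Aι i) n)

include hφι in
/-- Cardinality form. -/
theorem card_mackeyShapiroPi [Fintype ι] [∀ i, Fintype (DC (φι i) H)] (n : ℕ) :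
    Nat.card (groupCohomology
        (Rep.res H.subtype (piRep fun i => Rep.coind (φι i) (Aι i))) n) =
      ∏ i, ∏ q : DC (φι i) H,
        Nat.card (groupCohomology (Rep.res (dSub (φι i) H (rep q)).subtype (Aι i)) n) := by
  rw [Nat.card_congr (mackeyShapiroPiEquiv H φι hφι Aι n).toEquiv, Nat.card_pi]
  exact Finset.prod_congr rfl fun i _ => Nat.card_pi

end PiCoind

end Fermat.Agent.GC.Global.Mackey
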