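/-
GATE-C / C4 leaf (LM-U) generic part (helper52): cohomologically trivial modules and
coinduction.

* `CohTriv A` : `H^{n+1}(D', Res_{D'} A) = 0` for every subgroup `D'` and every `n`;
* `cohTriv_of_subsingleton` : the zero module is cohomologically trivial;
* `isZero_res_coind` : `CohTriv A → H^{n+1}(H, Res_H coind_φ A) = 0` (Mackey + Shapiro, helper72);
* `isZero_res_piCoind` : the same for a finite product `∏_i coind_{φ_i} A_i`;
* `map_g_bijective_of_isZero` : for `0 → X₁ → X₂ → X₃ → 0` with `Hⁱ(X₁) = 0 = Hⁱ⁺¹(X₁)`,
  `Hⁱ(X₂) → Hⁱ(X₃)` is bijective;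
* `res_shortExact` : restriction to a subgroup preserves short exact sequences;
* `res_map_g_bijective` : the combination, for `Res_H`.
-/
import Mathlib
import Fermat.Agent.GC.Global.MackeyShapiro
import Fermat.Agent.GC.Tate.LES

set_option autoImplicit false
set_option linter.unusedSectionVars false
set_option linter.dupNamespace false

open CategoryTheory Limits

noncomputable section

namespace Fermat.Agent.GC.Global.CohTriv

universe u

section Basic

variable {k G : Type u} [CommRing k] [Group G]

/-- `A` is cohomologically trivial: `H^{n+1}(D', A) = 0` for every subgroup `D'`, every `n`. -/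
def CohTriv (A : Rep.{u} k G) : Prop :=
  ∀ (D' : Subgroup G) (n : ℕ), IsZero (groupCohomology (Rep.res D'.subtype A) (n + 1))

/-- Group cohomology of a module with one element vanishes. -/
theorem isZero_groupCohomology_of_subsingleton (A : Rep.{u} k G) [Subsingleton A.V] (n : ℕ) :
    IsZero (groupCohomology A n) := by
  have hA : IsZero A := by
    refine (IsZero.iff_id_eq_zero A).2 ?_
    ext x
    exact Subsingleton.elim _ _
  exact Functor.map_isZero (groupCohomology.functor k G n) hA

theorem cohTriv_of_subsingleton (A : Rep.{u} k G) [Subsingleton A.V] : CohTriv A := by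
  intro D' n
  have : Subsingleton (Rep.res D'.subtype A).V := ‹Subsingleton A.V›
  exact isZero_groupCohomology_of_subsingleton _ _

end Basic

section Mackey

open Fermat.Agent.GC.Global.Mackey

variable {k G D : Type u} [CommRing k] [Group G] [Group D]
  (φ : D →* G) (hφ : Function.Injective φ) (H : Subgroup G) (A : Rep.{u} k D)

include hφ in
/-- If `A` is cohomologically trivial then so is `coind_φ A` (Mackey + Shapiro). -/
theorem isZero_res_coind [Finite (DC φ H)] (hA : CohTriv A) (n : ℕ) :
    IsZero (groupCohomology (Rep.res H.subtype (Rep.coind φ A)) (n + 1)) := by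
  have : ∀ q : DC φ H,
      Subsingleton (groupCohomology (Rep.res (dSub φ H (rep q)).subtype A) (n + 1)) :=
    fun q => ModuleCat.subsingleton_of_isZero (hA _ n)
  have : Subsingleton (groupCohomology (Rep.res H.subtype (Rep.coind φ A)) (n + 1)) :=
    (mackeyShapiroEquiv φ hφ H A (n + 1)).toEquiv.subsingleton
  exact ModuleCat.isZero_of_subsingleton _

variable {ι : Type u} [Finite ι] {Dι : ι → Type u} [∀ i, Group (Dι i)]
  (φι : ∀ i, Dι i →* G) (hφι : ∀ i, Function.Injective (φι i))
  (Aι : ∀ i, Rep.{u} k (Dι i)) [∀ i, Finite (DC (φι i) H)]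

include hφι in
/-- A finite product of modules coinduced from cohomologically trivial modules has vanishing
higher cohomology on every subgroup. -/
theorem isZero_res_piCoind (hA : ∀ i, CohTriv (Aι i)) (n : ℕ) :
    IsZero (groupCohomology
      (Rep.res H.subtype (piRep fun i => Rep.coind (φι i) (Aι i))) (n + 1)) := by
  have : ∀ i, ∀ q : DC (φι i) H, Subsingleton
      (groupCohomology (Rep.res (dSub (φι i) H (rep q)).subtype (Aι i)) (n + 1)) :=
    fun i q => ModuleCat.subsingleton_of_isZero (hA i _ n)
  have : Subsingleton (groupCohomology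
      (Rep.res H.subtype (piRep fun i => Rep.coind (φι i) (Aι i))) (n + 1)) :=
    (mackeyShapiroPiEquiv H φι hφι Aι (n + 1)).toEquiv.subsingleton
  exact ModuleCat.isZero_of_subsingleton _

end Mackey

section LES

open Fermat.Agent.GC.Tate

variable {k G : Type u} [CommRing k] [Group G] {X : ShortComplex (Rep.{u} k G)}
  (hX : X.ShortExact)

include hX in
/-- If `Hⁱ(X₁) = 0 = Hⁱ⁺¹(X₁)` then `Hⁱ(X₂) → Hⁱ(X₃)` is bijective. -/
theorem map_g_bijective_of_isZero (i : ℕ) (h1 : IsZero (groupCohomology X.X₁ i))
    (h2 : IsZero (groupCohomology X.X₁ (i + 1))) :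
    Function.Bijective (groupCohomology.map (MonoidHom.id G) X.g i).hom := by
  constructor
  · rw [injective_iff_map_eq_zero]
    intro x hx
    obtain ⟨y, rfl⟩ := exists_map_f_eq_of_map_g_eq_zero hX i x hx
    have : Subsingleton (groupCohomology X.X₁ i) := ModuleCat.subsingleton_of_isZero h1
    rw [Subsingleton.elim y 0, map_zero]
  · intro z
    have : Subsingleton (groupCohomology X.X₁ (i + 1)) := ModuleCat.subsingleton_of_isZero h2
    exact exists_map_g_eq_of_δ_eq_zero hX i z (Subsingleton.elim _ _)

include hX in
/-- If `H¹(X₁) = 0` then `H⁰(X₂) → H⁰(X₃)` is surjective. -/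
theorem map_g_surjective_of_isZero (i : ℕ) (h2 : IsZero (groupCohomology X.X₁ (i + 1))) :
    Function.Surjective (groupCohomology.map (MonoidHom.id G) X.g i).hom := by
  intro z
  have : Subsingleton (groupCohomology X.X₁ (i + 1)) := ModuleCat.subsingleton_of_isZero h2
  exact exists_map_g_eq_of_δ_eq_zero hX i z (Subsingleton.elim _ _)

include hX in
/-- Restriction to a subgroup preserves short exact sequences. -/
theorem res_shortExact (H : Subgroup G) :
    (X.map (Rep.resFunctor (k := k) H.subtype)).ShortExact :=
  hX.map_of_exact _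

include hX in
/-- If `X₁` is cohomologically trivial then `H^{n+1}(H, X₂) → H^{n+1}(H, X₃)` is bijective for
every subgroup `H`. -/
theorem res_map_g_bijective (hU : CohTriv X.X₁) (H : Subgroup G) (n : ℕ) :
    Function.Bijective (groupCohomology.map (A := Rep.res H.subtype X.X₂)
      (B := Rep.res H.subtype X.X₃) (MonoidHom.id H)
      ((Rep.resFunctor (k := k) H.subtype).map X.g) (n + 1)).hom :=
  map_g_bijective_of_isZero (res_shortExact hX H) (n + 1) (hU H n) (hU H (n + 1))

include hX in
/-- If `X₁` is cohomologically trivial then `H⁰(H, X₂) → H⁰(H, X₃)` is surjective. -/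
theorem res_map_g_surjective (hU : CohTriv X.X₁) (H : Subgroup G) :
    Function.Surjective (groupCohomology.map (A := Rep.res H.subtype X.X₂)
      (B := Rep.res H.subtype X.X₃) (MonoidHom.id H)
      ((Rep.resFunctor (k := k) H.subtype).map X.g) 0).hom :=
  map_g_surjective_of_isZero (res_shortExact hX H) 0 (hU H 0)

end LES

end Fermat.Agent.GC.Global.CohTriv
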