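/-
GATE-C / C4 leaf (GB) part 3 (helper72): Mackey + Shapiro for the `T`-idele module `J L T`.

* `fixedFieldIso`: for `D' ≤ Gal(E/F)` (finite extension), `Hⁿ(D', Eˣ) ≅ Hⁿ(Gal(E/E^{D'}), Eˣ)`
  (bridge from the subgroup form produced by Mackey to the C3 form `Rep.ofAlgebraAutOnUnits`);
* `resJEquiv`: `Hⁿ(H, Res_H J(L,T)) ≃ ∏_{q ∈ T} ∏_{s ∈ D_q \ G_L / H} Hⁿ(Gal(L_q / L_q^{D_s}), L_qˣ)`;
* `subsingleton_H1_resJ`: `H¹(H, Res_H J(L,T)) = 0` (Hilbert 90);
* `card_H2_resJ`: `|H²(H, Res_H J(L,T))| = ∏_q ∏_s |H²(Gal(L_q / L_q^{D_s}), L_qˣ)|`.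
-/
import Fermat.Agent.GC.Global.MackeyShapiro
import Fermat.Agent.GC.Global.ClassModule

set_option autoImplicit false

open CategoryTheory
open scoped Padic

noncomputable section

namespace Fermat.Agent.GC.Global.Mackey

section AddEquivForm

universe u

variable {k G : Type u} [CommRing k] [Group G] (H : Subgroup G)
  {ι : Type u} [Finite ι] {Dι : ι → Type u} [∀ i, Group (Dι i)]
  (φι : ∀ i, Dι i →* G) (hφι : ∀ i, Function.Injective (φι i))
  (Aι : ∀ i, Rep.{u} k (Dι i)) [∀ i, Finite (DC (φι i) H)]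

/-- `mackeyShapiroPiEquiv` as an additive equivalence (avoids the `ℤ`-module diamond on `Pi`
types when `k = ℤ`). -/
def mackeyShapiroPiAddEquiv (n : ℕ) :
    groupCohomology (Rep.res H.subtype (piRep fun i => Rep.coind (φι i) (Aι i))) n ≃+
      ∀ i, ∀ q : DC (φι i) H,
        groupCohomology (Rep.res (dSub (φι i) H (rep q)).subtype (Aι i)) n :=
  (mackeyShapiroPiEquiv H φι hφι Aι n).toAddEquiv

end AddEquivForm

section FixedField

variable {F E : Type} [Field F] [Field E] [Algebra F E] [FiniteDimensional F E]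

lemma subgroupEquivAlgEquiv_apply (D' : Subgroup (E ≃ₐ[F] E)) (d : D') (x : E) :
    IntermediateField.subgroupEquivAlgEquiv D' d x = (d : E ≃ₐ[F] E) x := rfl

/-- For a subgroup `D' ≤ Gal(E/F)`: `Hⁿ(D', Eˣ) ≅ Hⁿ(Gal(E/E^{D'}), Eˣ)`. -/
def fixedFieldIso (D' : Subgroup (E ≃ₐ[F] E)) (n : ℕ) :
    groupCohomology (Rep.res D'.subtype (Rep.ofAlgebraAutOnUnits F E)) n ≅
      groupCohomology (Rep.ofAlgebraAutOnUnits (IntermediateField.fixedField D') E) n :=
  groupCohomology.mapIso (IntermediateField.subgroupEquivAlgEquiv D')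
    (LinearEquiv.refl ℤ (Additive Eˣ)) (fun g => by
      ext x
      rfl) n

/-- Hilbert 90 for a subgroup of the Galois group. -/
theorem subsingleton_H1_res (D' : Subgroup (E ≃ₐ[F] E)) :
    Subsingleton (groupCohomology (Rep.res D'.subtype (Rep.ofAlgebraAutOnUnits F E)) 1) := by
  have : Subsingleton
      (groupCohomology (Rep.ofAlgebraAutOnUnits (IntermediateField.fixedField D') E) 1) :=
    (inferInstance : Subsingleton
      (groupCohomology.H1 (Rep.ofAlgebraAutOnUnits (IntermediateField.fixedField D') E)))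
  exact (fixedFieldIso D' 1).toLinearEquiv.toEquiv.subsingleton

end FixedField


section J

open Fermat.Agent.GC.Global

variable (L : IntermediateField ℚ Qb) [Normal ℚ L] (T : Finset Nat.Primes)
  [Finite (L ≃ₐ[ℚ] L)] (H : Subgroup (L ≃ₐ[ℚ] L))

/-- The local decomposition subgroup `D_{q,s} = dec_q⁻¹(s H s⁻¹) ≤ Gal(L_q/ℚ_q)`: the Galois group
of `L_q` over the completion of `K = L^H` at the place `ι ∘ s`. -/
abbrev locSub (q : Nat.Primes) (s : L ≃ₐ[ℚ] L) :
    Subgroup (locField (q : ℕ) L ≃ₐ[ℚ_[(q : ℕ)]] locField (q : ℕ) L) :=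
  dSub (decHom (q : ℕ) L) H s

/-- The local base field `L_q^{D_{q,s}}` (the completion of `K = L^H` at the place `ι ∘ s`). -/
abbrev locBase (q : Nat.Primes) (s : L ≃ₐ[ℚ] L) :
    IntermediateField ℚ_[(q : ℕ)] (locField (q : ℕ) L) :=
  IntermediateField.fixedField (locSub L H q s)

/-- The index set of the places of `K = L^H` above `q`. -/
abbrev PlacesAbove (q : Nat.Primes) : Type := DC (decHom (q : ℕ) L) H

variable [∀ q : Nat.Primes, FiniteDimensional ℚ_[(q : ℕ)] (locField (q : ℕ) L)]

/-- **Mackey + Shapiro for the ideles**: `Hⁿ(H, Res_H J(L,T))` is the product over `q ∈ T` and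
over the places `s` of `K = L^H` above `q` of `Hⁿ(Gal(L_q/K_s), L_qˣ)`. -/
def resJEquiv (n : ℕ) :
    groupCohomology (Rep.res H.subtype (J L T)) n ≃+
      ∀ q : T, ∀ s : PlacesAbove L H q,
        groupCohomology (Rep.ofAlgebraAutOnUnits (locBase L H q (rep s)) (locField (q : ℕ) L)) n :=
  (mackeyShapiroPiAddEquiv H (fun q : T => decHom ((q : Nat.Primes) : ℕ) L)
    (fun _ => decHom_injective _ L) (fun q : T => locUnits ((q : Nat.Primes) : ℕ) L) n).trans
    (AddEquiv.piCongrRight fun q => AddEquiv.piCongrRight fun s =>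
      (fixedFieldIso (locSub L H q (rep s)) n).toLinearEquiv.toAddEquiv)

/-- `H¹(H, Res_H J(L,T)) = 0` (Mackey + Shapiro + Hilbert 90). -/
theorem subsingleton_H1_resJ :
    Subsingleton (groupCohomology (Rep.res H.subtype (J L T)) 1) := by
  have : ∀ q : T, ∀ s : PlacesAbove L H q, Subsingleton (groupCohomology
      (Rep.ofAlgebraAutOnUnits (locBase L H q (rep s)) (locField ((q : Nat.Primes) : ℕ) L)) 1) :=
    fun q s => (inferInstance : Subsingleton (groupCohomology.H1
      (Rep.ofAlgebraAutOnUnits (locBase L H q (rep s)) (locField ((q : Nat.Primes) : ℕ) L))))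
  exact (resJEquiv L T H 1).toEquiv.subsingleton

theorem card_H1_resJ : Nat.card (groupCohomology (Rep.res H.subtype (J L T)) 1) = 1 := by
  have := subsingleton_H1_resJ L T H
  exact Nat.card_unique

/-- `|Hⁿ(H, Res_H J(L,T))| = ∏_{q ∈ T} ∏_{s | q} |Hⁿ(Gal(L_q/K_s), L_qˣ)|`. -/
theorem card_resJ [∀ q : Nat.Primes, Fintype (PlacesAbove L H q)] (n : ℕ) :
    Nat.card (groupCohomology (Rep.res H.subtype (J L T)) n) =
      ∏ q : T, ∏ s : PlacesAbove L H q, Nat.card (groupCohomology
        (Rep.ofAlgebraAutOnUnits (locBase L H q (rep s)) (locField ((q : Nat.Primes) : ℕ) L)) n) := by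
  rw [Nat.card_congr (resJEquiv L T H n).toEquiv, Nat.card_pi]
  exact Finset.prod_congr rfl fun q _ => Nat.card_pi


open Classical in
/-- The number of NON-SPLIT places of `K = L^H` above `T` (places `s` with `D_{q,s} ≠ ⊥`). -/
def nonsplitCount [∀ q : Nat.Primes, Fintype (PlacesAbove L H q)] : ℕ :=
  ∑ q : T, (Finset.univ.filter fun s : PlacesAbove L H q => locSub L H q (rep s) ≠ ⊥).card

omit [Finite (L ≃ₐ[ℚ] L)] in
/-- `[L_q : K_s] = |D_{q,s}|`. -/
theorem finrank_locBase (q : Nat.Primes) (s : L ≃ₐ[ℚ] L) :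
    Module.finrank (locBase L H q s) (locField (q : ℕ) L) = Nat.card (locSub L H q s) :=
  IntermediateField.finrank_fixedField_eq_card _

open Classical in
/-- **Idele cohomology in degree 2 for a layer of prime degree** (the `hJ2` of AD6): if `|H| = p`
and the local `H²` have the order predicted by local class field theory
(C3: `Nat.card (H2 (Rep.ofAlgebraAutOnUnits E E')) = Module.finrank E E'`), then
`|H²(H, Res_H J(L,T))| = p ^ (number of non-split places above T)`. -/
theorem card_H2_resJ_of_local [∀ q : Nat.Primes, Fintype (PlacesAbove L H q)]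
    {p : ℕ} (hp : p.Prime) (hH : Nat.card H = p)
    (hloc : ∀ q : T, ∀ s : PlacesAbove L H q, Nat.card (groupCohomology
        (Rep.ofAlgebraAutOnUnits (locBase L H q (rep s)) (locField ((q : Nat.Primes) : ℕ) L)) 2) =
      Module.finrank (locBase L H q (rep s)) (locField ((q : Nat.Primes) : ℕ) L)) :
    Nat.card (groupCohomology (Rep.res H.subtype (J L T)) 2) = p ^ nonsplitCount L T H := by
  rw [card_resJ, nonsplitCount, ← Finset.prod_pow_eq_pow_sum]
  refine Finset.prod_congr rfl fun q _ => ?_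
  have key : ∀ s : PlacesAbove L H q, Nat.card (groupCohomology
      (Rep.ofAlgebraAutOnUnits (locBase L H q (rep s)) (locField ((q : Nat.Primes) : ℕ) L)) 2) =
      if locSub L H q (rep s) ≠ ⊥ then p else 1 := by
    intro s
    rw [hloc q s, finrank_locBase]
    rcases dSub_eq_bot_or_card_eq (decHom ((q : Nat.Primes) : ℕ) L) (decHom_injective _ L) H hp hH
      (rep s) with h | h
    · have h' : locSub L H q (rep s) = ⊥ := h
      rw [if_neg (not_not.2 h'), h']
      exact Subgroup.card_bot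
    · have hne : locSub L H q (rep s) ≠ ⊥ := by
        intro h0
        have h1 : Nat.card (locSub L H q (rep s)) = 1 := by rw [h0]; exact Subgroup.card_bot
        have h2 : Nat.card (locSub L H q (rep s)) = p := h
        rw [h1] at h2
        exact hp.one_lt.ne h2
      rw [if_pos hne]
      exact h
  rw [Finset.prod_congr rfl fun s _ => key s, Finset.prod_ite, Finset.prod_const,
    Finset.prod_const_one, mul_one]

end J

end Fermat.Agent.GC.Global.Mackey
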