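/-
GATE-C / C4→C5 glue (helper19): **`KBGlue.KHyps S K p` from the three finite class-level
statements `ClsOnto S K p`, `ClsDiv S K p`, `ClsCyc S K p`** (helper12 `EJDModelCls`).

* `hasse` = helper78 `KumH.hHasse_sUnitsK` (unconditional: `[A]` + `j1`);
* `ejd`   = helper12 `ejdHyp_ideleSKShortComplex_final` (from `ClsOnto`, `ClsDiv`);
* `lj`    = helper71 `LimJ.exists_JS_two_of_locFull` (unconditional);
* `d2`    = helper12 `hD2_ideleSKShortComplex` (from `ClsCyc`).
-/
import Mathlib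
import Fermat.Agent.GC.Global.KummerKOfHyps
import Fermat.Agent.GC.Global.Limit.EJDFinal
import Fermat.Agent.GC.Global.Limit.IdeleSFinal
import Fermat.Agent.GC.Kummer.HlcHasseFinal

set_option autoImplicit false

open CategoryTheory Module

noncomputable section

namespace Fermat.Agent.GC.KBGlue

open Fermat.Agent.GC.Global.KummerBridge
open Fermat.Agent.GC.Prof Fermat.Agent.GC.KumH Fermat.Agent.GC.Places Fermat.Agent.GC.C0
open Fermat.Agent.GC.KBInst Fermat.Agent.GC.PT.BaseInputsQ Fermat.Agent.GC.PT.BaseInstQ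
open Fermat.Agent.GC.Global.Limit.EJDModel
open ExtCitation

local notation "Qb" => AlgebraicClosure ℚ
local notation "GQ" => (AlgebraicClosure ℚ ≃ₐ[ℚ] AlgebraicClosure ℚ)

attribute [local instance] Fermat.Agent.GC.Places.fact_prime

variable {p : ℕ} [Fact p.Prime]

/-- **`KHyps` from the three class-level finite statements.** -/
theorem kHyps_of_cls (hp2 : p ≠ 2) (S : Finset Nat.Primes) (hpS : pPrime p ∈ S)
    (K : IntermediateField ℚ Qb) [FiniteDimensional ℚ K]
    (hK : K.IsUnramifiedOutside S)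
    (hχK : ∀ s : K.fixingSubgroup, cycloChar p (s : GQ) = 1)
    (hOnto : ClsOnto S K p) (hDiv : ClsDiv S K p) (hCyc : ClsCyc S K p) :
    KHyps S K p := by
  have hp : p.Prime := Fact.out
  have hS : S.Nonempty := ⟨_, hpS⟩
  obtain ⟨ζ, hζ⟩ := Fermat.Agent.GJ.CycChar.exists_primitiveRoot (p := p)
  have hζK : ζ ∈ K := primitiveRoot_mem_of_cycloChar_eq_one K (fun g hg => hχK ⟨g, hg⟩) hζ
  refine ⟨?_, ?_, ?_, ?_⟩
  · -- HASSE
    exact hHasse_sUnitsK S K hp hp2 hpS hK hζ hζK (famPrime S K) (famRep S K)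
      (fun q w => ⟨⟨q, w⟩, rfl, rfl⟩)
  · -- EJD
    exact ejdHyp_ideleSKShortComplex_final hp hp2 hpS hK hS hζ hζK hOnto hDiv
  · -- LJ
    intro b hb
    obtain ⟨x, hx0, hx⟩ := LimJ.exists_JS_two_of_locFull S K hK p hpS 1 (fun q w => b ⟨q, w⟩)
      (fun q w => by
        rw [pow_one, ← natCast_zsmul]
        exact hb ⟨q, w⟩)
    refine ⟨x, ?_, fun i => ?_⟩
    · rw [pow_one, ← natCast_zsmul] at hx0
      exact hx0
    · obtain ⟨q, w⟩ := i
      exact hx q w
  · -- D2
    exact hD2_ideleSKShortComplex hp hpS hK hS hCyc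

end Fermat.Agent.GC.KBGlue
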