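/-
GATE-C / C4 COUNT-MATCH (i), helper97: the group theory of "split / non-split" in a quotient layer,
on helper72's double cosets `DC φ H = φ(D) \ G / H` (`GC/Global/Mackey.lean`).

`φ : D →* G` (decomposition homomorphism), `V ≤ G`, `U' ≤ V` (as a subgroup of `V`),
`U := U'.map V.subtype ≤ G`.  Places of `K = L^V` above `q` ↔ `DC φ V`, places of `N = L^{U'}`
above `q` ↔ `DC φ U`, "the place below" ↔ `dcMap : DC φ U → DC φ V`.

* `dcMap`, `dcMap_dc`, `dcMap_surjective`;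
* `mem_fibre_iff` : the fibre of `dcMap` over `[s]` is `{[s v] | v ∈ V}`;
* `dc_eq_iff` : `[s v] = [s v']` in `DC φ U` iff `v' ∈ W_s v U'`, `W_s = conjSub φ V s = V ∩ s⁻¹φ(D)s`;
* `fibre_subsingleton_iff` : for `U'` NORMAL in `V`: the fibre over `[s]` is a single point iff
  `conjSub φ V s ⊔ U' = ⊤` iff the image of `W_s` in `V ⧸ U'` is everything
  (`nonsplit_iff_map_eq_top`), i.e. iff helper72's `ψ_s : D_s → V ⧸ U'` is onto
  (`nonsplit_iff_forall_exists_dSub`).
-/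
import Mathlib
import Fermat.Agent.GC.Global.MackeyShapiro

set_option autoImplicit false

universe u

namespace Fermat.Agent.GC.Global.SplitCount

open Fermat.Agent.GC.Global.Mackey

variable {G D : Type u} [Group G] [Group D] (φ : D →* G)

section Map

variable {U V : Subgroup G} (hUV : U ≤ V)

/-- The map `φ(D) \ G / U → φ(D) \ G / V` for `U ≤ V` ("the place below"). -/
def dcMap : DC φ U → DC φ V :=
  Quotient.map' id fun a b hab => by
    obtain ⟨d, hd, u, hu, e⟩ := DoubleCoset.rel_iff.1 hab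
    exact DoubleCoset.rel_iff.2 ⟨d, hd, u, hUV hu, e⟩

@[simp] theorem dcMap_dc (g : G) : dcMap φ hUV (dc φ U g) = dc φ V g := rfl

theorem dcMap_surjective : Function.Surjective (dcMap φ hUV) := by
  intro q
  induction q using Quotient.inductionOn' with
  | h g => exact ⟨dc φ U g, rfl⟩

/-- The fibre of `dcMap` over `[s]` consists of the classes `[s v]`, `v ∈ V`. -/
theorem mem_fibre_iff (s : G) (t : DC φ U) :
    dcMap φ hUV t = dc φ V s ↔ ∃ v : V, t = dc φ U (s * (v : G)) := by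
  induction t using Quotient.inductionOn' with
  | h g =>
    constructor
    · intro h
      obtain ⟨d, ⟨d₀, rfl⟩, v, hv, e⟩ := (DoubleCoset.eq φ.range V g s).1 h
      -- `s = φ d₀ * g * v`, so `g = φ d₀⁻¹ * s * v⁻¹`
      refine ⟨⟨v⁻¹, V.inv_mem hv⟩, ?_⟩
      show dc φ U g = dc φ U (s * v⁻¹)
      rw [e, mul_inv_cancel_right]
      exact (dc_mul_left φ U d₀ g).symm
    · rintro ⟨v, hv⟩
      rw [hv, dcMap_dc]
      exact dc_mul_right φ V s v

end Map

section Fibre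

variable (V : Subgroup G) (U' : Subgroup V)

/-- `[s v] = [s v']` in `φ(D) \ G / U` iff `v' ∈ W_s v U'`. -/
theorem dc_eq_iff (s : G) (v v' : V) :
    dc φ (U'.map V.subtype) (s * (v : G)) = dc φ (U'.map V.subtype) (s * (v' : G)) ↔
      ∃ w ∈ conjSub φ V s, ∃ u ∈ U', v' = w * v * u := by
  rw [DoubleCoset.eq]
  constructor
  · rintro ⟨d, hd, _, ⟨u, hu, rfl⟩, e⟩
    -- `s v' = d s v u`, so `v' = (s⁻¹ d s) v u`
    have hw : v' * (v * u)⁻¹ ∈ conjSub φ V s := by
      rw [mem_conjSub]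
      have : s * ((v' * (v * u)⁻¹ : V) : G) * s⁻¹ = d := by
        push_cast
        have e' : (v' : G) = s⁻¹ * d * s * (v : G) * (u : G) := by
          have := congrArg (fun x => s⁻¹ * x) e
          simpa [mul_assoc] using this
        rw [e']
        group
      rw [this]
      exact hd
    exact ⟨v' * (v * u)⁻¹, hw, u, hu, by group⟩
  · rintro ⟨w, hw, u, hu, rfl⟩
    rw [mem_conjSub] at hw
    refine ⟨s * (w : G) * s⁻¹, hw, (u : G), ⟨u, hu, rfl⟩, ?_⟩
    push_cast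
    group

variable [U'.Normal]

/-- For `U'` normal in `V`: `v ∈ W_s ⊔ U'` iff `v = w * u` with `w ∈ W_s`, `u ∈ U'`. -/
theorem mem_sup_iff (s : G) (v : V) :
    v ∈ conjSub φ V s ⊔ U' ↔ ∃ w ∈ conjSub φ V s, ∃ u ∈ U', v = w * u := by
  rw [Subgroup.mem_sup_of_normal_right]
  constructor
  · rintro ⟨w, hw, u, hu, e⟩
    exact ⟨w, hw, u, hu, e.symm⟩
  · rintro ⟨w, hw, u, hu, e⟩
    exact ⟨w, hw, u, hu, e.symm⟩

/-- `[s v] = [s]` in `φ(D) \ G / U` iff `v ∈ W_s ⊔ U'`. -/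
theorem dc_eq_self_iff (s : G) (v : V) :
    dc φ (U'.map V.subtype) (s * (v : G)) = dc φ (U'.map V.subtype) s ↔
      v ∈ conjSub φ V s ⊔ U' := by
  have h := dc_eq_iff φ V U' s 1 v
  simp only [OneMemClass.coe_one, mul_one] at h
  rw [eq_comm, h, mem_sup_iff]

/-- **Non-split criterion.**  The fibre of `φ(D) \ G / U → φ(D) \ G / V` over `[s]` is a single
point iff `W_s ⊔ U' = ⊤`. -/
theorem fibre_subsingleton_iff (s : G) :
    (∀ t : DC φ (U'.map V.subtype),
      dcMap φ (Subgroup.map_subtype_le U') t = dc φ V s → t = dc φ (U'.map V.subtype) s) ↔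
      conjSub φ V s ⊔ U' = ⊤ := by
  constructor
  · intro h
    rw [eq_top_iff]
    intro v _
    rw [← dc_eq_self_iff]
    exact h _ ((mem_fibre_iff φ _ s _).2 ⟨v, rfl⟩)
  · intro h t ht
    obtain ⟨v, rfl⟩ := (mem_fibre_iff φ _ s t).1 ht
    rw [dc_eq_self_iff, h]
    exact Subgroup.mem_top v

/-- `W_s ⊔ U' = ⊤` iff the image of `W_s` in `V ⧸ U'` is everything. -/
theorem nonsplit_iff_map_eq_top (s : G) :
    conjSub φ V s ⊔ U' = ⊤ ↔ (conjSub φ V s).map (QuotientGroup.mk' U') = ⊤ := by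
  constructor
  · intro h
    rw [eq_top_iff]
    intro x _
    obtain ⟨v, rfl⟩ := QuotientGroup.mk'_surjective U' x
    have hv : v ∈ conjSub φ V s ⊔ U' := h ▸ Subgroup.mem_top v
    obtain ⟨w, hw, u, hu, rfl⟩ := (mem_sup_iff φ V U' s v).1 hv
    refine ⟨w, hw, ?_⟩
    rw [QuotientGroup.mk'_apply, QuotientGroup.mk'_apply, QuotientGroup.mk_mul_of_mem w hu]
  · intro h
    rw [eq_top_iff]
    intro v _
    have : (QuotientGroup.mk' U' v) ∈ (conjSub φ V s).map (QuotientGroup.mk' U') :=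
      h ▸ Subgroup.mem_top _
    obtain ⟨w, hw, e⟩ := this
    rw [QuotientGroup.mk'_apply, QuotientGroup.mk'_apply, QuotientGroup.eq] at e
    rw [mem_sup_iff]
    exact ⟨w, hw, w⁻¹ * v, e, by group⟩

/-- `W_s ⊔ U' = ⊤` iff `d ↦ [s⁻¹ φ(d) s]`, `D_s = dSub φ V s → V ⧸ U'`, is onto (helper72's `ψ_s`). -/
theorem nonsplit_iff_forall_exists_dSub (s : G) :
    conjSub φ V s ⊔ U' = ⊤ ↔
      ∀ x : V ⧸ U', ∃ (d : D) (hd : d ∈ dSub φ V s),
        x = QuotientGroup.mk' U' ⟨s⁻¹ * φ d * s, (mem_dSub (φ := φ) (H := V)).1 hd⟩ := by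
  rw [nonsplit_iff_map_eq_top]
  constructor
  · intro h x
    have : x ∈ (conjSub φ V s).map (QuotientGroup.mk' U') := h ▸ Subgroup.mem_top x
    obtain ⟨w, hw, rfl⟩ := this
    obtain ⟨d, hd⟩ := mem_conjSub.1 hw
    have hd' : d ∈ dSub φ V s := by
      rw [mem_dSub, hd]
      have : s⁻¹ * (s * (w : G) * s⁻¹) * s = (w : G) := by group
      rw [this]
      exact w.2
    refine ⟨d, hd', ?_⟩
    congr 1
    apply Subtype.ext
    show (w : G) = s⁻¹ * φ d * s
    rw [hd]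
    group
  · intro h
    rw [eq_top_iff]
    intro x _
    obtain ⟨d, hd, rfl⟩ := h x
    refine ⟨⟨s⁻¹ * φ d * s, (mem_dSub (φ := φ) (H := V)).1 hd⟩, ?_, rfl⟩
    rw [SetLike.mem_coe, mem_conjSub]
    refine ⟨d, ?_⟩
    show φ d = s * (s⁻¹ * φ d * s) * s⁻¹
    group

end Fibre

end Fermat.Agent.GC.Global.SplitCount
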