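/-
GATE-C / C4 leaf MACKEY-INV (helper72): the QUOTIENT form of the Mackey decomposition.

`φ : D →* G` injective, `V ≤ G`, `U' ◁ V`, `A : Rep k D`.  The `V ⧸ U'`-module of `U'`-invariants of
`Res_V (coind_φ A)` decomposes over the double cosets `φ(D) \ G / V`:

  `(Res_V coind_φ A)^{U'} ≅ ∏_{s} coind_{ψ_s} (Res_{D_s} A)`,  `ψ_s : D_s = φ⁻¹(s V s⁻¹) →* V ⧸ U'`,
  `d ↦ [s⁻¹ φ(d) s]`,

(`f ↦ ([v] ↦ f (s * v))`), and consequently
  `Hⁿ(V ⧸ U', (Res_V coind_φ A)^{U'}) ≃ ∏_s Hⁿ(D_s ⧸ ker ψ_s, A^{ker ψ_s})`.
-/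
import Fermat.Agent.GC.Global.MackeyShapiro
import Fermat.Agent.GC.Tate.ShapiroHom

set_option autoImplicit false
set_option linter.unusedSectionVars false

open CategoryTheory

universe u

namespace Fermat.Agent.GC.Global.Mackey

variable {k G D : Type u} [CommRing k] [Group G] [Group D]
  (φ : D →* G) (hφ : Function.Injective φ) (V : Subgroup G) (U' : Subgroup V) [U'.Normal]
  (A : Rep.{u} k D)

/-- `D_s → V`, `d ↦ s⁻¹ φ(d) s`. -/
def dToV (s : G) : dSub φ V s →* V where
  toFun d := ⟨s⁻¹ * φ (d : D) * s, mem_dSub.1 d.2⟩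
  map_one' := by ext; simp
  map_mul' a b := by ext; simp [mul_assoc]

@[simp] lemma coe_dToV (s : G) (d : dSub φ V s) :
    ((dToV φ V s d : V) : G) = s⁻¹ * φ (d : D) * s := rfl

/-- `ψ_s : D_s →* V ⧸ U'`, `d ↦ [s⁻¹ φ(d) s]`. -/
def psi (s : G) : dSub φ V s →* V ⧸ U' :=
  (QuotientGroup.mk' U').comp (dToV φ V s)

lemma psi_apply (s : G) (d : dSub φ V s) :
    psi φ V U' s d = QuotientGroup.mk (dToV φ V s d) := rfl

/-- The local factor of the quotient Mackey decomposition at `s`. -/
noncomputable abbrev quotLocalRep (s : G) : Rep k (V ⧸ U') :=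
  Rep.coind (psi φ V U' s) (Rep.res (dSub φ V s).subtype A)

/-- The module of `U'`-invariants of `Res_V (coind_φ A)`. -/
abbrev InvMod : Type u :=
  Representation.invariants ((Rep.res V.subtype (Rep.coind φ A)).ρ.comp U'.subtype)

omit [U'.Normal] in
variable {φ V U' A} in
/-- Right `U'`-invariance of an invariant function. -/
lemma InvMod.apply_mul (f : InvMod φ V U' A) (g : G) (u : U') :
    f.1.1 (g * ((u : V) : G)) = f.1.1 g :=
  congrArg (fun F : Representation.coindV φ A.ρ => F.1 g) (f.2 u)

variable {φ V U' A} in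
/-- The value `f (s * v)` only depends on the class of `v` in `V ⧸ U'`. -/
def InvMod.evalQuot (f : InvMod φ V U' A) (s : G) (x : V ⧸ U') : A :=
  Quotient.liftOn' x (fun v : V => f.1.1 (s * (v : G))) (by
    intro a b hab
    have hab' : a⁻¹ * b ∈ U' := QuotientGroup.leftRel_apply.1 hab
    have := InvMod.apply_mul f (s * (a : G)) ⟨a⁻¹ * b, hab'⟩
    simp only [Subgroup.coe_mul, Subgroup.coe_inv] at this
    rw [← this]
    group)

variable {φ V U' A} in
@[simp] lemma InvMod.evalQuot_mk (f : InvMod φ V U' A) (s : G) (v : V) :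
    f.evalQuot s (QuotientGroup.mk v) = f.1.1 (s * (v : G)) := rfl

/-- The underlying linear map of the component map. -/
noncomputable def quotCompLin (s : G) :
    InvMod φ V U' A →ₗ[k]
      Representation.coindV (psi φ V U' s) (Rep.res (dSub φ V s).subtype A).ρ where
  toFun f := ⟨fun x => f.evalQuot s x, by
    intro d x
    induction x using QuotientGroup.induction_on with
    | H v =>
      rw [psi_apply, ← QuotientGroup.mk_mul]
      have := f.1.2 (d : D) (s * (v : G))
      show f.1.1 (s * ((dToV φ V s d * v : V) : G)) = A.ρ (d : D) (f.1.1 (s * (v : G)))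
      rw [← this]
      simp only [Subgroup.coe_mul, coe_dToV]
      group⟩
  map_add' f g := by
    ext x
    induction x using QuotientGroup.induction_on with
    | H v => rfl
  map_smul' c f := by
    ext x
    induction x using QuotientGroup.induction_on with
    | H v => rfl

@[simp] lemma quotCompLin_apply_mk (s : G) (f : InvMod φ V U' A) (v : V) :
    (quotCompLin φ V U' A s f).1 (QuotientGroup.mk v) = f.1.1 (s * (v : G)) := rfl


/-- The component map `(Res_V coind_φ A)^{U'} ⟶ coind_{ψ_s} (Res_{D_s} A)`, `f ↦ ([v] ↦ f (s * v))`. -/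
noncomputable def quotComp (s : G) :
    (Rep.res V.subtype (Rep.coind φ A)).quotientToInvariants U' ⟶ quotLocalRep φ V U' A s :=
  Rep.ofHom ⟨quotCompLin φ V U' A s, fun y => by
    induction y using QuotientGroup.induction_on with
    | H v' =>
      ext f x
      induction x using QuotientGroup.induction_on with
      | H v =>
        show f.1.1 (s * (v : G) * (v' : G)) = f.1.1 (s * ((v * v' : V) : G))
        rw [Subgroup.coe_mul, mul_assoc]⟩

section Decomposition

variable {φ V U' A} in
/-- Well-definedness: the value `d • F [v]` only depends on `φ d * s * v`. -/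
lemma quot_smul_eq_of_mul_eq {s : G}
    (F : Representation.coindV (psi φ V U' s) (Rep.res (dSub φ V s).subtype A).ρ)
    {d d' : D} {v v' : V} (e : φ d * s * (v : G) = φ d' * s * (v' : G)) :
    A.ρ d (F.1 (QuotientGroup.mk v)) = A.ρ d' (F.1 (QuotientGroup.mk v')) := by
  have e' : s⁻¹ * φ (d'⁻¹ * d) * s = (v' : G) * (v : G)⁻¹ := by
    have h1 : φ d * s = φ d' * s * (v' : G) * (v : G)⁻¹ := by
      rw [← e]; group
    rw [map_mul, map_inv]
    have h2 : s⁻¹ * ((φ d')⁻¹ * φ d) * s = s⁻¹ * (φ d')⁻¹ * (φ d * s) := by group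
    rw [h2, h1]
    group
  have hmem : d'⁻¹ * d ∈ dSub φ V s := by
    rw [mem_dSub, e']
    exact V.mul_mem v'.2 (V.inv_mem v.2)
  have hpsi : psi φ V U' s ⟨d'⁻¹ * d, hmem⟩ * QuotientGroup.mk v = QuotientGroup.mk v' := by
    rw [psi_apply, ← QuotientGroup.mk_mul]
    congr 1
    apply Subtype.ext
    rw [Subgroup.coe_mul, coe_dToV]
    show s⁻¹ * φ (d'⁻¹ * d) * s * (v : G) = (v' : G)
    rw [e']
    group
  have hF := F.2 ⟨d'⁻¹ * d, hmem⟩ (QuotientGroup.mk v)
  rw [hpsi] at hF
  rw [hF]
  show A.ρ d (F.1 (QuotientGroup.mk v)) = A.ρ d' (A.ρ (d'⁻¹ * d) (F.1 (QuotientGroup.mk v)))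
  rw [← Module.End.mul_apply, ← map_mul, mul_inv_cancel_left]

/-- A family of local sections, one for every double coset. -/
abbrev QuotLocalFamily : Type u :=
  ∀ q : DC φ V, Representation.coindV (psi φ V U' (rep q))
    (Rep.res (dSub φ V (rep q)).subtype A).ρ

/-- The value of the glued function at `g`. -/
noncomputable def quotGlueFun (F : QuotLocalFamily φ V U' A) (g : G) : A :=
  A.ρ (dpart φ V g) ((F (dc φ V g)).1 (QuotientGroup.mk (hpart φ V g)))

/-- The value of the glued function can be computed with ANY decomposition `g = φ d * rep q * v`. -/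
lemma quotGlueFun_eq (F : QuotLocalFamily φ V U' A) (q : DC φ V) (g : G) (hq : dc φ V g = q)
    (d : D) (v : V) (e : g = φ d * rep q * (v : G)) :
    quotGlueFun φ V U' A F g = A.ρ d ((F q).1 (QuotientGroup.mk v)) := by
  subst hq
  exact quot_smul_eq_of_mul_eq (F _) ((decomp_spec φ V g).symm.trans e)

/-- Gluing: a family of local sections defines a `U'`-invariant element of the coinduced module. -/
noncomputable def quotGlue (F : QuotLocalFamily φ V U' A) : InvMod φ V U' A :=
  ⟨⟨quotGlueFun φ V U' A F, by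
    intro d g
    rw [quotGlueFun_eq φ V U' A F (dc φ V g) (φ d * g) (dc_mul_left φ V d g)
      (d * dpart φ V g) (hpart φ V g)
      (by rw [map_mul, mul_assoc, mul_assoc, ← mul_assoc (φ (dpart φ V g)), ← decomp_spec]),
      map_mul]
    rfl⟩, by
    intro u
    apply Subtype.ext
    funext g
    show quotGlueFun φ V U' A F (g * ((u : V) : G)) = quotGlueFun φ V U' A F g
    rw [quotGlueFun_eq φ V U' A F (dc φ V g) (g * ((u : V) : G)) (dc_mul_right φ V g (u : V))
      (dpart φ V g) (hpart φ V g * (u : V))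
      (by push_cast; rw [← mul_assoc, ← decomp_spec]),
      quotGlueFun_eq φ V U' A F (dc φ V g) g rfl (dpart φ V g) (hpart φ V g) (decomp_spec φ V g)]
    rw [QuotientGroup.mk_mul_of_mem _ u.2]⟩

lemma quotCompLin_glue (F : QuotLocalFamily φ V U' A) (q : DC φ V) :
    quotCompLin φ V U' A (rep q) (quotGlue φ V U' A F) = F q := by
  ext x
  induction x using QuotientGroup.induction_on with
  | H v =>
    rw [quotCompLin_apply_mk]
    show quotGlueFun φ V U' A F (rep q * (v : G)) = _
    rw [quotGlueFun_eq φ V U' A F q (rep q * (v : G)) (by rw [dc_mul_right, dc_rep]) 1 v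
      (by simp)]
    simp

lemma eq_zero_of_quotCompLin_eq_zero (f : InvMod φ V U' A)
    (hf : ∀ q : DC φ V, quotCompLin φ V U' A (rep q) f = 0) : f = 0 := by
  apply Subtype.ext
  apply Subtype.ext
  funext g
  have e := decomp_spec φ V g
  have h1 := f.1.2 (dpart φ V g) (rep (dc φ V g) * (hpart φ V g : G))
  rw [← mul_assoc, ← e] at h1
  rw [h1]
  have h2 : (quotCompLin φ V U' A (rep (dc φ V g)) f).1 (QuotientGroup.mk (hpart φ V g)) = 0 := by
    rw [hf]; rfl
  rw [quotCompLin_apply_mk] at h2
  rw [h2, map_zero]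
  rfl

/-- The product of the component maps, as a linear map. -/
noncomputable def quotMackeyLin : InvMod φ V U' A →ₗ[k] QuotLocalFamily φ V U' A :=
  LinearMap.pi fun q => quotCompLin φ V U' A (rep q)

lemma quotMackeyLin_bijective : Function.Bijective (quotMackeyLin φ V U' A) := by
  constructor
  · rw [injective_iff_map_eq_zero]
    intro f hf
    exact eq_zero_of_quotCompLin_eq_zero φ V U' A f fun q => congrFun hf q
  · intro F
    exact ⟨quotGlue φ V U' A F, funext fun q => quotCompLin_glue φ V U' A F q⟩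

end Decomposition

/-- **Quotient Mackey decomposition** (linear form). -/
noncomputable def quotMackeyLinearEquiv : InvMod φ V U' A ≃ₗ[k] QuotLocalFamily φ V U' A :=
  LinearEquiv.ofBijective (quotMackeyLin φ V U' A) (quotMackeyLin_bijective φ V U' A)

@[simp] lemma quotMackeyLinearEquiv_apply_mk (f : InvMod φ V U' A) (q : DC φ V) (v : V) :
    (quotMackeyLinearEquiv φ V U' A f q).1 (QuotientGroup.mk v) = f.1.1 (rep q * (v : G)) := rfl

/-- **Quotient Mackey decomposition** in `Rep k (V ⧸ U')`:
`(Res_V coind_φ A)^{U'} ≅ ∏_{q ∈ φ(D) \ G / V} coind_{ψ_{rep q}} (Res_{D_{rep q}} A)`. -/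
noncomputable def quotMackeyIso :
    (Rep.res V.subtype (Rep.coind φ A)).quotientToInvariants U' ≅
      piRep (fun q : DC φ V => quotLocalRep φ V U' A (rep q)) :=
  Rep.mkIso (Representation.Equiv.mk (quotMackeyLinearEquiv φ V U' A) fun y => by
    induction y using QuotientGroup.induction_on with
    | H v' =>
      ext f q x
      induction x using QuotientGroup.induction_on with
      | H v =>
        show f.1.1 (rep q * (v : G) * (v' : G)) = f.1.1 (rep q * ((v * v' : V) : G))
        rw [Subgroup.coe_mul, mul_assoc])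

lemma quotMackeyIso_hom_piProj (q : DC φ V) :
    (quotMackeyIso φ V U' A).hom ≫ piProj _ q = quotComp φ V U' A (rep q) := rfl


/-! ### Coinduction along an arbitrary homomorphism: `coind_ψ B ≅ coind_{D'/ker ψ ↪ Q} (B^{ker ψ})` -/

section CoindKer

variable {Q D' : Type u} [Group Q] [Group D'] (ψ : D' →* Q) (B : Rep.{u} k D')

/-- The values of an element of `coind_ψ B` are `ker ψ`-invariant. -/
lemma coind_apply_mem_invariants (F : Representation.coindV ψ B.ρ) (x : Q) :
    F.1 x ∈ Representation.invariants (B.ρ.comp ψ.ker.subtype) := by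
  intro n
  have h := F.2 (n : D') x
  have hn : ψ (n : D') = 1 := n.2
  rw [hn, one_mul] at h
  exact h.symm

/-- `coind_ψ B → coind_{kerLift ψ} (B^{ker ψ})`. -/
noncomputable def coindKerLin :
    Representation.coindV ψ B.ρ →ₗ[k]
      Representation.coindV (QuotientGroup.kerLift ψ) (B.quotientToInvariants ψ.ker).ρ where
  toFun F := ⟨fun x => ⟨F.1 x, coind_apply_mem_invariants ψ B F x⟩, by
    intro y x
    induction y using QuotientGroup.induction_on with
    | H d =>
      apply Subtype.ext
      show F.1 (ψ d * x) = B.ρ d (F.1 x)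
      exact F.2 d x⟩
  map_add' F F' := by ext x; rfl
  map_smul' c F := by ext x; rfl

@[simp] lemma coindKerLin_apply (F : Representation.coindV ψ B.ρ) (x : Q) :
    (((coindKerLin ψ B F).1 x :
      Representation.invariants (B.ρ.comp ψ.ker.subtype)) : B) = F.1 x := rfl

/-- The inverse map. -/
noncomputable def coindKerInvLin :
    Representation.coindV (QuotientGroup.kerLift ψ) (B.quotientToInvariants ψ.ker).ρ →ₗ[k]
      Representation.coindV ψ B.ρ where
  toFun F := ⟨fun x => ((F.1 x : Representation.invariants (B.ρ.comp ψ.ker.subtype)) : B), by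
    intro d x
    have h := F.2 (QuotientGroup.mk d) x
    have h' := congrArg
      (fun z : Representation.invariants (B.ρ.comp ψ.ker.subtype) => (z : B)) h
    exact h'⟩
  map_add' F F' := by ext x; rfl
  map_smul' c F := by ext x; rfl

/-- `coind_ψ B ≃ coind_{kerLift ψ} (B^{ker ψ})`, linear form. -/
noncomputable def coindKerLinearEquiv :
    Representation.coindV ψ B.ρ ≃ₗ[k]
      Representation.coindV (QuotientGroup.kerLift ψ) (B.quotientToInvariants ψ.ker).ρ where
  __ := coindKerLin ψ B
  invFun := coindKerInvLin ψ B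
  left_inv F := by ext x; rfl
  right_inv F := by ext x; rfl

/-- `coind_ψ B ≅ coind_{kerLift ψ} (B^{ker ψ})` in `Rep k Q`. -/
noncomputable def coindKerIso :
    Rep.coind ψ B ≅ Rep.coind (QuotientGroup.kerLift ψ) (B.quotientToInvariants ψ.ker) :=
  Rep.mkIso (Representation.Equiv.mk (coindKerLinearEquiv ψ B) fun y => by
    ext F x
    rfl)

/-- **Shapiro for an arbitrary homomorphism** `ψ : D' →* Q`:
`Hⁿ(Q, coind_ψ B) ≅ Hⁿ(D' ⧸ ker ψ, B^{ker ψ})`. -/
noncomputable def coindCohomologyIso (n : ℕ) :
    groupCohomology (Rep.coind ψ B) n ≅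
      groupCohomology (B.quotientToInvariants ψ.ker) n :=
  (groupCohomology.functor k Q n).mapIso (coindKerIso ψ B) ≪≫
    Fermat.Agent.GC.Tate.shapiroHomIso (QuotientGroup.kerLift ψ)
      (QuotientGroup.kerLift_injective ψ) (B.quotientToInvariants ψ.ker) n

end CoindKer


/-! ### Quotient Mackey + Shapiro -/

section QuotCohomology

/-- `ker ψ_s = D_s ∩ φ⁻¹(s U' s⁻¹)`, a normal subgroup of `D_s`. -/
abbrev dKer (s : G) : Subgroup (dSub φ V s) := (psi φ V U' s).ker

lemma mem_dKer {s : G} {d : dSub φ V s} :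
    d ∈ dKer φ V U' s ↔ dToV φ V s d ∈ U' := by
  rw [MonoidHom.mem_ker, psi_apply, QuotientGroup.eq_one_iff]

/-- **Quotient Mackey + Shapiro**: for `φ(D) \ G / V` finite,
`Hⁿ(V ⧸ U', (Res_V coind_φ A)^{U'}) ≃ ∏_q Hⁿ(D_q ⧸ ker ψ_q, (Res_{D_q} A)^{ker ψ_q})`. -/
noncomputable def quotMackeyShapiroEquiv [Finite (DC φ V)] (n : ℕ) :
    groupCohomology ((Rep.res V.subtype (Rep.coind φ A)).quotientToInvariants U') n ≃ₗ[k]
      ∀ q : DC φ V, groupCohomology
        ((Rep.res (dSub φ V (rep q)).subtype A).quotientToInvariants (dKer φ V U' (rep q))) n :=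
  (((groupCohomology.functor k (V ⧸ U') n).mapIso (quotMackeyIso φ V U' A)).toLinearEquiv.trans
    (cohomologyPiEquiv n fun q : DC φ V => quotLocalRep φ V U' A (rep q))).trans
    (LinearEquiv.piCongrRight fun q =>
      (coindCohomologyIso (psi φ V U' (rep q))
        (Rep.res (dSub φ V (rep q)).subtype A) n).toLinearEquiv)

/-- Additive form (use it for `k = ℤ`). -/
noncomputable def quotMackeyShapiroAddEquiv [Finite (DC φ V)] (n : ℕ) :
    groupCohomology ((Rep.res V.subtype (Rep.coind φ A)).quotientToInvariants U') n ≃+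
      ∀ q : DC φ V, groupCohomology
        ((Rep.res (dSub φ V (rep q)).subtype A).quotientToInvariants (dKer φ V U' (rep q))) n :=
  (quotMackeyShapiroEquiv φ V U' A n).toAddEquiv

/-- Cardinality form. -/
theorem card_quotMackeyShapiro [Fintype (DC φ V)] (n : ℕ) :
    Nat.card (groupCohomology
        ((Rep.res V.subtype (Rep.coind φ A)).quotientToInvariants U') n) =
      ∏ q : DC φ V, Nat.card (groupCohomology
        ((Rep.res (dSub φ V (rep q)).subtype A).quotientToInvariants (dKer φ V U' (rep q))) n) := by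
  rw [Nat.card_congr (quotMackeyShapiroEquiv φ V U' A n).toEquiv, Nat.card_pi]

/-- `[D_s : ker ψ_s]` divides `[V : U']`. -/
theorem index_dKer_dvd (s : G) [U'.FiniteIndex] : (dKer φ V U' s).index ∣ U'.index := by
  have h1 : (dKer φ V U' s).index = Nat.card (psi φ V U' s).range := by
    rw [Subgroup.index_ker]
  rw [h1]
  have h2 : U'.index = Nat.card (V ⧸ U') := rfl
  rw [h2]
  exact Subgroup.card_subgroup_dvd_card _

/-- If `[V : U'] = p` is prime, then `ker ψ_s = ⊤` (the place splits) or `[D_s : ker ψ_s] = p`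
(the place does not split). -/
theorem dKer_eq_top_or_index_eq {p : ℕ} (hp : p.Prime) (hU : U'.index = p) (s : G) :
    dKer φ V U' s = ⊤ ∨ (dKer φ V U' s).index = p := by
  have : U'.FiniteIndex := ⟨by rw [hU]; exact hp.ne_zero⟩
  have h := index_dKer_dvd φ V U' s
  rw [hU] at h
  rcases (Nat.dvd_prime hp).1 h with h1 | h1
  · left
    exact Subgroup.index_eq_one.1 h1
  · right
    exact h1

/-- Factors with `ker ψ_s = ⊤` vanish in positive degrees. -/
theorem isZero_of_dKer_eq_top {s : G} (hs : dKer φ V U' s = ⊤) (n : ℕ) :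
    Limits.IsZero (groupCohomology
      ((Rep.res (dSub φ V s).subtype A).quotientToInvariants (dKer φ V U' s)) (n + 1)) := by
  have : Subsingleton (dSub φ V s ⧸ dKer φ V U' s) := by
    rw [hs]
    exact QuotientGroup.subsingleton_quotient_top
  exact isZero_groupCohomology_succ_of_subsingleton _ n

end QuotCohomology

/-! ### Invariants commute with products -/

section InvPi

variable {G₁ : Type u} [Group G₁] (S : Subgroup G₁) [S.Normal] {ι : Type u} (M : ι → Rep.{u} k G₁)

/-- `(∏ M_i)^S ≃ ∏ (M_i^S)`, linear form. -/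
noncomputable def invPiLinearEquiv :
    Representation.invariants ((piRep M).ρ.comp S.subtype) ≃ₗ[k]
      ∀ i, Representation.invariants ((M i).ρ.comp S.subtype) where
  toFun x i := ⟨x.1 i, fun g => congrFun (x.2 g) i⟩
  map_add' x y := by funext i; rfl
  map_smul' c x := by funext i; rfl
  invFun y := ⟨fun i => (y i).1, fun g => funext fun i => (y i).2 g⟩
  left_inv x := by apply Subtype.ext; rfl
  right_inv y := by funext i; apply Subtype.ext; rfl

/-- `(∏ M_i)^S ≅ ∏ (M_i^S)` in `Rep k (G₁ ⧸ S)`. -/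
noncomputable def invPiIso :
    (piRep M).quotientToInvariants S ≅ piRep (fun i => (M i).quotientToInvariants S) :=
  Rep.mkIso (Representation.Equiv.mk (invPiLinearEquiv S M) fun y => by
    induction y using QuotientGroup.induction_on with
    | H g =>
      ext x i
      rfl)

end InvPi


/-! ### Finite products of coinduced modules (the shape of `J L T`) -/

section QuotPi

variable {ι : Type u} [Finite ι] {Dι : ι → Type u} [∀ i, Group (Dι i)]
  (φι : ∀ i, Dι i →* G) (Aι : ∀ i, Rep.{u} k (Dι i)) [∀ i, Finite (DC (φι i) V)]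

/-- **Quotient Mackey + Shapiro for a finite product of coinduced modules.** -/
noncomputable def quotMackeyShapiroPiEquiv (n : ℕ) :
    groupCohomology ((Rep.res V.subtype
        (piRep fun i => Rep.coind (φι i) (Aι i))).quotientToInvariants U') n ≃ₗ[k]
      ∀ i, ∀ q : DC (φι i) V, groupCohomology
        ((Rep.res (dSub (φι i) V (rep q)).subtype (Aι i)).quotientToInvariants
          (dKer (φι i) V U' (rep q))) n :=
  (((groupCohomology.functor k (V ⧸ U') n).mapIso
      (invPiIso U' fun i => Rep.res V.subtype (Rep.coind (φι i) (Aι i)))).toLinearEquiv.trans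
    (cohomologyPiEquiv n fun i =>
      (Rep.res V.subtype (Rep.coind (φι i) (Aι i))).quotientToInvariants U')).trans
    (LinearEquiv.piCongrRight fun i => quotMackeyShapiroEquiv (φι i) V U' (Aι i) n)

/-- Additive form (use it for `k = ℤ`). -/
noncomputable def quotMackeyShapiroPiAddEquiv (n : ℕ) :
    groupCohomology ((Rep.res V.subtype
        (piRep fun i => Rep.coind (φι i) (Aι i))).quotientToInvariants U') n ≃+
      ∀ i, ∀ q : DC (φι i) V, groupCohomology
        ((Rep.res (dSub (φι i) V (rep q)).subtype (Aι i)).quotientToInvariants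
          (dKer (φι i) V U' (rep q))) n :=
  (quotMackeyShapiroPiEquiv V U' φι Aι n).toAddEquiv

/-- Cardinality form. -/
theorem card_quotMackeyShapiroPi [Fintype ι] [∀ i, Fintype (DC (φι i) V)] (n : ℕ) :
    Nat.card (groupCohomology ((Rep.res V.subtype
        (piRep fun i => Rep.coind (φι i) (Aι i))).quotientToInvariants U') n) =
      ∏ i, ∏ q : DC (φι i) V, Nat.card (groupCohomology
        ((Rep.res (dSub (φι i) V (rep q)).subtype (Aι i)).quotientToInvariants
          (dKer (φι i) V U' (rep q))) n) := by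
  rw [Nat.card_congr (quotMackeyShapiroPiEquiv V U' φι Aι n).toEquiv, Nat.card_pi]
  exact Finset.prod_congr rfl fun i _ => Nat.card_pi

end QuotPi

end Fermat.Agent.GC.Global.Mackey
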