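/-
GATE-C / C4 leaf MACKEY-INV, part 2 (helper72): the quotient layers of the `T`-idele module.

For `U' ◁ V ≤ G_L` with `V ⧸ U'` cyclic (e.g. of prime index `p`), `K = L^V ⊂ N = L^{U'}`:
* `quotJEquiv` : `Hⁿ(V⧸U', (Res_V J(L,T))^{U'}) ≃ ∏_{q ∈ T} ∏_{s} Hⁿ(D_{q,s} ⧸ ker ψ_{q,s}, (L_qˣ)^{ker ψ_{q,s}})`;
* `isZero_H1_quotJ` : `H¹(V⧸U', (Res_V J(L,T))^{U'}) = 0`;
* `card_H2_quotJ` : `|H²(V⧸U', (Res_V J(L,T))^{U'})| = ∏_q ∏_s [D_{q,s} : ker ψ_{q,s}]`;
* `card_H2_quotJ_of_index_prime` : `= p ^ quotNonsplitCount` when `[V : U'] = p`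
(the `hJ1`, `hJ2` of helper97's `Layer1.layer_first_inequality_C`), using helper67's local layers.
-/
import Fermat.Agent.GC.Global.MackeyInv
import Fermat.Agent.GC.Global.MackeyJ
import Fermat.Agent.GC.Local.Herbrand.LocalLayer

set_option autoImplicit false
set_option linter.unusedSectionVars false

open CategoryTheory
open scoped Padic

noncomputable section

namespace Fermat.Agent.GC.Global.Mackey

open Fermat.Agent.GC.Global

variable (L : IntermediateField ℚ Qb) [Normal ℚ L] (T : Finset Nat.Primes)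
  [Finite (L ≃ₐ[ℚ] L)] (V : Subgroup (L ≃ₐ[ℚ] L)) (U' : Subgroup V) [U'.Normal]

/-- `ker ψ_{q,s} ◁ D_{q,s}`: the Galois group of `L_q` over the completion of `N = L^{U'}`, inside
`D_{q,s} = Gal(L_q / K_s)`, `K = L^V`. -/
abbrev locKer (q : Nat.Primes) (s : L ≃ₐ[ℚ] L) : Subgroup (locSub L V q s) :=
  dKer (decHom (q : ℕ) L) V U' s

/-- **Quotient Mackey + Shapiro for the ideles.** -/
def quotJEquiv (n : ℕ) :
    groupCohomology ((Rep.res V.subtype (J L T)).quotientToInvariants U') n ≃+
      ∀ q : T, ∀ s : PlacesAbove L V q, groupCohomology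
        ((Rep.res (locSub L V q (rep s)).subtype
          (locUnits ((q : Nat.Primes) : ℕ) L)).quotientToInvariants (locKer L V U' q (rep s))) n :=
  quotMackeyShapiroPiAddEquiv V U' (fun q : T => decHom ((q : Nat.Primes) : ℕ) L)
    (fun q : T => locUnits ((q : Nat.Primes) : ℕ) L) n

variable [∀ q : Nat.Primes, FiniteDimensional ℚ_[(q : ℕ)] (locField (q : ℕ) L)]
  [∀ q : Nat.Primes, IsGalois ℚ_[(q : ℕ)] (locField (q : ℕ) L)]

/-- The local quotient `D_{q,s} ⧸ ker ψ_{q,s}` embeds in `V ⧸ U'`, so it is cyclic. -/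
instance isCyclic_locQuot [IsCyclic (V ⧸ U')] (q : Nat.Primes) (s : L ≃ₐ[ℚ] L) :
    IsCyclic (locSub L V q s ⧸ locKer L V U' q s) :=
  isCyclic_of_injective (QuotientGroup.kerLift (psi (decHom (q : ℕ) L) V U' s))
    (QuotientGroup.kerLift_injective _)

/-- The local input (helper67): `H¹ = 0` and `|H²| = [D_{q,s} : ker ψ_{q,s}]` on every factor. -/
theorem local_factor [IsCyclic (V ⧸ U')] (q : Nat.Primes) (s : L ≃ₐ[ℚ] L) :
    Limits.IsZero (groupCohomology ((Rep.res (locSub L V q s).subtype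
        (locUnits (q : ℕ) L)).quotientToInvariants (locKer L V U' q s)) 1) ∧
      Nat.card (groupCohomology ((Rep.res (locSub L V q s).subtype
        (locUnits (q : ℕ) L)).quotientToInvariants (locKer L V U' q s)) 2) =
        (locKer L V U' q s).index := by
  obtain ⟨h1, _, h3⟩ := Fermat.Agent.GC.Local.Herbrand.local_layer_card_of_isCyclic (q : ℕ)
    ℚ_[(q : ℕ)] (locField (q : ℕ) L) (locSub L V q s) (locKer L V U' q s)
  exact ⟨h1, h3⟩

/-- `H¹(V⧸U', (Res_V J(L,T))^{U'}) = 0` for cyclic `V ⧸ U'`. -/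
theorem isZero_H1_quotJ [IsCyclic (V ⧸ U')] :
    Limits.IsZero (groupCohomology ((Rep.res V.subtype (J L T)).quotientToInvariants U') 1) := by
  rw [ModuleCat.isZero_iff_subsingleton]
  have : ∀ q : T, ∀ s : PlacesAbove L V q, Subsingleton (groupCohomology
      ((Rep.res (locSub L V q (rep s)).subtype
        (locUnits ((q : Nat.Primes) : ℕ) L)).quotientToInvariants
          (locKer L V U' q (rep s))) 1) :=
    fun q s => ModuleCat.subsingleton_of_isZero (local_factor L V U' q (rep s)).1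
  exact (quotJEquiv L T V U' 1).toEquiv.subsingleton

/-- `|H²(V⧸U', (Res_V J(L,T))^{U'})| = ∏_q ∏_s [D_{q,s} : ker ψ_{q,s}]` for cyclic `V ⧸ U'`. -/
theorem card_H2_quotJ [IsCyclic (V ⧸ U')] [∀ q : Nat.Primes, Fintype (PlacesAbove L V q)] :
    Nat.card (groupCohomology ((Rep.res V.subtype (J L T)).quotientToInvariants U') 2) =
      ∏ q : T, ∏ s : PlacesAbove L V q, (locKer L V U' q (rep s)).index := by
  rw [Nat.card_congr (quotJEquiv L T V U' 2).toEquiv, Nat.card_pi]
  refine Finset.prod_congr rfl fun q _ => ?_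
  rw [Nat.card_pi]
  exact Finset.prod_congr rfl fun s _ => (local_factor L V U' q (rep s)).2

open Classical in
/-- The number of places of `K = L^V` above `T` which do NOT split in `N = L^{U'}`
(`ψ_{q,s}` onto, i.e. `ker ψ_{q,s} ≠ ⊤`). -/
def quotNonsplitCount [∀ q : Nat.Primes, Fintype (PlacesAbove L V q)] : ℕ :=
  ∑ q : T, (Finset.univ.filter fun s : PlacesAbove L V q => locKer L V U' q (rep s) ≠ ⊤).card

open Classical in
/-- `|H²(V⧸U', (Res_V J(L,T))^{U'})| = p ^ (number of non-split places)` for `[V : U'] = p`. -/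
theorem card_H2_quotJ_of_index_prime [∀ q : Nat.Primes, Fintype (PlacesAbove L V q)]
    {p : ℕ} (hp : p.Prime) (hU : U'.index = p) :
    Nat.card (groupCohomology ((Rep.res V.subtype (J L T)).quotientToInvariants U') 2) =
      p ^ quotNonsplitCount L T V U' := by
  have hcard : Nat.card (V ⧸ U') = p := hU
  have : Fact p.Prime := ⟨hp⟩
  have : IsCyclic (V ⧸ U') := isCyclic_of_prime_card hcard
  rw [card_H2_quotJ, quotNonsplitCount, ← Finset.prod_pow_eq_pow_sum]
  refine Finset.prod_congr rfl fun q _ => ?_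
  have key : ∀ s : PlacesAbove L V q, (locKer L V U' q (rep s)).index =
      if locKer L V U' q (rep s) ≠ ⊤ then p else 1 := by
    intro s
    rcases dKer_eq_top_or_index_eq (decHom ((q : Nat.Primes) : ℕ) L) V U' hp hU (rep s)
      with h | h
    · have h' : locKer L V U' q (rep s) = ⊤ := h
      rw [if_neg (not_not.2 h'), h']
      exact Subgroup.index_top
    · have hne : locKer L V U' q (rep s) ≠ ⊤ := by
        intro h0
        have h1 : (locKer L V U' q (rep s)).index = 1 := by rw [h0]; exact Subgroup.index_top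
        have h2 : (locKer L V U' q (rep s)).index = p := h
        rw [h1] at h2
        exact hp.one_lt.ne h2
      rw [if_pos hne]
      exact h
  rw [Finset.prod_congr rfl fun s _ => key s, Finset.prod_ite, Finset.prod_const,
    Finset.prod_const_one, mul_one]

/-- **The `hJ1`/`hJ2` package of helper97's `Layer1.layer_first_inequality_C`.** -/
theorem quotJ_layer [∀ q : Nat.Primes, Fintype (PlacesAbove L V q)]
    {p : ℕ} (hp : p.Prime) (hU : U'.index = p) :
    Limits.IsZero (groupCohomology ((Rep.res V.subtype (J L T)).quotientToInvariants U') 1) ∧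
      Nat.card (groupCohomology ((Rep.res V.subtype (J L T)).quotientToInvariants U') 2) =
        p ^ quotNonsplitCount L T V U' := by
  have hcard : Nat.card (V ⧸ U') = p := hU
  have : Fact p.Prime := ⟨hp⟩
  have : IsCyclic (V ⧸ U') := isCyclic_of_prime_card hcard
  exact ⟨isZero_H1_quotJ L T V U', card_H2_quotJ_of_index_prime L T V U' hp hU⟩

end Fermat.Agent.GC.Global.Mackey
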