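/-
GATE-C / C4 COUNT-GT (helper72): the exponent of MACKEY-INV in helper97's `SplitCount` language.

For `U' ◁ V ≤ G` of prime index `p`: `ker ψ_s ≠ ⊤ ↔ conjSub φ V s ⊔ U' = ⊤` (the place `[s]` of
`L^V` does not split in `L^{U'}`), hence
`quotNonsplitCount L T V U' = ∑_{q ∈ T} #{c : DC (decHom q L) V | conjSub (rep c) ⊔ U' = ⊤}`.
-/
import Fermat.Agent.GC.Global.MackeyInvJ
import Fermat.Agent.GC.Global.SplitCount

set_option autoImplicit false
set_option linter.unusedSectionVars false

open scoped Padic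

namespace Fermat.Agent.GC.Global.Mackey

section GroupTheory

universe u

variable {G D : Type u} [Group G] [Group D] (φ : D →* G) (V : Subgroup G) (U' : Subgroup V)
  [U'.Normal]

/-- `ψ_s` is onto iff `W_s ⊔ U' = ⊤`. -/
theorem psi_surjective_iff (s : G) :
    Function.Surjective (psi φ V U' s) ↔ conjSub φ V s ⊔ U' = ⊤ := by
  rw [SplitCount.nonsplit_iff_forall_exists_dSub]
  constructor
  · intro h x
    obtain ⟨d, rfl⟩ := h x
    exact ⟨(d : D), d.2, rfl⟩
  · intro h x
    obtain ⟨d, hd, rfl⟩ := h x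
    exact ⟨⟨d, hd⟩, rfl⟩

/-- For `[V : U'] = p` prime: `ker ψ_s ≠ ⊤` iff `ψ_s` is onto. -/
theorem dKer_ne_top_iff_surjective {p : ℕ} (hp : p.Prime) (hU : U'.index = p) (s : G) :
    dKer φ V U' s ≠ ⊤ ↔ Function.Surjective (psi φ V U' s) := by
  have hcard : Nat.card (V ⧸ U') = p := hU
  have hfin : Finite (V ⧸ U') := Nat.finite_of_card_ne_zero (by rw [hcard]; exact hp.ne_zero)
  constructor
  · intro hne
    have hidx : (dKer φ V U' s).index = p :=
      (dKer_eq_top_or_index_eq φ V U' hp hU s).resolve_left hne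
    have hrange : Nat.card (psi φ V U' s).range = p := by
      rw [← Subgroup.index_ker]; exact hidx
    have htop : (psi φ V U' s).range = ⊤ :=
      Subgroup.eq_top_of_card_eq _ (by rw [hrange, hcard])
    exact MonoidHom.range_eq_top.1 htop
  · intro hsurj htop
    have h1 : ∀ x : V ⧸ U', x = 1 := by
      intro x
      obtain ⟨d, rfl⟩ := hsurj x
      have : d ∈ dKer φ V U' s := by rw [htop]; trivial
      exact this
    have : Nat.card (V ⧸ U') = 1 := by
      have : Subsingleton (V ⧸ U') := ⟨fun a b => by rw [h1 a, h1 b]⟩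
      exact Nat.card_unique
    rw [hcard] at this
    exact hp.one_lt.ne' this

/-- For `[V : U'] = p` prime: `ker ψ_s ≠ ⊤ ↔ W_s ⊔ U' = ⊤` ("the place `[s]` does not split"). -/
theorem dKer_ne_top_iff_sup_eq_top {p : ℕ} (hp : p.Prime) (hU : U'.index = p) (s : G) :
    dKer φ V U' s ≠ ⊤ ↔ conjSub φ V s ⊔ U' = ⊤ :=
  (dKer_ne_top_iff_surjective φ V U' hp hU s).trans (psi_surjective_iff φ V U' s)

end GroupTheory

section Count

open Fermat.Agent.GC.Global

variable (L : IntermediateField ℚ Qb) [Normal ℚ L] (T : Finset Nat.Primes)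
  [Finite (L ≃ₐ[ℚ] L)] (V : Subgroup (L ≃ₐ[ℚ] L)) (U' : Subgroup V) [U'.Normal]
  [∀ q : Nat.Primes, Fintype (PlacesAbove L V q)]

open Classical in
/-- The exponent of `quotJ_layer` in `SplitCount` language. -/
theorem quotNonsplitCount_eq {p : ℕ} (hp : p.Prime) (hU : U'.index = p) :
    quotNonsplitCount L T V U' =
      ∑ q : T, (Finset.univ.filter fun c : DC (decHom ((q : Nat.Primes) : ℕ) L) V =>
        conjSub (decHom ((q : Nat.Primes) : ℕ) L) V (rep c) ⊔ U' = ⊤).card := by
  unfold quotNonsplitCount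
  refine Finset.sum_congr rfl fun q _ => ?_
  congr 1
  refine Finset.filter_congr fun c _ => ?_
  exact dKer_ne_top_iff_sup_eq_top (decHom ((q : Nat.Primes) : ℕ) L) V U' hp hU (rep c)

open Classical in
/-- Same, with `Set.ncard`. -/
theorem quotNonsplitCount_eq_ncard {p : ℕ} (hp : p.Prime) (hU : U'.index = p) :
    quotNonsplitCount L T V U' =
      ∑ q : T, {c : DC (decHom ((q : Nat.Primes) : ℕ) L) V |
        conjSub (decHom ((q : Nat.Primes) : ℕ) L) V (rep c) ⊔ U' = ⊤}.ncard := by
  rw [quotNonsplitCount_eq L T V U' hp hU]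
  refine Finset.sum_congr rfl fun q _ => ?_
  rw [Set.ncard_eq_toFinset_card']
  congr 1
  ext c
  simp

end Count

end Fermat.Agent.GC.Global.Mackey
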