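/-
GATE-C / C4 (GD), FINAL FORM for `p`-subgroup layers (helper97).

`LayerHypP p C` is `DevissageSub.LayerHyp p C` restricted to `p`-SUBGROUPS `V ≤ G`: for every
`p`-subgroup `V ≤ G` and every normal `U' ≤ V` of index `p`, the `V ⧸ U'`-module `C^{U'}` has
`H¹ = 0` and `H²` finite of order dividing `p`.  This is all the devissage induction uses, and for
`G = Gal(L/ℚ)`, `ζ_p ∈ L` it makes `ζ_p ∈ L^V` automatic, so that Kummer theory applies to every
layer `L^{U'} / L^V`.

All results are UNCONDITIONAL (`InfRes2` from helper1, `ResKer` from helper52):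
* `good_of_card_pow_P`, `good_of_isPGroup_P` : every `p`-subgroup `P ≤ G` is `Good`;
* `devissage_sub_P` : every `H ≤ G`: no `p`-torsion in `H¹(H, C)`, `|H²(H, C)(p)| ∣ p ^ v_p |H|`;
* `devissage_top_P` : the same for `G` itself;
* `LayerHyp.toP`, `layerHypP_of_layers` : how to produce `LayerHypP`.
-/
import Mathlib
import Fermat.Agent.GC.Global.DevissageFinal

set_option autoImplicit false

open CategoryTheory groupCohomology Rep
open Fermat.Agent.GC.Global.Devissage Fermat.Agent.GC.Global.DevissageSub
open Fermat.Agent.GC.Global.DevissageFinal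

universe u

namespace Fermat.Agent.GC.Global.DevissageP

variable {k G : Type u} [CommRing k] [Group G]

/-- The layer hypothesis for `p`-subgroups: for all `p`-subgroups `V ≤ G` and all normal `U' ≤ V`
of index `p`, the `V/U'`-module `C^{U'}` has `H¹ = 0` and `H²` finite of order dividing `p`. -/
def LayerHypP (p : ℕ) (C : Rep.{u} k G) : Prop :=
  ∀ (V : Subgroup G), IsPGroup p V → ∀ (U' : Subgroup V) [U'.Normal], U'.index = p →
    Limits.IsZero (groupCohomology ((res V.subtype C).quotientToInvariants U') 1) ∧
    Finite (groupCohomology ((res V.subtype C).quotientToInvariants U') 2) ∧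
    Nat.card (groupCohomology ((res V.subtype C).quotientToInvariants U') 2) ∣ p

theorem _root_.Fermat.Agent.GC.Global.DevissageSub.LayerHyp.toP {p : ℕ} {C : Rep.{u} k G}
    (hL : LayerHyp p C) : LayerHypP p C :=
  fun V _ U' _ h => hL V U' h

/-- `LayerHypP` from the two inequalities in cardinality form: Herbrand quotient `p`
(`|H²| = p · |H¹|`, both finite) and second inequality (`|H²| ∣ p`). -/
theorem layerHypP_of_layers {p : ℕ} (hp : p.Prime) {C : Rep.{u} k G}
    (h : ∀ (V : Subgroup G), IsPGroup p V → ∀ (U' : Subgroup V) [U'.Normal], U'.index = p →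
      Finite (groupCohomology ((res V.subtype C).quotientToInvariants U') 1) ∧
      Finite (groupCohomology ((res V.subtype C).quotientToInvariants U') 2) ∧
      Nat.card (groupCohomology ((res V.subtype C).quotientToInvariants U') 2) =
        p * Nat.card (groupCohomology ((res V.subtype C).quotientToInvariants U') 1) ∧
      Nat.card (groupCohomology ((res V.subtype C).quotientToInvariants U') 2) ∣ p) :
    LayerHypP p C := by
  intro V hV U' _ hidx
  obtain ⟨f1, f2, hq, hd⟩ := h V hV U' hidx
  refine ⟨?_, f2, hd⟩
  -- `p * |H¹| ∣ p` forces `|H¹| = 1`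
  have h1 : Nat.card (groupCohomology ((res V.subtype C).quotientToInvariants U') 1) = 1 := by
    rw [hq] at hd
    have hpos : 0 < Nat.card (groupCohomology ((res V.subtype C).quotientToInvariants U') 1) :=
      Nat.card_pos
    have := Nat.le_of_dvd hp.pos hd
    have hle : Nat.card (groupCohomology ((res V.subtype C).quotientToInvariants U') 1) ≤ 1 := by
      by_contra hgt
      have hgt' : 2 ≤ Nat.card
          (groupCohomology ((res V.subtype C).quotientToInvariants U') 1) := by omega
      have : p * 2 ≤ p * Nat.card
          (groupCohomology ((res V.subtype C).quotientToInvariants U') 1) :=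
        Nat.mul_le_mul_left p hgt'
      have hp0 := hp.pos
      omega
    omega
  have : Subsingleton (groupCohomology ((res V.subtype C).quotientToInvariants U') 1) :=
    (Nat.card_eq_one_iff_unique.mp h1).1
  exact ModuleCat.isZero_of_subsingleton _

theorem LayerHypP.good {p : ℕ} {C : Rep.{u} k G} (hL : LayerHypP p C) (V : Subgroup G)
    (hV : IsPGroup p V) (U' : Subgroup V) [U'.Normal] (h : U'.index = p) :
    Good ((res V.subtype C).quotientToInvariants U') := by
  obtain ⟨h1, h2, h3⟩ := hL V hV U' h
  refine ⟨h1, h2, ?_⟩
  have : Nat.card (V ⧸ U') = p := by rw [← h]; rfl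
  rwa [this]

/-- **Devissage, `p`-group case**, by induction on the exponent. -/
theorem good_of_card_pow_P (p : ℕ) [Fact p.Prime] (C : Rep.{u} k G) (hL : LayerHypP p C) :
    ∀ (n : ℕ) (P : Subgroup G), Nat.card P = p ^ n → Good (res P.subtype C) := by
  have hp : p.Prime := Fact.out
  intro n
  induction n with
  | zero =>
    intro P hP
    rw [pow_zero] at hP
    have hsub : Subsingleton P := (Nat.card_eq_one_iff_unique.mp hP).1
    exact good_of_subsingleton _
  | succ n ih =>
    intro P hP
    have : Finite P := Nat.finite_of_card_ne_zero (by rw [hP]; exact pow_ne_zero _ hp.ne_zero)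
    have hPp : IsPGroup p P := IsPGroup.of_card hP
    obtain ⟨U', hU'⟩ := Sylow.exists_subgroup_card_pow_prime (G := P) p (n := n)
      (by rw [hP]; exact pow_dvd_pow p (Nat.le_succ n))
    have hidx : U'.index = p := by
      have h1 := U'.card_mul_index
      rw [hU', hP, pow_succ] at h1
      exact Nat.eq_of_mul_eq_mul_left (pow_pos hp.pos n) h1
    have hminFac : (Nat.card P).minFac = p := by
      rw [hP, Nat.pow_minFac (Nat.succ_ne_zero n), hp.minFac_eq]
    have : U'.Normal := Subgroup.normal_of_index_eq_minFac_card (by rw [hidx, hminFac])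
    have hUcard : Nat.card (U'.map P.subtype) = p ^ n := by
      rw [← hU']
      exact (Nat.card_congr (U'.equivMapOfInjective P.subtype P.subtype_injective).toEquiv).symm
    exact good_of_normal infRes2 (res P.subtype C) U' (good_res_res C P U' (ih _ hUcard))
      (hL.good P hPp U' hidx)

/-- **Devissage, `p`-subgroups**: `H¹(P, C) = 0`, `H²(P, C)` finite of order dividing `|P|`. -/
theorem good_of_isPGroup_P (p : ℕ) [Fact p.Prime] [Finite G] (C : Rep.{u} k G)
    (hL : LayerHypP p C) (P : Subgroup G) (hP : IsPGroup p P) : Good (res P.subtype C) := by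
  obtain ⟨n, hn⟩ := IsPGroup.iff_card.mp hP
  exact good_of_card_pow_P p C hL n P hn

/-- **Devissage, all subgroups**: for every `H ≤ G`, `H¹(H, C)` has no `p`-torsion and the
`p`-primary part of `H²(H, C)` is finite of order dividing `p ^ v_p(|H|)`. -/
theorem devissage_sub_P (p : ℕ) [Fact p.Prime] [Finite G] (C : Rep.{u} k G)
    (hL : LayerHypP p C) (H : Subgroup G) :
    (∀ (x : groupCohomology (res H.subtype C) 1) (m : ℕ), p ^ m • x = 0 → x = 0) ∧
      Finite (primaryPart p (groupCohomology (res H.subtype C) 2)) ∧
      Nat.card (primaryPart p (groupCohomology (res H.subtype C) 2)) ∣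
        p ^ (Nat.card H).factorization p := by
  obtain ⟨P⟩ : Nonempty (Sylow p H) := inferInstance
  have hcard : Nat.card ((P : Subgroup H).map H.subtype) = p ^ (Nat.card H).factorization p := by
    rw [← P.card_eq_multiplicity]
    exact (Nat.card_congr
      ((P : Subgroup H).equivMapOfInjective H.subtype H.subtype_injective).toEquiv).symm
  obtain ⟨h1, hfin, hdvd⟩ := good_res_res C H (P : Subgroup H)
    (good_of_card_pow_P p C hL _ _ hcard)
  have hcardP : Nat.card (P : Subgroup H) = p ^ (Nat.card H).factorization p :=
    P.card_eq_multiplicity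
  refine ⟨fun x m hx => ?_, ?_⟩
  · exact Fermat.Agent.GC.Tate.eq_zero_of_pow_nsmul_eq_zero_of_isZero_sylow p P
      (res H.subtype C) 1 h1 x m hx
  · let r : primaryPart p (groupCohomology (res H.subtype C) 2) →+
        groupCohomology (res (P : Subgroup H).subtype (res H.subtype C)) 2 :=
      (rest (res H.subtype C) (P : Subgroup H) 2).hom.toAddMonoidHom.comp
        (primaryPart p (groupCohomology (res H.subtype C) 2)).subtype
    have hr : Function.Injective r := by
      rw [injective_iff_map_eq_zero]
      rintro ⟨x, m, hx⟩ hrx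
      exact Subtype.ext
        (eq_zero_of_rest_sylow_eq_zero resKer p P (res H.subtype C) 2 x m hx hrx)
    refine ⟨Finite.of_injective r hr, ?_⟩
    rw [← hcardP]
    exact (AddSubgroup.card_dvd_of_injective r hr).trans hdvd

/-- The same for `G` itself (no restriction functor in the statement). -/
theorem devissage_top_P (p : ℕ) [Fact p.Prime] [Finite G] (C : Rep.{u} k G)
    (hL : LayerHypP p C) :
    (∀ (x : groupCohomology C 1) (m : ℕ), p ^ m • x = 0 → x = 0) ∧
      Finite (primaryPart p (groupCohomology C 2)) ∧
      Nat.card (primaryPart p (groupCohomology C 2)) ∣ p ^ (Nat.card G).factorization p := by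
  classical
  obtain ⟨P⟩ : Nonempty (Sylow p G) := inferInstance
  obtain ⟨h1, hfin, hdvd⟩ := good_of_isPGroup_P p C hL (P : Subgroup G) P.isPGroup'
  refine ⟨fun x m hx => ?_, ?_⟩
  · exact Fermat.Agent.GC.Tate.eq_zero_of_pow_nsmul_eq_zero_of_isZero_sylow p P C 1 h1 x m hx
  · let r : primaryPart p (groupCohomology C 2) →+
        groupCohomology (res (P : Subgroup G).subtype C) 2 :=
      (rest C (P : Subgroup G) 2).hom.toAddMonoidHom.comp
        (primaryPart p (groupCohomology C 2)).subtype
    have hr : Function.Injective r := by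
      rw [injective_iff_map_eq_zero]
      rintro ⟨x, m, hx⟩ hrx
      exact Subtype.ext (eq_zero_of_rest_sylow_eq_zero resKer p P C 2 x m hx hrx)
    refine ⟨Finite.of_injective r hr, ?_⟩
    rw [← P.card_eq_multiplicity]
    exact (AddSubgroup.card_dvd_of_injective r hr).trans hdvd

/-- Inflation `H²(V/U', C^{U'}) → H²(V, C)` is injective for every normal `U'` of a `p`-subgroup
`V` (any index) — consequence of `H¹(U', C) = 0`.  (Used by helper55's (CL) layers.) -/
theorem infl_injective_P (p : ℕ) [Fact p.Prime] [Finite G] (C : Rep.{u} k G)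
    (hL : LayerHypP p C) (V : Subgroup G) (hV : IsPGroup p V) (U' : Subgroup V) [U'.Normal] :
    Function.Injective (infl (res V.subtype C) U' 2) := by
  have hU : IsPGroup p (U'.map V.subtype) := by
    have : IsPGroup p U' := hV.to_subgroup U'
    exact this.map _
  have hgood := good_res_res C V U' (good_of_isPGroup_P p C hL _ hU)
  exact (infRes2 (res V.subtype C) U' hgood.1).1

end Fermat.Agent.GC.Global.DevissageP
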