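/-
GATE-C / C4 (CL-GOODQ), helper97.

`LayerHypP p C` passes to ALL quotient layers: for a `p`-subgroup `V ≤ G` and a normal `U' ≤ V` of
ANY index, the `V ⧸ U'`-module `C^{U'}` is `Good` (`H¹ = 0`, `H²` finite of order dividing
`[V : U']`).  For `V ⧸ U'` cyclic this gives the norm index bound
`[C^V : N_{V/U'} C^{U'}] ∣ [V : U']` in the coset-sum language of helper55's `WRec/RelNorm.lean`.
-/
import Mathlib
import Fermat.Agent.GC.Global.DevissageP
import Fermat.Agent.GC.Local.GalPair
import Fermat.Agent.GC.Tate.CyclicCard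
import Fermat.Agent.GC.Global.WRec.RelNorm

set_option autoImplicit false

open CategoryTheory groupCohomology Rep
open Fermat.Agent.GC.Global.Devissage Fermat.Agent.GC.Global.DevissageSub
open Fermat.Agent.GC.Global.DevissageFinal Fermat.Agent.GC.Global.DevissageP
open Fermat.Agent.GC.Local.GalPair

universe u

namespace Fermat.Agent.GC.Global.GoodQuot

variable {k : Type u} [CommRing k]

section Transport

variable {Γ : Type u} [Group Γ] (A : Rep.{u} k Γ) (U : Subgroup Γ) [U.Normal]

/-- `N ⧸ (U ⊓ N) ≃* N·U/U`, for `U ≤ N`: the image of `N` in `Γ ⧸ U`. -/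
noncomputable def subQuotEquiv (N : Subgroup Γ) :
    (N ⧸ U.subgroupOf N) ≃* (N.map (QuotientGroup.mk' U)) :=
  MulEquiv.ofBijective
    (QuotientGroup.lift (U.subgroupOf N) ((QuotientGroup.mk' U).subgroupMap N) (by
      intro x hx
      rw [Subgroup.mem_subgroupOf] at hx
      apply Subtype.ext
      simpa using hx))
    ⟨by
      rw [injective_iff_map_eq_one]
      intro x
      induction x using QuotientGroup.induction_on with
      | H x =>
        intro hx
        have h1 : ((QuotientGroup.mk' U).subgroupMap N x : Γ ⧸ U) = 1 := by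
          have := congrArg Subtype.val hx
          simpa using this
        rw [QuotientGroup.eq_one_iff, Subgroup.mem_subgroupOf]
        simpa using h1,
    by
      intro y
      obtain ⟨x, rfl⟩ := (QuotientGroup.mk' U).subgroupMap_surjective N y
      exact ⟨QuotientGroup.mk x, rfl⟩⟩

@[simp] theorem subQuotEquiv_mk (N : Subgroup Γ) (x : N) :
    ((subQuotEquiv U N (QuotientGroup.mk x) : N.map (QuotientGroup.mk' U)) : Γ ⧸ U)
      = QuotientGroup.mk (x : Γ) := rfl

/-- (T1) For `U ≤ N ≤ Γ`: the pair `(N ⧸ U, (Res_N A)^U)` is the restriction of `(Γ ⧸ U, A^U)` to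
the image of `N`. -/
noncomputable def pairIsoSub (N : Subgroup Γ) (hUN : U ≤ N) :
    PairIso ((Rep.res N.subtype A).quotientToInvariants (U.subgroupOf N))
      (Rep.res (N.map (QuotientGroup.mk' U)).subtype (A.quotientToInvariants U)) where
  e := subQuotEquiv U N
  e' := LinearEquiv.ofEq
    (Representation.invariants ((Rep.res N.subtype A).ρ.comp (U.subgroupOf N).subtype) :
      Submodule k A.V)
    (Representation.invariants (A.ρ.comp U.subtype)) (by
      ext v
      constructor
      · intro hv u
        exact hv ⟨⟨u.1, hUN u.2⟩, Subgroup.mem_subgroupOf.mpr u.2⟩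
      · intro hv x
        exact hv ⟨x.1.1, Subgroup.mem_subgroupOf.mp x.2⟩)
  comm := by
    intro g
    induction g using QuotientGroup.induction_on with
    | H g =>
      ext x
      rfl

/-- (T2) For normal `U ≤ N` in `Γ`: `((Γ ⧸ U) ⧸ (N ⧸ U), (A^U)^{N/U}) ≅ (Γ ⧸ N, A^N)`. -/
noncomputable def pairIsoQuot (N : Subgroup Γ) [N.Normal] (hUN : U ≤ N) :
    PairIso ((A.quotientToInvariants U).quotientToInvariants (N.map (QuotientGroup.mk' U)))
      (A.quotientToInvariants N) where
  e := QuotientGroup.quotientQuotientEquivQuotient U N hUN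
  e' :=
    { toFun := fun v => ⟨v.1.1, fun n => by
        have := v.2 ⟨QuotientGroup.mk' U n.1, ⟨n.1, n.2, rfl⟩⟩
        exact congrArg Subtype.val this⟩
      map_add' := fun _ _ => rfl
      map_smul' := fun _ _ => rfl
      invFun := fun w => ⟨⟨w.1, fun u => w.2 ⟨u.1, hUN u.2⟩⟩, by
        rintro ⟨_, ⟨n, hn, rfl⟩⟩
        apply Subtype.ext
        exact w.2 ⟨n, hn⟩⟩
      left_inv := fun _ => rfl
      right_inv := fun _ => rfl }
  comm := by
    intro g
    induction g using QuotientGroup.induction_on with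
    | H g =>
      induction g using QuotientGroup.induction_on with
      | H g =>
        ext x
        rfl

end Transport

section Hom

variable {G : Type u} [Group G] (C : Rep.{u} k G)

/-- (T3) Restriction along an injective homomorphism is restriction to its range. -/
noncomputable def pairIsoRange {Γ : Type u} [Group Γ] (f : Γ →* G) (hf : Function.Injective f) :
    PairIso (Rep.res f C) (Rep.res f.range.subtype C) where
  e := MonoidHom.ofInjective hf
  e' := LinearEquiv.refl k C.V
  comm := fun _ => rfl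

variable {C}

/-- The layer hypothesis in homomorphism form. -/
theorem good_layer_hom {p : ℕ} (hL : LayerHypP p C) {Γ : Type u} [Group Γ] (f : Γ →* G)
    (hf : Function.Injective f) (hΓ : IsPGroup p Γ) (N : Subgroup Γ) [N.Normal]
    (hN : N.index = p) : Good ((Rep.res f C).quotientToInvariants N) := by
  let φ := pairIsoRange C f hf
  have := φ.normal_map N
  refine Good.of_mulEquiv (φ.quot N).e (φ.quot N).e' (φ.quot N).comm
    (hL.good f.range (hΓ.of_equiv (MonoidHom.ofInjective hf)) (N.map φ.e.toMonoidHom) ?_)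
  rw [← hN]
  exact Subgroup.index_map_equiv N φ.e

/-- **Quotient layers of any index are good**, homomorphism form, by induction on the exponent
of the index. -/
theorem good_quot_hom (p : ℕ) [Fact p.Prime] (hL : LayerHypP p C) :
    ∀ (n : ℕ) {Γ : Type u} [Group Γ] (f : Γ →* G), Function.Injective f → IsPGroup p Γ →
      ∀ (U : Subgroup Γ) [U.Normal], Nat.card (Γ ⧸ U) = p ^ n →
        Good ((Rep.res f C).quotientToInvariants U) := by
  have hp : p.Prime := Fact.out
  intro n
  induction n with
  | zero =>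
    intro Γ _ f _ _ U _ hU
    rw [pow_zero] at hU
    have hsub : Subsingleton (Γ ⧸ U) := (Nat.card_eq_one_iff_unique.mp hU).1
    exact good_of_subsingleton _
  | succ n ih =>
    intro Γ _ f hf hΓ U _ hU
    have hfin : Finite (Γ ⧸ U) :=
      Nat.finite_of_card_ne_zero (by rw [hU]; exact pow_ne_zero _ hp.ne_zero)
    obtain ⟨Nb, hNb⟩ := Sylow.exists_subgroup_card_pow_prime (G := Γ ⧸ U) p (n := n)
      (by rw [hU]; exact pow_dvd_pow p (Nat.le_succ n))
    have hidxb : Nb.index = p := by
      have h1 := Nb.card_mul_index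
      rw [hNb, hU, pow_succ] at h1
      exact Nat.eq_of_mul_eq_mul_left (pow_pos hp.pos n) h1
    have hminFac : (Nat.card (Γ ⧸ U)).minFac = p := by
      rw [hU, Nat.pow_minFac (Nat.succ_ne_zero n), hp.minFac_eq]
    have hNbn : Nb.Normal := Subgroup.normal_of_index_eq_minFac_card (by rw [hidxb, hminFac])
    -- the preimage `N` of `Nb` in `Γ`
    obtain ⟨N, hNn, hUN, hidx⟩ : ∃ N : Subgroup Γ, N.Normal ∧ U ≤ N ∧ N.index = p := by
      refine ⟨Nb.comap (QuotientGroup.mk' U), hNbn.comap _, ?_, ?_⟩
      · intro x hx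
        rw [Subgroup.mem_comap]
        have : (QuotientGroup.mk' U) x = 1 := (QuotientGroup.eq_one_iff x).mpr hx
        rw [this]
        exact Nb.one_mem
      · rw [Subgroup.index_comap_of_surjective Nb (QuotientGroup.mk'_surjective U)]
        exact hidxb
    have hcard : Nat.card (N ⧸ U.subgroupOf N) = p ^ n := by
      have h1 : U.relIndex N * N.index = U.index := Subgroup.relIndex_mul_index hUN
      have h2 : U.index = p ^ (n + 1) := by rw [← hU]; rfl
      rw [hidx, h2, pow_succ] at h1
      have h3 : U.relIndex N = p ^ n := Nat.eq_of_mul_eq_mul_right hp.pos h1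
      rw [← h3]
      rfl
    -- the two layers
    have hsub : Good (Rep.res (N.map (QuotientGroup.mk' U)).subtype
        ((Rep.res f C).quotientToInvariants U)) := by
      have φ := (pairIsoSub (Rep.res f C) U N hUN).symm
      exact Good.of_mulEquiv φ.e φ.e' φ.comm
        (ih (f.comp N.subtype) (hf.comp N.subtype_injective) (hΓ.to_subgroup N)
          (U.subgroupOf N) hcard)
    have hquot : Good (((Rep.res f C).quotientToInvariants U).quotientToInvariants
        (N.map (QuotientGroup.mk' U))) := by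
      have φ := pairIsoQuot (Rep.res f C) U N hUN
      exact Good.of_mulEquiv φ.e φ.e' φ.comm (good_layer_hom hL f hf hΓ N hidx)
    exact good_of_normal infRes2 _ (N.map (QuotientGroup.mk' U)) hsub hquot

/-- **(CL-GOODQ), part 1.** `LayerHypP p C`, `V ≤ G` a `p`-subgroup, `U' ◁ V` of ANY index:
the `V ⧸ U'`-module `C^{U'}` has `H¹ = 0` and `H²` finite of order dividing `[V : U']`. -/
theorem good_quotient_layer (p : ℕ) [Fact p.Prime] [Finite G] (hL : LayerHypP p C)
    (V : Subgroup G) (hV : IsPGroup p V) (U' : Subgroup V) [U'.Normal] :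
    Good ((Rep.res V.subtype C).quotientToInvariants U') := by
  have hQ : IsPGroup p (V ⧸ U') := hV.to_quotient U'
  obtain ⟨n, hn⟩ := IsPGroup.iff_card.mp hQ
  exact good_quot_hom p hL n V.subtype V.subtype_injective hV U' hn

end Hom

/-! ### Cyclic quotient layers: the norm index in `RelNorm` language -/

section Cyclic

open Fermat.Agent.GC.Global.WRec

variable {G : Type u} [Group G]

/-- The `H`-invariants of a representation as a submodule, in helper55's `IsInv` language. -/
def invSubmodule {M : Type*} [AddCommGroup M] [Module k M] (ρ : Representation k G M)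
    (H : Subgroup G) : Submodule k M where
  carrier := {y | IsInv ρ H y}
  zero_mem' := fun _ _ => map_zero _
  add_mem' := fun hy hz => hy.add hz
  smul_mem' := fun c y hy g hg => by
    change ρ g (c • y) = c • y
    rw [map_smul, hy g hg]

@[simp] theorem mem_invSubmodule {M : Type*} [AddCommGroup M] [Module k M]
    {ρ : Representation k G M} {H : Subgroup G} {y : M} :
    y ∈ invSubmodule ρ H ↔ IsInv ρ H y := Iff.rfl

/-- The submodule `N_{V/U'} (M^{U'})` of relative norms. -/
noncomputable def normSubmodule {M : Type*} [AddCommGroup M] [Module k M]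
    (ρ : Representation k G M) (V U' : Subgroup G) [Finite (V ⧸ U'.subgroupOf V)] :
    Submodule k M :=
  (invSubmodule ρ U').map (relNormSub ρ V U')

theorem mem_normSubmodule {M : Type*} [AddCommGroup M] [Module k M]
    {ρ : Representation k G M} {V U' : Subgroup G} [Finite (V ⧸ U'.subgroupOf V)] {y : M} :
    y ∈ normSubmodule ρ V U' ↔ ∃ z, IsInv ρ U' z ∧ relNormSub ρ V U' z = y := Iff.rfl

theorem normSubmodule_le {M : Type*} [AddCommGroup M] [Module k M]
    {ρ : Representation k G M} {V U' : Subgroup G} [Finite (V ⧸ U'.subgroupOf V)] :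
    normSubmodule ρ V U' ≤ invSubmodule ρ V := by
  rintro _ ⟨z, hz, rfl⟩
  let _ := Fintype.ofFinite (V ⧸ U'.subgroupOf V)
  exact isInv_relNormSub hz

variable (C : Rep.{u} k G) (V U' : Subgroup G) [(U'.subgroupOf V).Normal]

/-- The layer module `C^{U'}` as a `V ⧸ U'`-representation. -/
noncomputable abbrev layerQ : Rep.{u} k (V ⧸ U'.subgroupOf V) :=
  (Rep.res V.subtype C).quotientToInvariants (U'.subgroupOf V)

/-- The inclusion `C^{U'} → C`. -/
noncomputable def layerIncl : (layerQ C V U').V →ₗ[k] C.V :=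
  Submodule.subtype _

theorem layerIncl_injective : Function.Injective (layerIncl C V U') :=
  Subtype.val_injective

variable {C V U'}

theorem isInv_layerIncl (hle : U' ≤ V) (v : (layerQ C V U').V) :
    IsInv C.ρ U' (layerIncl C V U' v) := fun u hu =>
  v.2 ⟨⟨u, hle hu⟩, Subgroup.mem_subgroupOf.mpr hu⟩

theorem exists_layerIncl_eq {y : C.V} (hy : IsInv C.ρ U' y) :
    ∃ v : (layerQ C V U').V, layerIncl C V U' v = y :=
  ⟨⟨y, fun x => hy x.1.1 (Subgroup.mem_subgroupOf.mp x.2)⟩, rfl⟩

theorem layerIncl_rho (x : V) (v : (layerQ C V U').V) :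
    layerIncl C V U' ((layerQ C V U').ρ (QuotientGroup.mk x) v) = C.ρ x (layerIncl C V U' v) :=
  rfl

theorem layerIncl_rho_out (d : V ⧸ U'.subgroupOf V) (v : (layerQ C V U').V) :
    layerIncl C V U' ((layerQ C V U').ρ d v) = C.ρ ((d.out : V) : G) (layerIncl C V U' v) := by
  conv_lhs => rw [← QuotientGroup.out_eq' d]
  rfl

theorem layerIncl_norm [Fintype (V ⧸ U'.subgroupOf V)] (v : (layerQ C V U').V) :
    layerIncl C V U' ((layerQ C V U').ρ.norm v) = relNormSub C.ρ V U' (layerIncl C V U' v) := by
  rw [relNormSub_apply, Representation.norm, LinearMap.sum_apply, map_sum]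
  exact Finset.sum_congr rfl fun d _ => layerIncl_rho_out d v

theorem rho_sub_one_eq_zero_iff {g : V ⧸ U'.subgroupOf V}
    (hg : ∀ x, x ∈ Subgroup.zpowers g) (v : (layerQ C V U').V) :
    ((layerQ C V U').ρ g - 1) v = 0 ↔ IsInv C.ρ V (layerIncl C V U' v) := by
  rw [LinearMap.sub_apply, Module.End.one_apply, sub_eq_zero]
  constructor
  · intro h x hx
    have hall : ∀ q : V ⧸ U'.subgroupOf V, (layerQ C V U').ρ q v = v := by
      intro q
      let S : Subgroup (V ⧸ U'.subgroupOf V) :=
        { carrier := {q | (layerQ C V U').ρ q v = v}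
          one_mem' := by simp
          mul_mem' := fun {a b} ha hb => by
            change (layerQ C V U').ρ (a * b) v = v
            rw [map_mul, Module.End.mul_apply]
            rw [show (layerQ C V U').ρ b v = v from hb]
            exact ha
          inv_mem' := fun {a} ha => by
            change (layerQ C V U').ρ a⁻¹ v = v
            have ha' : (layerQ C V U').ρ a v = v := ha
            conv_lhs => rw [← ha']
            rw [← Module.End.mul_apply, ← map_mul, inv_mul_cancel, map_one, Module.End.one_apply] }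
      have hgS : g ∈ S := h
      exact (Subgroup.zpowers_le.mpr hgS) (hg q)
    have := congrArg (layerIncl C V U') (hall (QuotientGroup.mk ⟨x, hx⟩))
    rwa [layerIncl_rho] at this
  · intro h
    obtain ⟨x, rfl⟩ := QuotientGroup.mk_surjective g
    apply layerIncl_injective
    rw [layerIncl_rho]
    exact h x.1 x.2

variable (C V U')

theorem map_ker_eq_invSubmodule (hle : U' ≤ V) {g : V ⧸ U'.subgroupOf V}
    (hg : ∀ x, x ∈ Subgroup.zpowers g) :
    (LinearMap.ker ((layerQ C V U').ρ g - 1)).map (layerIncl C V U') = invSubmodule C.ρ V := by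
  ext y
  constructor
  · rintro ⟨v, hv, rfl⟩
    exact (rho_sub_one_eq_zero_iff hg v).mp hv
  · intro hy
    obtain ⟨v, rfl⟩ := exists_layerIncl_eq (V := V) (IsInv.mono hle hy)
    exact ⟨v, (rho_sub_one_eq_zero_iff hg v).mpr hy, rfl⟩

theorem map_range_norm_eq_normSubmodule (hle : U' ≤ V) [Fintype (V ⧸ U'.subgroupOf V)] :
    (LinearMap.range (layerQ C V U').ρ.norm).map (layerIncl C V U') = normSubmodule C.ρ V U' := by
  ext y
  constructor
  · rintro ⟨_, ⟨v, rfl⟩, rfl⟩
    exact ⟨layerIncl C V U' v, isInv_layerIncl hle v, (layerIncl_norm v).symm⟩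
  · rintro ⟨z, hz, rfl⟩
    obtain ⟨v, rfl⟩ := exists_layerIncl_eq (V := V) hz
    exact ⟨_, ⟨v, rfl⟩, layerIncl_norm v⟩

/-- For a cyclic quotient `V ⧸ U'` the norm index `[C^V : N_{V/U'} C^{U'}]` is the order of
`H²(V ⧸ U', C^{U'})`. -/
theorem relIndex_norm_eq_card_H2 (hle : U' ≤ V) [Fintype (V ⧸ U'.subgroupOf V)]
    {g : V ⧸ U'.subgroupOf V} (hg : ∀ x, x ∈ Subgroup.zpowers g) :
    (normSubmodule C.ρ V U').toAddSubgroup.relIndex (invSubmodule C.ρ V).toAddSubgroup =
      Nat.card (groupCohomology (layerQ C V U') 2) := by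
  rw [Fermat.Agent.GC.CycBridge.card_groupCohomology_even_of_group (layerQ C V U') g hg 2
    even_two, ← map_ker_eq_invSubmodule C V U' hle hg,
    ← map_range_norm_eq_normSubmodule C V U' hle, Submodule.map_toAddSubgroup,
    Submodule.map_toAddSubgroup]
  exact AddSubgroup.relIndex_map_map_of_injective _ _ (layerIncl_injective C V U')

variable {C V U'}

/-- **(CL-GOODQ), part 2.** For `V` a `p`-subgroup and `V ⧸ U'` cyclic, the norm index
`[C^V : N_{V/U'} C^{U'}]` divides `[V : U']`. -/
theorem norm_relIndex_dvd (p : ℕ) [Fact p.Prime] [Finite G] (hL : LayerHypP p C)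
    (hV : IsPGroup p V) (hle : U' ≤ V) [hcyc : IsCyclic (V ⧸ U'.subgroupOf V)] :
    (normSubmodule C.ρ V U').toAddSubgroup.relIndex (invSubmodule C.ρ V).toAddSubgroup ∣
      U'.relIndex V := by
  let _ := Fintype.ofFinite (V ⧸ U'.subgroupOf V)
  obtain ⟨g, hg⟩ := hcyc.exists_generator
  rw [relIndex_norm_eq_card_H2 C V U' hle hg]
  exact (good_quotient_layer p hL V hV (U'.subgroupOf V)).2.2

/-- The same in `Nat.card` of the quotient module `C^V ⧸ N_{V/U'} C^{U'}`. -/
theorem card_quotient_norm_dvd (p : ℕ) [Fact p.Prime] [Finite G] (hL : LayerHypP p C)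
    (hV : IsPGroup p V) (hle : U' ≤ V) [IsCyclic (V ⧸ U'.subgroupOf V)] :
    Nat.card (↥(invSubmodule C.ρ V) ⧸
        (normSubmodule C.ρ V U').submoduleOf (invSubmodule C.ρ V)) ∣ U'.relIndex V := by
  rw [Fermat.Agent.GC.CycBridge.card_quotient_eq_relIndex, Submodule.submoduleOf,
    Submodule.map_comap_subtype, inf_eq_right.mpr normSubmodule_le]
  exact norm_relIndex_dvd p hL hV hle

/-- **Counting form for (CL3)/(CL4).**  If `θ : C^V → X` is a surjective homomorphism onto a finite
group with at least `[V : U']` elements which kills the norms `N_{V/U'} C^{U'}`, then the kernel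
of `θ` is exactly the group of norms. -/
theorem exists_relNormSub_eq_of_surjective (p : ℕ) [Fact p.Prime] [Finite G] (hL : LayerHypP p C)
    (hV : IsPGroup p V) (hle : U' ≤ V) [IsCyclic (V ⧸ U'.subgroupOf V)]
    {X : Type*} [AddCommGroup X] [Finite X] (θ : ↥(invSubmodule C.ρ V) →+ X)
    (hθ : Function.Surjective θ) (hX : U'.relIndex V ≤ Nat.card X)
    (hkill : ∀ (y : ↥(invSubmodule C.ρ V)) (z : C.V), IsInv C.ρ U' z →
      relNormSub C.ρ V U' z = (y : C.V) → θ y = 0)
    (y : ↥(invSubmodule C.ρ V)) (hy : θ y = 0) :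
    ∃ z, IsInv C.ρ U' z ∧ relNormSub C.ρ V U' z = (y : C.V) := by
  set P : Submodule k ↥(invSubmodule C.ρ V) :=
    (normSubmodule C.ρ V U').submoduleOf (invSubmodule C.ρ V) with hP
  have hdvd : Nat.card (↥(invSubmodule C.ρ V) ⧸ P) ∣ U'.relIndex V :=
    card_quotient_norm_dvd p hL hV hle
  have hrel : U'.relIndex V ≠ 0 := by
    have : Finite (V ⧸ U'.subgroupOf V) := inferInstance
    exact Subgroup.index_ne_zero_of_finite
  have hcard0 : Nat.card (↥(invSubmodule C.ρ V) ⧸ P) ≠ 0 := fun h0 => by
    rw [h0] at hdvd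
    exact hrel (Nat.eq_zero_of_zero_dvd hdvd)
  have hfin : Finite (↥(invSubmodule C.ρ V) ⧸ P) := Nat.finite_of_card_ne_zero hcard0
  have hle' : Nat.card (↥(invSubmodule C.ρ V) ⧸ P) ≤ Nat.card X :=
    (Nat.le_of_dvd (Nat.pos_of_ne_zero hrel) hdvd).trans hX
  have hPker : P.toAddSubgroup ≤ θ.ker := by
    intro w hw
    obtain ⟨z, hz, hzw⟩ := hw
    exact hkill w z hz hzw
  let θb : (↥(invSubmodule C.ρ V) ⧸ P.toAddSubgroup) →+ X :=
    QuotientAddGroup.lift P.toAddSubgroup θ hPker
  have hsurj : Function.Surjective θb := fun x => by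
    obtain ⟨w, rfl⟩ := hθ x
    exact ⟨QuotientAddGroup.mk w, rfl⟩
  have hfin' : Finite (↥(invSubmodule C.ρ V) ⧸ P.toAddSubgroup) := hfin
  have hbij : Function.Bijective θb := hsurj.bijective_of_nat_card_le hle'
  have h0 : (QuotientAddGroup.mk y : ↥(invSubmodule C.ρ V) ⧸ P.toAddSubgroup) = 0 := by
    apply hbij.1
    rw [map_zero]
    exact hy
  have hyP : y ∈ P.toAddSubgroup := (QuotientAddGroup.eq_zero_iff y).mp h0
  exact hyP

end Cyclic

end Fermat.Agent.GC.Global.GoodQuot
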