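/-
GATE-C / C4 (CL-GOODQ), second form (helper97), after helper14's RULING 5.

The layer hypothesis on a DOWNWARD-CLOSED family `Φ` of subgroups of `G` (e.g. `Φ V := V` fixes
`ζ_p`; or `Φ V := V` is a `p`-group) passes to all quotient layers of `p`-power index:
`Φ V`, `U' ◁ V`, `[V : U'] = p ^ n` ⟹ the `V ⧸ U'`-module `C^{U'}` is `Good`
(`H¹ = 0`, `H²` finite of order dividing `[V : U']`).  `V` need NOT be a `p`-group.

For `V ⧸ U'` cyclic, `Good` gives the norm index bound `[C^V : N_{V/U'} C^{U'}] ∣ [V : U']` in the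
coset-sum language of helper55's `WRec/RelNorm.lean` (`*_of_good` forms, no layer hypothesis).
-/
import Mathlib
import Fermat.Agent.GC.Global.GoodQuot

set_option autoImplicit false

open CategoryTheory groupCohomology Rep
open Fermat.Agent.GC.Global.Devissage Fermat.Agent.GC.Global.DevissageSub
open Fermat.Agent.GC.Global.DevissageFinal Fermat.Agent.GC.Global.DevissageP
open Fermat.Agent.GC.Local.GalPair Fermat.Agent.GC.Global.GoodQuot

universe u

namespace Fermat.Agent.GC.Global.GoodQuotOn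

variable {k : Type u} [CommRing k] {G : Type u} [Group G]

/-- The layer hypothesis on a family `Φ` of subgroups: for all `V` in `Φ` and all normal
`U' ≤ V` of index `p`, the `V/U'`-module `C^{U'}` has `H¹ = 0` and `H²` finite of order
dividing `p`. -/
def LayerHypOn (Φ : Subgroup G → Prop) (p : ℕ) (C : Rep.{u} k G) : Prop :=
  ∀ (V : Subgroup G), Φ V → ∀ (U' : Subgroup V) [U'.Normal], U'.index = p →
    Limits.IsZero (groupCohomology ((res V.subtype C).quotientToInvariants U') 1) ∧
    Finite (groupCohomology ((res V.subtype C).quotientToInvariants U') 2) ∧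
    Nat.card (groupCohomology ((res V.subtype C).quotientToInvariants U') 2) ∣ p

theorem layerHypOn_of_layerHypP {p : ℕ} {C : Rep.{u} k G} (hL : LayerHypP p C) :
    LayerHypOn (fun V => IsPGroup p V) p C := fun V hV U' _ h => hL V hV U' h

variable {Φ : Subgroup G → Prop} {p : ℕ} {C : Rep.{u} k G}

theorem LayerHypOn.good (hL : LayerHypOn Φ p C) (V : Subgroup G) (hV : Φ V)
    (U' : Subgroup V) [U'.Normal] (h : U'.index = p) :
    Good ((res V.subtype C).quotientToInvariants U') := by
  obtain ⟨h1, h2, h3⟩ := hL V hV U' h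
  refine ⟨h1, h2, ?_⟩
  have : Nat.card (V ⧸ U') = p := by rw [← h]; rfl
  rwa [this]

/-- The layer hypothesis in homomorphism form. -/
theorem good_layer_hom_on (hL : LayerHypOn Φ p C) {Γ : Type u} [Group Γ] (f : Γ →* G)
    (hf : Function.Injective f) (hΓ : Φ f.range) (N : Subgroup Γ) [N.Normal]
    (hN : N.index = p) : Good ((Rep.res f C).quotientToInvariants N) := by
  let φ := pairIsoRange C f hf
  have := φ.normal_map N
  refine Good.of_mulEquiv (φ.quot N).e (φ.quot N).e' (φ.quot N).comm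
    (hL.good f.range hΓ (N.map φ.e.toMonoidHom) ?_)
  rw [← hN]
  exact Subgroup.index_map_equiv N φ.e

/-- **Quotient layers of `p`-power index are good**, homomorphism form, for a downward-closed
family `Φ`. -/
theorem good_quot_hom_on [Fact p.Prime] (hΦ : ∀ {V W : Subgroup G}, W ≤ V → Φ V → Φ W)
    (hL : LayerHypOn Φ p C) :
    ∀ (n : ℕ) {Γ : Type u} [Group Γ] (f : Γ →* G), Function.Injective f → Φ f.range →
      ∀ (U : Subgroup Γ) [U.Normal], Nat.card (Γ ⧸ U) = p ^ n →
        Good ((Rep.res f C).quotientToInvariants U) := by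
  have hp : p.Prime := Fact.out
  intro n
  induction n with
  | zero =>
    intro Γ _ f _ _ U _ hU
    rw [pow_zero] at hU
    have hsub : Subsingleton (Γ ⧸ U) := (Nat.card_eq_one_iff_unique.mp hU).1
    exact good_of_subsingleton _
  | succ n ih =>
    intro Γ _ f hf hΓ U _ hU
    have hfin : Finite (Γ ⧸ U) :=
      Nat.finite_of_card_ne_zero (by rw [hU]; exact pow_ne_zero _ hp.ne_zero)
    obtain ⟨Nb, hNb⟩ := Sylow.exists_subgroup_card_pow_prime (G := Γ ⧸ U) p (n := n)
      (by rw [hU]; exact pow_dvd_pow p (Nat.le_succ n))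
    have hidxb : Nb.index = p := by
      have h1 := Nb.card_mul_index
      rw [hNb, hU, pow_succ] at h1
      exact Nat.eq_of_mul_eq_mul_left (pow_pos hp.pos n) h1
    have hminFac : (Nat.card (Γ ⧸ U)).minFac = p := by
      rw [hU, Nat.pow_minFac (Nat.succ_ne_zero n), hp.minFac_eq]
    have hNbn : Nb.Normal := Subgroup.normal_of_index_eq_minFac_card (by rw [hidxb, hminFac])
    -- the preimage `N` of `Nb` in `Γ`
    obtain ⟨N, hNn, hUN, hidx⟩ : ∃ N : Subgroup Γ, N.Normal ∧ U ≤ N ∧ N.index = p := by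
      refine ⟨Nb.comap (QuotientGroup.mk' U), hNbn.comap _, ?_, ?_⟩
      · intro x hx
        rw [Subgroup.mem_comap]
        have : (QuotientGroup.mk' U) x = 1 := (QuotientGroup.eq_one_iff x).mpr hx
        rw [this]
        exact Nb.one_mem
      · rw [Subgroup.index_comap_of_surjective Nb (QuotientGroup.mk'_surjective U)]
        exact hidxb
    have hcard : Nat.card (N ⧸ U.subgroupOf N) = p ^ n := by
      have h1 : U.relIndex N * N.index = U.index := Subgroup.relIndex_mul_index hUN
      have h2 : U.index = p ^ (n + 1) := by rw [← hU]; rfl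
      rw [hidx, h2, pow_succ] at h1
      have h3 : U.relIndex N = p ^ n := Nat.eq_of_mul_eq_mul_right hp.pos h1
      rw [← h3]
      rfl
    have hrange : (f.comp N.subtype).range ≤ f.range := by
      rintro _ ⟨x, rfl⟩
      exact ⟨x.1, rfl⟩
    -- the two layers
    have hsub : Good (Rep.res (N.map (QuotientGroup.mk' U)).subtype
        ((Rep.res f C).quotientToInvariants U)) := by
      have φ := (pairIsoSub (Rep.res f C) U N hUN).symm
      exact Good.of_mulEquiv φ.e φ.e' φ.comm
        (ih (f.comp N.subtype) (hf.comp N.subtype_injective) (hΦ hrange hΓ)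
          (U.subgroupOf N) hcard)
    have hquot : Good (((Rep.res f C).quotientToInvariants U).quotientToInvariants
        (N.map (QuotientGroup.mk' U))) := by
      have φ := pairIsoQuot (Rep.res f C) U N hUN
      exact Good.of_mulEquiv φ.e φ.e' φ.comm (good_layer_hom_on hL f hf hΓ N hidx)
    exact good_of_normal infRes2 _ (N.map (QuotientGroup.mk' U)) hsub hquot

/-- **(CL-GOODQ), general form.** `Φ` downward closed, layer hypothesis on `Φ`, `Φ V`, `U' ◁ V`
with `[V : U'] = p ^ n`: the `V ⧸ U'`-module `C^{U'}` has `H¹ = 0` and `H²` finite of order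
dividing `[V : U']`. -/
theorem good_quotient_layer_on [Fact p.Prime] (hΦ : ∀ {V W : Subgroup G}, W ≤ V → Φ V → Φ W)
    (hL : LayerHypOn Φ p C) (V : Subgroup G) (hV : Φ V) (U' : Subgroup V) [U'.Normal]
    (n : ℕ) (hidx : U'.index = p ^ n) :
    Good ((Rep.res V.subtype C).quotientToInvariants U') :=
  good_quot_hom_on hΦ hL n V.subtype V.subtype_injective
    (hΦ (le_of_eq V.range_subtype) hV) U' (by rw [← hidx]; rfl)

/-! ### Cyclic quotient layers: norm index from `Good` -/

section Cyclic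

open Fermat.Agent.GC.Global.WRec

variable {V U' : Subgroup G} [(U'.subgroupOf V).Normal]

/-- For `V ⧸ U'` finite cyclic and the layer `(V ⧸ U', C^{U'})` good, the norm index
`[C^V : N_{V/U'} C^{U'}]` divides `[V : U']`. -/
theorem norm_relIndex_dvd_of_good (hgood : Good (layerQ C V U')) (hle : U' ≤ V)
    [Finite (V ⧸ U'.subgroupOf V)] [hcyc : IsCyclic (V ⧸ U'.subgroupOf V)] :
    (normSubmodule C.ρ V U').toAddSubgroup.relIndex (invSubmodule C.ρ V).toAddSubgroup ∣
      U'.relIndex V := by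
  let _ := Fintype.ofFinite (V ⧸ U'.subgroupOf V)
  obtain ⟨g, hg⟩ := hcyc.exists_generator
  rw [relIndex_norm_eq_card_H2 C V U' hle hg]
  exact hgood.2.2

/-- The same in `Nat.card` of the quotient module `C^V ⧸ N_{V/U'} C^{U'}`. -/
theorem card_quotient_norm_dvd_of_good (hgood : Good (layerQ C V U')) (hle : U' ≤ V)
    [Finite (V ⧸ U'.subgroupOf V)] [IsCyclic (V ⧸ U'.subgroupOf V)] :
    Nat.card (↥(invSubmodule C.ρ V) ⧸
        (normSubmodule C.ρ V U').submoduleOf (invSubmodule C.ρ V)) ∣ U'.relIndex V := by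
  rw [Fermat.Agent.GC.CycBridge.card_quotient_eq_relIndex, Submodule.submoduleOf,
    Submodule.map_comap_subtype, inf_eq_right.mpr normSubmodule_le]
  exact norm_relIndex_dvd_of_good hgood hle

/-- Hilbert 90 for a good cyclic layer: an element of `C^{U'}` of norm `0` is `(g - 1) w`. -/
theorem exists_sub_eq_of_norm_eq_zero_of_good (hgood : Good (layerQ C V U'))
    [Fintype (V ⧸ U'.subgroupOf V)] {g : V ⧸ U'.subgroupOf V}
    (hg : ∀ x, x ∈ Subgroup.zpowers g) (v : (layerQ C V U').V)
    (hv : (layerQ C V U').ρ.norm v = 0) :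
    ∃ w : (layerQ C V U').V, (layerQ C V U').ρ g w - w = v := by
  have hcard := Fermat.Agent.GC.CycBridge.card_groupCohomology_odd_of_group (layerQ C V U') g hg 1
    odd_one
  have hsub : Subsingleton (groupCohomology (layerQ C V U') 1) :=
    ModuleCat.subsingleton_of_isZero hgood.1
  rw [Nat.card_unique] at hcard
  have hle : (LinearMap.ker (layerQ C V U').ρ.norm).toAddSubgroup ≤
      (LinearMap.range ((layerQ C V U').ρ g - 1)).toAddSubgroup :=
    AddSubgroup.relIndex_eq_one.mp hcard.symm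
  obtain ⟨w, hw⟩ := hle (show v ∈ (LinearMap.ker (layerQ C V U').ρ.norm).toAddSubgroup from hv)
  exact ⟨w, hw⟩

/-- **Counting form for (CL3)/(CL4).**  If `θ : C^V → X` is a surjective homomorphism onto a finite
group with at least `[V : U']` elements which kills the norms `N_{V/U'} C^{U'}`, then the kernel
of `θ` is exactly the group of norms. -/
theorem exists_relNormSub_eq_of_surjective_of_good (hgood : Good (layerQ C V U')) (hle : U' ≤ V)
    [Finite (V ⧸ U'.subgroupOf V)] [IsCyclic (V ⧸ U'.subgroupOf V)]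
    {X : Type*} [AddCommGroup X] [Finite X] (θ : ↥(invSubmodule C.ρ V) →+ X)
    (hθ : Function.Surjective θ) (hX : U'.relIndex V ≤ Nat.card X)
    (hkill : ∀ (y : ↥(invSubmodule C.ρ V)) (z : C.V), IsInv C.ρ U' z →
      relNormSub C.ρ V U' z = (y : C.V) → θ y = 0)
    (y : ↥(invSubmodule C.ρ V)) (hy : θ y = 0) :
    ∃ z, IsInv C.ρ U' z ∧ relNormSub C.ρ V U' z = (y : C.V) := by
  set P : Submodule k ↥(invSubmodule C.ρ V) :=
    (normSubmodule C.ρ V U').submoduleOf (invSubmodule C.ρ V) with hP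
  have hdvd : Nat.card (↥(invSubmodule C.ρ V) ⧸ P) ∣ U'.relIndex V :=
    card_quotient_norm_dvd_of_good hgood hle
  have hrel : U'.relIndex V ≠ 0 := Subgroup.index_ne_zero_of_finite
  have hcard0 : Nat.card (↥(invSubmodule C.ρ V) ⧸ P) ≠ 0 := fun h0 => by
    rw [h0] at hdvd
    exact hrel (Nat.eq_zero_of_zero_dvd hdvd)
  have hfin : Finite (↥(invSubmodule C.ρ V) ⧸ P) := Nat.finite_of_card_ne_zero hcard0
  have hle' : Nat.card (↥(invSubmodule C.ρ V) ⧸ P) ≤ Nat.card X :=
    (Nat.le_of_dvd (Nat.pos_of_ne_zero hrel) hdvd).trans hX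
  have hPker : P.toAddSubgroup ≤ θ.ker := by
    intro w hw
    obtain ⟨z, hz, hzw⟩ := hw
    exact hkill w z hz hzw
  let θb : (↥(invSubmodule C.ρ V) ⧸ P.toAddSubgroup) →+ X :=
    QuotientAddGroup.lift P.toAddSubgroup θ hPker
  have hsurj : Function.Surjective θb := fun x => by
    obtain ⟨w, rfl⟩ := hθ x
    exact ⟨QuotientAddGroup.mk w, rfl⟩
  have hfin' : Finite (↥(invSubmodule C.ρ V) ⧸ P.toAddSubgroup) := hfin
  have hbij : Function.Bijective θb := hsurj.bijective_of_nat_card_le hle'
  have h0 : (QuotientAddGroup.mk y : ↥(invSubmodule C.ρ V) ⧸ P.toAddSubgroup) = 0 := by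
    apply hbij.1
    rw [map_zero]
    exact hy
  have hyP : y ∈ P.toAddSubgroup := (QuotientAddGroup.eq_zero_iff y).mp h0
  exact hyP

/-- In the situation of `exists_relNormSub_eq_of_surjective_of_good`, the cardinalities are
EQUAL: `[C^V : N_{V/U'} C^{U'}] = [V : U'] = |X|`. -/
theorem norm_relIndex_eq_of_surjective_of_good (hgood : Good (layerQ C V U')) (hle : U' ≤ V)
    [Finite (V ⧸ U'.subgroupOf V)] [IsCyclic (V ⧸ U'.subgroupOf V)]
    {X : Type*} [AddCommGroup X] [Finite X] (θ : ↥(invSubmodule C.ρ V) →+ X)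
    (hθ : Function.Surjective θ) (hX : U'.relIndex V ≤ Nat.card X)
    (hkill : ∀ (y : ↥(invSubmodule C.ρ V)) (z : C.V), IsInv C.ρ U' z →
      relNormSub C.ρ V U' z = (y : C.V) → θ y = 0) :
    (normSubmodule C.ρ V U').toAddSubgroup.relIndex (invSubmodule C.ρ V).toAddSubgroup =
      U'.relIndex V ∧ Nat.card X = U'.relIndex V := by
  set P : Submodule k ↥(invSubmodule C.ρ V) :=
    (normSubmodule C.ρ V U').submoduleOf (invSubmodule C.ρ V) with hP
  have hdvd : Nat.card (↥(invSubmodule C.ρ V) ⧸ P) ∣ U'.relIndex V :=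
    card_quotient_norm_dvd_of_good hgood hle
  have hrel : U'.relIndex V ≠ 0 := Subgroup.index_ne_zero_of_finite
  have hcard0 : Nat.card (↥(invSubmodule C.ρ V) ⧸ P) ≠ 0 := fun h0 => by
    rw [h0] at hdvd
    exact hrel (Nat.eq_zero_of_zero_dvd hdvd)
  have hfin : Finite (↥(invSubmodule C.ρ V) ⧸ P) := Nat.finite_of_card_ne_zero hcard0
  have hPker : P.toAddSubgroup ≤ θ.ker := by
    intro w hw
    obtain ⟨z, hz, hzw⟩ := hw
    exact hkill w z hz hzw
  let θb : (↥(invSubmodule C.ρ V) ⧸ P.toAddSubgroup) →+ X :=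
    QuotientAddGroup.lift P.toAddSubgroup θ hPker
  have hsurj : Function.Surjective θb := fun x => by
    obtain ⟨w, rfl⟩ := hθ x
    exact ⟨QuotientAddGroup.mk w, rfl⟩
  have hfin' : Finite (↥(invSubmodule C.ρ V) ⧸ P.toAddSubgroup) := hfin
  have h1 : Nat.card X ≤ Nat.card (↥(invSubmodule C.ρ V) ⧸ P) :=
    Nat.card_le_card_of_surjective θb hsurj
  have h2 : Nat.card (↥(invSubmodule C.ρ V) ⧸ P) ≤ U'.relIndex V :=
    Nat.le_of_dvd (Nat.pos_of_ne_zero hrel) hdvd
  have h3 : Nat.card (↥(invSubmodule C.ρ V) ⧸ P) = U'.relIndex V := by omega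
  refine ⟨?_, by omega⟩
  rw [← h3, Fermat.Agent.GC.CycBridge.card_quotient_eq_relIndex, hP, Submodule.submoduleOf,
    Submodule.map_comap_subtype, inf_eq_right.mpr normSubmodule_le]

end Cyclic

end Fermat.Agent.GC.Global.GoodQuotOn
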