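/-
GATE-C / C4, helper97: `p`-PRIMARY devissage for QUOTIENT layers of ARBITRARY index.

For a downward-closed family `Φ` of subgroups of `G` with the layer hypothesis `LayerHypOn Φ p C`,
`Φ V`, and ANY normal `U' ◁ V` with `V ⧸ U'` finite: `H¹(V/U', C^{U'})` has no `p`-torsion and the
`p`-primary part of `H²(V/U', C^{U'})` is finite of order dividing `p ^ v_p([V : U'])`.
(Restrict to a Sylow `p`-subgroup of `V ⧸ U'`, whose preimage `P ≤ V` has `[P : U']` a power of
`p`, and apply `good_quot_hom_on`.)

These are the hypotheses (h3) (and, with `U' = ⊥`-type statements, (h1), (h2)) of helper74's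
`CycAbs.cyc_abs_of_noTorsion` for `A = Res_V C`.
-/
import Mathlib
import Fermat.Agent.GC.Global.GoodQuotOn

set_option autoImplicit false

open CategoryTheory groupCohomology Rep
open Fermat.Agent.GC.Global.Devissage Fermat.Agent.GC.Global.DevissageSub
open Fermat.Agent.GC.Global.DevissageFinal Fermat.Agent.GC.Global.DevissageP
open Fermat.Agent.GC.Local.GalPair Fermat.Agent.GC.Global.GoodQuot
open Fermat.Agent.GC.Global.GoodQuotOn

universe u

namespace Fermat.Agent.GC.Global.GoodQuotPrimary

variable {k : Type u} [CommRing k]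

/-- If the restriction of `B` to a Sylow `p`-subgroup of the finite group `Q` is good, then
`H¹(Q, B)` has no `p`-torsion and `H²(Q, B)(p)` is finite of order dividing `p ^ v_p |Q|`. -/
theorem primary_of_good_sylow {Q : Type u} [Group Q] [Finite Q] (p : ℕ) [Fact p.Prime]
    (B : Rep.{u} k Q) (P : Sylow p Q) (hgood : Good (Rep.res (P : Subgroup Q).subtype B)) :
    (∀ (x : groupCohomology B 1) (m : ℕ), p ^ m • x = 0 → x = 0) ∧
      Finite (primaryPart p (groupCohomology B 2)) ∧
      Nat.card (primaryPart p (groupCohomology B 2)) ∣ p ^ (Nat.card Q).factorization p := by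
  obtain ⟨h1, hfin, hdvd⟩ := hgood
  refine ⟨fun x m hx => ?_, ?_⟩
  · exact Fermat.Agent.GC.Tate.eq_zero_of_pow_nsmul_eq_zero_of_isZero_sylow p P B 1 h1 x m hx
  · let r : primaryPart p (groupCohomology B 2) →+
        groupCohomology (Rep.res (P : Subgroup Q).subtype B) 2 :=
      (rest B (P : Subgroup Q) 2).hom.toAddMonoidHom.comp
        (primaryPart p (groupCohomology B 2)).subtype
    have hr : Function.Injective r := by
      rw [injective_iff_map_eq_zero]
      rintro ⟨x, m, hx⟩ hrx
      exact Subtype.ext (eq_zero_of_rest_sylow_eq_zero resKer p P B 2 x m hx hrx)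
    refine ⟨Finite.of_injective r hr, ?_⟩
    rw [← P.card_eq_multiplicity]
    exact (AddSubgroup.card_dvd_of_injective r hr).trans hdvd

variable {G : Type u} [Group G] {Φ : Subgroup G → Prop} {p : ℕ} {C : Rep.{u} k G}

/-- Homomorphism form: `f : Γ →* G` injective with `Φ f.range`, `U ◁ Γ` with `Γ ⧸ U` finite. -/
theorem devissage_quot_hom_on [Fact p.Prime] (hΦ : ∀ {V W : Subgroup G}, W ≤ V → Φ V → Φ W)
    (hL : LayerHypOn Φ p C) {Γ : Type u} [Group Γ] (f : Γ →* G) (hf : Function.Injective f)
    (hΓ : Φ f.range) (U : Subgroup Γ) [U.Normal] [Finite (Γ ⧸ U)] :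
    (∀ (x : groupCohomology ((Rep.res f C).quotientToInvariants U) 1) (m : ℕ),
        p ^ m • x = 0 → x = 0) ∧
      Finite (primaryPart p (groupCohomology ((Rep.res f C).quotientToInvariants U) 2)) ∧
      Nat.card (primaryPart p (groupCohomology ((Rep.res f C).quotientToInvariants U) 2)) ∣
        p ^ (Nat.card (Γ ⧸ U)).factorization p := by
  obtain ⟨P⟩ : Nonempty (Sylow p (Γ ⧸ U)) := inferInstance
  refine primary_of_good_sylow p _ P ?_
  -- the preimage `N` of the Sylow subgroup
  set N : Subgroup Γ := (P : Subgroup (Γ ⧸ U)).comap (QuotientGroup.mk' U) with hN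
  have hUN : U ≤ N := by
    intro x hx
    rw [hN, Subgroup.mem_comap]
    have : (QuotientGroup.mk' U) x = 1 := (QuotientGroup.eq_one_iff x).mpr hx
    rw [this]
    exact (P : Subgroup (Γ ⧸ U)).one_mem
  have hmap : N.map (QuotientGroup.mk' U) = (P : Subgroup (Γ ⧸ U)) :=
    Subgroup.map_comap_eq_self_of_surjective (QuotientGroup.mk'_surjective U) _
  have hcard : Nat.card (N ⧸ U.subgroupOf N) = p ^ (Nat.card (Γ ⧸ U)).factorization p := by
    rw [Nat.card_congr (subQuotEquiv U N).toEquiv, hmap]
    exact P.card_eq_multiplicity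
  have hrange : (f.comp N.subtype).range ≤ f.range := by
    rintro _ ⟨x, rfl⟩
    exact ⟨x.1, rfl⟩
  have hgood : Good (Rep.res (N.map (QuotientGroup.mk' U)).subtype
      ((Rep.res f C).quotientToInvariants U)) := by
    have φ := (pairIsoSub (Rep.res f C) U N hUN).symm
    exact Good.of_mulEquiv φ.e φ.e' φ.comm
      (good_quot_hom_on hΦ hL _ (f.comp N.subtype) (hf.comp N.subtype_injective)
        (hΦ hrange hΓ) (U.subgroupOf N) hcard)
  rw [hmap] at hgood
  exact hgood

/-- **`p`-primary devissage for quotient layers of arbitrary index.** -/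
theorem devissage_quot_on [Fact p.Prime] (hΦ : ∀ {V W : Subgroup G}, W ≤ V → Φ V → Φ W)
    (hL : LayerHypOn Φ p C) (V : Subgroup G) (hV : Φ V) (U' : Subgroup V) [U'.Normal]
    [Finite (V ⧸ U')] :
    (∀ (x : groupCohomology ((Rep.res V.subtype C).quotientToInvariants U') 1) (m : ℕ),
        p ^ m • x = 0 → x = 0) ∧
      Finite (primaryPart p (groupCohomology ((Rep.res V.subtype C).quotientToInvariants U') 2)) ∧
      Nat.card (primaryPart p
          (groupCohomology ((Rep.res V.subtype C).quotientToInvariants U') 2)) ∣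
        p ^ (Nat.card (V ⧸ U')).factorization p :=
  devissage_quot_hom_on hΦ hL V.subtype V.subtype_injective
    (hΦ (le_of_eq V.range_subtype) hV) U'

/-! ### Subgroups (no quotient): `p`-groups in `Φ` are good, all members of `Φ` satisfy the
`p`-primary statements -/

/-- **Devissage, `p`-group case on `Φ`**, by induction on the exponent. -/
theorem good_of_card_pow_on [Fact p.Prime] (hΦ : ∀ {V W : Subgroup G}, W ≤ V → Φ V → Φ W)
    (hL : LayerHypOn Φ p C) :
    ∀ (n : ℕ) (P : Subgroup G), Φ P → Nat.card P = p ^ n → Good (res P.subtype C) := by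
  have hp : p.Prime := Fact.out
  intro n
  induction n with
  | zero =>
    intro P _ hP
    rw [pow_zero] at hP
    have hsub : Subsingleton P := (Nat.card_eq_one_iff_unique.mp hP).1
    exact good_of_subsingleton _
  | succ n ih =>
    intro P hΦP hP
    have : Finite P := Nat.finite_of_card_ne_zero (by rw [hP]; exact pow_ne_zero _ hp.ne_zero)
    obtain ⟨U', hU'⟩ := Sylow.exists_subgroup_card_pow_prime (G := P) p (n := n)
      (by rw [hP]; exact pow_dvd_pow p (Nat.le_succ n))
    have hidx : U'.index = p := by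
      have h1 := U'.card_mul_index
      rw [hU', hP, pow_succ] at h1
      exact Nat.eq_of_mul_eq_mul_left (pow_pos hp.pos n) h1
    have hminFac : (Nat.card P).minFac = p := by
      rw [hP, Nat.pow_minFac (Nat.succ_ne_zero n), hp.minFac_eq]
    have : U'.Normal := Subgroup.normal_of_index_eq_minFac_card (by rw [hidx, hminFac])
    have hUcard : Nat.card (U'.map P.subtype) = p ^ n := by
      rw [← hU']
      exact (Nat.card_congr (U'.equivMapOfInjective P.subtype P.subtype_injective).toEquiv).symm
    have hle : U'.map P.subtype ≤ P := by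
      rintro _ ⟨x, -, rfl⟩
      exact x.2
    exact good_of_normal infRes2 (res P.subtype C) U'
      (good_res_res C P U' (ih _ (hΦ hle hΦP) hUcard)) (hL.good P hΦP U' hidx)

/-- `p`-subgroups in `Φ` are good. -/
theorem good_of_isPGroup_on [Fact p.Prime] (hΦ : ∀ {V W : Subgroup G}, W ≤ V → Φ V → Φ W)
    (hL : LayerHypOn Φ p C) (P : Subgroup G) [Finite P] (hΦP : Φ P) (hP : IsPGroup p P) :
    Good (res P.subtype C) := by
  obtain ⟨n, hn⟩ := IsPGroup.iff_card.mp hP
  exact good_of_card_pow_on hΦ hL n P hΦP hn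

/-- **Devissage on `Φ`**: for every finite `H` in `Φ`, `H¹(H, C)` has no `p`-torsion and
`H²(H, C)(p)` is finite of order dividing `p ^ v_p |H|`. -/
theorem devissage_sub_on [Fact p.Prime] (hΦ : ∀ {V W : Subgroup G}, W ≤ V → Φ V → Φ W)
    (hL : LayerHypOn Φ p C) (H : Subgroup G) [Finite H] (hH : Φ H) :
    (∀ (x : groupCohomology (res H.subtype C) 1) (m : ℕ), p ^ m • x = 0 → x = 0) ∧
      Finite (primaryPart p (groupCohomology (res H.subtype C) 2)) ∧
      Nat.card (primaryPart p (groupCohomology (res H.subtype C) 2)) ∣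
        p ^ (Nat.card H).factorization p := by
  obtain ⟨P⟩ : Nonempty (Sylow p H) := inferInstance
  refine primary_of_good_sylow p _ P ?_
  have hcard : Nat.card ((P : Subgroup H).map H.subtype) = p ^ (Nat.card H).factorization p := by
    rw [← P.card_eq_multiplicity]
    exact (Nat.card_congr
      ((P : Subgroup H).equivMapOfInjective H.subtype H.subtype_injective).toEquiv).symm
  have hle : (P : Subgroup H).map H.subtype ≤ H := by
    rintro _ ⟨x, -, rfl⟩
    exact x.2
  exact good_res_res C H (P : Subgroup H) (good_of_card_pow_on hΦ hL _ _ (hΦ hle hH) hcard)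

/-! ### The hypotheses (h1), (h2), (h3) of `CycAbs.cyc_abs_of_noTorsion` for `A = Res_V C` -/

/-- (h1): `H¹(N, C) = 0` for a finite `p`-subgroup `N ≤ V`, `Φ V`. -/
theorem isZero_H1_res_res_on [Fact p.Prime] (hΦ : ∀ {V W : Subgroup G}, W ≤ V → Φ V → Φ W)
    (hL : LayerHypOn Φ p C) (V : Subgroup G) (hV : Φ V) (N : Subgroup V) [Finite N]
    (hN : IsPGroup p N) :
    Limits.IsZero (groupCohomology (Rep.res N.subtype (Rep.res V.subtype C)) 1) := by
  have hle : N.map V.subtype ≤ V := by
    rintro _ ⟨x, -, rfl⟩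
    exact x.2
  have : Finite (N.map V.subtype) :=
    Finite.of_equiv _ (N.equivMapOfInjective V.subtype V.subtype_injective).toEquiv
  exact (good_res_res C V N
    (good_of_isPGroup_on hΦ hL _ (hΦ hle hV) (hN.map V.subtype))).1

/-- (h2): `H¹(M, C)` has no `p`-torsion for every finite `M ≤ V`, `Φ V`. -/
theorem noPTorsion_H1_res_res_on [Fact p.Prime]
    (hΦ : ∀ {V W : Subgroup G}, W ≤ V → Φ V → Φ W) (hL : LayerHypOn Φ p C) (V : Subgroup G)
    (hV : Φ V) (M : Subgroup V) [Finite M]
    (c : groupCohomology (Rep.res M.subtype (Rep.res V.subtype C)) 1) (m : ℕ)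
    (hc : p ^ m • c = 0) : c = 0 := by
  have hle : M.map V.subtype ≤ V := by
    rintro _ ⟨x, -, rfl⟩
    exact x.2
  have : Finite (M.map V.subtype) :=
    Finite.of_equiv _ (M.equivMapOfInjective V.subtype V.subtype_injective).toEquiv
  have key := (devissage_sub_on hΦ hL (M.map V.subtype) (hΦ hle hV)).1
  let e := (resResIso C V M 1).toLinearEquiv
  have h0 : e c = 0 := by
    apply key (e c) m
    rw [← map_nsmul, hc, map_zero]
  exact e.map_eq_zero_iff.mp h0

end Fermat.Agent.GC.Global.GoodQuotPrimary
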