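/-
GATE-C / C4 GLOBAL-COH (helper14): the finite-level idele model.

For a finite Galois layer `L ⊂ Qbar` over `ℚ`, `G_L := L ≃ₐ[ℚ] L`, and a prime `q`:
* `locField q L := ℚ_q(ι L) ⊂ PadicAlgCl q` (`ι = padicEmbedding q` of the prelude);
* `decHom q L : Gal(L_q/ℚ_q) →* G_L` (restriction along `ι`; injective, image = decomposition group);
* `Jq q L := coind (decHom q L) (L_qˣ) : Rep ℤ G_L` — the `q`-component `(L ⊗ ℚ_q)ˣ = ∏_{w ∣ q} L_wˣ`
  of the idele group, WITHOUT completing `L` and without choosing places;
* `diagq q L : Lˣ ⟶ Jq q L`, `x ↦ (g ↦ ι (g x))`.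
-/
import Mathlib
import Fermat.Prelude.Def_GaloisRep_CompletionBridge

set_option autoImplicit false
set_option linter.unusedSectionVars false

open scoped Padic

noncomputable section

namespace Fermat.Agent.GC.Global

/-- `Qbar`. -/
abbrev Qb := AlgebraicClosure ℚ

variable (q : ℕ) [Fact q.Prime]

/-- The local layer `L_q = ℚ_q(ι L)` inside `PadicAlgCl q`. -/
def locField (L : IntermediateField ℚ Qb) : IntermediateField ℚ_[q] (PadicAlgCl q) :=
  IntermediateField.adjoin ℚ_[q] ((padicEmbedding q) '' (L : Set Qb))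

variable (L : IntermediateField ℚ Qb)

theorem padicEmbedding_mem_locField (x : L) : padicEmbedding q (x : Qb) ∈ locField q L :=
  IntermediateField.subset_adjoin _ _ ⟨x, x.2, rfl⟩

/-- `ι` restricted to `L`, with values in the local layer. -/
def locEmb : L →ₐ[ℚ] locField q L where
  toFun x := ⟨padicEmbedding q (x : Qb), padicEmbedding_mem_locField q L x⟩
  map_one' := by ext; simp
  map_mul' x y := by ext; simp
  map_zero' := by ext; simp
  map_add' x y := by ext; simp
  commutes' r := by
    ext
    exact (padicEmbedding q).commutes r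

@[simp] theorem coe_locEmb (x : L) : ((locEmb q L x : locField q L) : PadicAlgCl q)
    = padicEmbedding q (x : Qb) := rfl

theorem locEmb_injective : Function.Injective (locEmb q L) := (locEmb q L).toRingHom.injective

/-! ### The decomposition homomorphism -/

/-- `L_q` as an `L`-algebra via `ι`. -/
instance algebraLocField : Algebra L (locField q L) := (locEmb q L).toRingHom.toAlgebra

instance towerLocField : IsScalarTower ℚ L (locField q L) :=
  IsScalarTower.of_algebraMap_eq' (Subsingleton.elim _ _)

instance towerRatLocField : IsScalarTower ℚ ℚ_[q] (locField q L) :=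
  IsScalarTower.of_algebraMap_eq' (Subsingleton.elim _ _)

theorem algebraMap_locField (x : L) : algebraMap L (locField q L) x = locEmb q L x := rfl

/-- The decomposition homomorphism `Gal(L_q/ℚ_q) →* Gal(L/ℚ)`: restriction along `ι`. -/
def decHom [Normal ℚ L] : (locField q L ≃ₐ[ℚ_[q]] locField q L) →* (L ≃ₐ[ℚ] L) :=
  (AlgEquiv.restrictNormalHom (F := ℚ) (K₁ := locField q L) L).comp
    (MonoidHom.mk' (fun τ => τ.restrictScalars ℚ) (fun _ _ => rfl))

theorem locEmb_decHom [Normal ℚ L] (τ : locField q L ≃ₐ[ℚ_[q]] locField q L) (x : L) :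
    locEmb q L (decHom q L τ x) = τ (locEmb q L x) :=
  AlgEquiv.restrictNormal_commutes (τ.restrictScalars ℚ) L x

theorem decHom_injective [Normal ℚ L] : Function.Injective (decHom q L) := by
  refine (injective_iff_map_eq_one _).2 fun τ hτ => ?_
  ext ⟨y, hy⟩
  have key : ∀ z ∈ locField q L, ∀ hz : z ∈ locField q L,
      ((τ ⟨z, hz⟩ : locField q L) : PadicAlgCl q) = z := by
    intro z hz
    induction hz using IntermediateField.adjoin_induction with
    | mem z hz =>
      intro hz'
      obtain ⟨x, hx, rfl⟩ := hz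
      have h := locEmb_decHom q L τ ⟨x, hx⟩
      rw [hτ] at h
      have h2 := congrArg (fun w : locField q L => (w : PadicAlgCl q)) h
      simp only [AlgEquiv.one_apply, coe_locEmb] at h2
      exact h2.symm
    | algebraMap r =>
      intro hz'
      have := τ.commutes r
      exact congrArg (fun w : locField q L => (w : PadicAlgCl q)) this
    | add x y hx hy ihx ihy =>
      intro hz'
      have : (⟨x + y, hz'⟩ : locField q L) = ⟨x, hx⟩ + ⟨y, hy⟩ := rfl
      rw [this, map_add]
      simp [ihx hx, ihy hy]
    | inv x hx ihx =>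
      intro hz'
      have : (⟨x⁻¹, hz'⟩ : locField q L) = (⟨x, hx⟩ : locField q L)⁻¹ := rfl
      rw [this, map_inv₀]
      simp [ihx hx]
    | mul x y hx hy ihx ihy =>
      intro hz'
      have : (⟨x * y, hz'⟩ : locField q L) = ⟨x, hx⟩ * ⟨y, hy⟩ := rfl
      rw [this, map_mul]
      simp [ihx hx, ihy hy]
  exact key y hy hy

/-! ### The `q`-component of the idele module -/

variable [Normal ℚ L]

/-- Shortcut instance (the generic search through `IntermediateField` coercions times out). -/
instance instSMulGalUnits : SMul (L ≃ₐ[ℚ] L) Lˣ :=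
  (AlgEquiv.instMulDistribMulActionUnits (R := ℚ) (A₁ := L)).toSMul

/-- Shortcut instance. -/
instance instSMulLocGalUnits :
    SMul (locField q L ≃ₐ[ℚ_[q]] locField q L) (locField q L)ˣ :=
  (AlgEquiv.instMulDistribMulActionUnits (R := ℚ_[q]) (A₁ := locField q L)).toSMul

/-- `L_qˣ` as a `ℤ[Gal(L_q/ℚ_q)]`-module. -/
abbrev locUnits : Rep ℤ (locField q L ≃ₐ[ℚ_[q]] locField q L) :=
  Rep.ofAlgebraAutOnUnits ℚ_[q] (locField q L)

/-- `Lˣ` as a `ℤ[G_L]`-module. -/
abbrev globUnits : Rep ℤ (L ≃ₐ[ℚ] L) := Rep.ofAlgebraAutOnUnits ℚ L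

/-- The `q`-component `(L ⊗ ℚ_q)ˣ` of the idele group of `L`, as the module coinduced from the
decomposition group: functions `f : G_L → L_qˣ` with `f (dec d * g) = d • f g`,
`G_L` acting by right translation. -/
abbrev Jq : Rep ℤ (L ≃ₐ[ℚ] L) := Rep.coind (decHom q L) (locUnits q L)

/-- The diagonal embedding `Lˣ → (L ⊗ ℚ_q)ˣ` as a function: `x ↦ (g ↦ ι (g x))`. -/
def diagqFun (x : Lˣ) : (L ≃ₐ[ℚ] L) → Additive (locField q L)ˣ :=
  fun g => Additive.ofMul (Units.map (locEmb q L).toMonoidHom (Units.map (g : L →* L) x))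

@[simp] theorem coe_diagqFun (x : Lˣ) (g : L ≃ₐ[ℚ] L) :
    (((diagqFun q L x g).toMul : (locField q L)ˣ) : locField q L) = locEmb q L (g (x : L)) := rfl

theorem diagqFun_mem (x : Lˣ) :
    diagqFun q L x ∈ Representation.coindV (decHom q L) (locUnits q L).ρ := by
  intro d g
  apply Additive.toMul.injective
  ext
  have h1 : (((diagqFun q L x (decHom q L d * g)).toMul : (locField q L)ˣ) : locField q L)
      = locEmb q L (decHom q L d (g (x : L))) := rfl
  have h2 : ((Additive.toMul (α := (locField q L)ˣ) ((locUnits q L).ρ d (diagqFun q L x g)) :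
      (locField q L)ˣ) : locField q L) = d (locEmb q L (g (x : L))) := rfl
  rw [h1, h2, locEmb_decHom]

theorem diagqFun_mul (x y : Lˣ) : diagqFun q L (x * y) = diagqFun q L x + diagqFun q L y := by
  funext g
  apply Additive.toMul.injective
  ext
  simp [diagqFun]

theorem diagqFun_one : diagqFun q L 1 = 0 := by
  funext g
  apply Additive.toMul.injective
  ext
  simp [diagqFun]

/-- The diagonal embedding as a monoid hom into functions. -/
def diagqHom : Additive Lˣ →+ Representation.coindV (decHom q L) (locUnits q L).ρ where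
  toFun x := ⟨diagqFun q L x.toMul, diagqFun_mem q L x.toMul⟩
  map_zero' := Subtype.ext (diagqFun_one q L)
  map_add' x y := Subtype.ext (diagqFun_mul q L x.toMul y.toMul)

/-- The diagonal embedding `Lˣ → (L ⊗ ℚ_q)ˣ`, `x ↦ (g ↦ ι (g x))`, as a morphism of `G_L`-modules. -/
def diagq : globUnits L ⟶ Jq q L :=
  Rep.ofHom
    { toLinearMap := (diagqHom q L).toIntLinearMap
      isIntertwining' := fun h => by
        ext x g
        rfl }

theorem diagq_apply_apply (x : Additive Lˣ) (g : L ≃ₐ[ℚ] L) :
    ((diagq q L).hom x).1 g = diagqFun q L x.toMul g := rfl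

theorem diagqHom_injective : Function.Injective (diagqHom q L) := by
  intro x y h
  have h1 : (diagqFun q L x.toMul 1).toMul = (diagqFun q L y.toMul 1).toMul :=
    congrArg (fun f => (f.1 1).toMul) h
  apply Additive.toMul.injective
  apply Units.ext
  have h2 := congrArg (fun u : (locField q L)ˣ => (u : locField q L)) h1
  simp only [coe_diagqFun, AlgEquiv.one_apply] at h2
  exact locEmb_injective q L h2

theorem diagq_injective : Function.Injective (diagq q L).hom :=
  diagqHom_injective q L

end Fermat.Agent.GC.Global
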