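/-
GATE-C / C4 leaf (J-DIV) (helper72): `p`-divisibility of `p`-primary idele classes at a level with
large local degrees.

* `exists_nsmul_eq_of_fundamental` : in a finite abelian group of order `n` possessing an element of
  exact order `n` (so: cyclic), `p ^ (a+1) ∣ n` and `p ^ a • y = 0` imply `y ∈ p • A`.
* `local_H2_div` : the same for the local Brauer group `H²(Gal(E'/E), E'ˣ)` of `q`-adic fields
  (cyclic of order `[E':E]`, helper26 `LocalCFT`).
* `resJ_H2_div` : for `H ≤ G_L`, a class `y : H²(H, J(L,T))` killed by `p ^ a` is `p`-divisible as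
  soon as `p ^ (a+1)` divides every local degree `|D_{q,s}|` (`q ∈ T`, `s` a place of `L^H` above `q`)
  — Mackey + Shapiro (`resJEquiv`).
* `inflJHom`, `inflJCoh` : the inflation `Hⁿ(V, J(L,T)) → Hⁿ(V', J(L',T))`, `V' = V.comap (gRes h)`,
  as ONE Mathlib `groupCohomology.map` over helper80's `inflJ`.
* `jdiv` : **(J-DIV)**: `p ^ a • x = 0` and `p ^ (a+1) ∣` all local degrees of `L'` over `L^V`
  ⟹ `∃ x₁, infl x = p • x₁`.
-/
import Fermat.Agent.GC.Global.MackeyJ
import Fermat.Agent.GC.Local.Unram.LocalCFT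
import Fermat.Agent.GC.Global.Funct.ModelFunct

set_option autoImplicit false
set_option linter.unusedSectionVars false

open CategoryTheory groupCohomology
open scoped Padic

noncomputable section

namespace Fermat.Agent.GC.Global.Mackey

theorem exists_nsmul_eq_of_fundamental {A : Type*} [AddCommGroup A] [Finite A] (u : A)
    (hu : ∀ j : ℕ, j • u = 0 → Nat.card A ∣ j) {p a : ℕ} (hp : p.Prime)
    (hdvd : p ^ (a + 1) ∣ Nat.card A) (y : A) (hy : p ^ a • y = 0) : ∃ x : A, y = p • x := by
  have hord : addOrderOf u = Nat.card A :=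
    Nat.dvd_antisymm (addOrderOf_dvd_natCard u) (hu _ (addOrderOf_nsmul_eq_zero u))
  have htop : AddSubgroup.zmultiples u = ⊤ := by
    apply AddSubgroup.eq_top_of_card_eq
    rw [Nat.card_zmultiples, hord]
  have hmem : y ∈ AddSubgroup.zmultiples u := by rw [htop]; trivial
  have hmem' : y ∈ AddSubmonoid.multiples u :=
    (isOfFinAddOrder_of_finite u).mem_multiples_iff_mem_zmultiples.2 hmem
  obtain ⟨m, hm⟩ := (AddSubmonoid.mem_multiples_iff _ _).1 hmem'
  have h1 : (p ^ a * m) • u = 0 := by rw [mul_nsmul', hm]; exact hy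
  have h2 : p ^ (a + 1) ∣ p ^ a * m := hdvd.trans (hu _ h1)
  rw [pow_succ] at h2
  have h3 : p ∣ m := Nat.dvd_of_mul_dvd_mul_left (pow_pos hp.pos a) h2
  obtain ⟨m', rfl⟩ := h3
  exact ⟨m' • u, by rw [← hm, mul_nsmul']⟩

section Local

variable (q : ℕ) [Fact q.Prime] (K L : Type) [Field K] [Field L]
  [Algebra ℚ_[q] K] [Algebra ℚ_[q] L] [Algebra K L] [IsScalarTower ℚ_[q] K L]
  [FiniteDimensional ℚ_[q] L] [FiniteDimensional K L] [IsGalois K L]

include q in
theorem local_H2_div {p a : ℕ} (hp : p.Prime) (hdvd : p ^ (a + 1) ∣ Module.finrank K L)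
    (y : H2 (Rep.ofAlgebraAutOnUnits K L)) (hy : p ^ a • y = 0) :
    ∃ x : H2 (Rep.ofAlgebraAutOnUnits K L), y = p • x := by
  have hcard : Nat.card (H2 (Rep.ofAlgebraAutOnUnits K L)) = Module.finrank K L :=
    Fermat.Agent.GC.Local.InvMain.card_H2_eq_finrank q K L
      (Fermat.Agent.GC.Local.Unram.lowerData q K L)
  have hfin : Finite (H2 (Rep.ofAlgebraAutOnUnits K L)) :=
    Nat.finite_of_card_ne_zero (by rw [hcard]; exact Module.finrank_pos.ne')
  obtain ⟨u, hu⟩ := Fermat.Agent.GC.Local.Unram.local_exists_fundamental q K L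
  exact exists_nsmul_eq_of_fundamental u (fun j hj => by rw [hcard]; exact hu j hj) hp
    (by rw [hcard]; exact hdvd) y hy

end Local

section J

open Fermat.Agent.GC.Global Fermat.Agent.GC.Global.Adapter

variable (L : IntermediateField ℚ Qb) [FiniteDimensional ℚ L] [IsGalois ℚ L]
  (T : Finset Nat.Primes) (H : Subgroup (L ≃ₐ[ℚ] L))

theorem locBase_H2_div (q : Nat.Primes) (s : L ≃ₐ[ℚ] L) {p a : ℕ} (hp : p.Prime)
    (hdeg : p ^ (a + 1) ∣ Nat.card (locSub L H q s))
    (y : groupCohomology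
      (Rep.ofAlgebraAutOnUnits (locBase L H q s) (locField (q : ℕ) L)) 2)
    (hy : p ^ a • y = 0) :
    ∃ x : groupCohomology
      (Rep.ofAlgebraAutOnUnits (locBase L H q s) (locField (q : ℕ) L)) 2, y = p • x := by
  rw [← finrank_locBase] at hdeg
  exact local_H2_div (q : ℕ) (locBase L H q s) (locField (q : ℕ) L) hp hdeg y hy


/-- Transport of `p`-divisibility of `p ^ a`-torsion along an additive equivalence with a double
product. -/
theorem exists_nsmul_eq_of_addEquiv_pi {Y : Type*} [AddCommGroup Y] {ι : Type*} {κ : ι → Type*}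
    {A : ∀ i, κ i → Type*} [∀ i j, AddCommGroup (A i j)] (e : Y ≃+ ∀ i j, A i j) {p a : ℕ}
    (hA : ∀ i j (z : A i j), p ^ a • z = 0 → ∃ x : A i j, z = p • x)
    (y : Y) (hy : p ^ a • y = 0) : ∃ x : Y, y = p • x := by
  have hloc : ∀ i j, ∃ x : A i j, e y i j = p • x := by
    intro i j
    apply hA
    have h1 : e (p ^ a • y) = p ^ a • e y := map_nsmul e _ _
    rw [hy, map_zero] at h1
    have h2 := congrFun (congrFun h1 i) j
    exact h2.symm
  choose x hx using hloc
  refine ⟨e.symm x, ?_⟩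
  apply e.injective
  rw [map_nsmul, AddEquiv.apply_symm_apply]
  funext i j
  exact hx i j

/-- **`p`-divisibility of `p`-primary idele classes** when all local degrees are divisible by
`p ^ (a+1)`. -/
theorem resJ_H2_div {p a : ℕ} (hp : p.Prime)
    (hdeg : ∀ q : T, ∀ s : PlacesAbove L H q,
      p ^ (a + 1) ∣ Nat.card (locSub L H q (rep s)))
    (y : groupCohomology (Rep.res H.subtype (J L T)) 2) (hy : p ^ a • y = 0) :
    ∃ x : groupCohomology (Rep.res H.subtype (J L T)) 2, y = p • x :=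
  exists_nsmul_eq_of_addEquiv_pi (resJEquiv L T H 2)
    (fun q s z hz => locBase_H2_div L H q (rep s) hp (hdeg q s) z hz) y hy

end J

section Infl

open Fermat.Agent.GC.Global Fermat.Agent.GC.Global.Adapter Fermat.Agent.GC.Global.Funct

variable {L L' : IntermediateField ℚ Qb} [FiniteDimensional ℚ L] [IsGalois ℚ L]
  [FiniteDimensional ℚ L'] [IsGalois ℚ L'] (h : L ≤ L') (T : Finset Nat.Primes)
  (V : Subgroup (L ≃ₐ[ℚ] L))

/-- Inflation of ideles `J(L,T) → J(L',T)` (helper80's `inflJ`) as a morphism of representations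
of `V' = V.comap (gRes h)` over `V' → V`. -/
def inflJHom :
    Rep.res ((gRes h).subgroupComap V) (Rep.res V.subtype (J L T)) ⟶
      Rep.res (V.comap (gRes h)).subtype (J L' T) :=
  Rep.ofHom ⟨inflJ h T, fun g' => by
    ext y
    exact inflJ_rho h T (g' : L' ≃ₐ[ℚ] L') y⟩

@[simp] lemma inflJHom_hom_apply (y : J L T) : (inflJHom h T V).hom y = inflJ h T y := rfl

/-- **Inflation** `Hⁿ(V, J(L,T)) ⟶ Hⁿ(V', J(L',T))`, `V' = V.comap (gRes h)`: ONE Mathlib `map`. -/
def inflJCoh (n : ℕ) :
    groupCohomology (Rep.res V.subtype (J L T)) n ⟶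
      groupCohomology (Rep.res (V.comap (gRes h)).subtype (J L' T)) n :=
  groupCohomology.map ((gRes h).subgroupComap V) (inflJHom h T V) n

/-- **(J-DIV)**: a `p ^ a`-torsion class of `H²(V, J(L,T))` becomes `p`-divisible in
`H²(V', J(L',T))` as soon as `p ^ (a+1)` divides all local degrees of `L'` over `K = L^V`
at the places above `T`. -/
theorem jdiv {p a : ℕ} (hp : p.Prime)
    (hdeg : ∀ q : T, ∀ s : PlacesAbove L' (V.comap (gRes h)) q,
      p ^ (a + 1) ∣ Nat.card (locSub L' (V.comap (gRes h)) q (rep s)))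
    (x : groupCohomology (Rep.res V.subtype (J L T)) 2) (hx : p ^ a • x = 0) :
    ∃ x₁ : groupCohomology (Rep.res (V.comap (gRes h)).subtype (J L' T)) 2,
      (inflJCoh h T V 2).hom x = p • x₁ :=
  resJ_H2_div L' T (V.comap (gRes h)) hp hdeg _ (by rw [← map_nsmul, hx, map_zero])

end Infl

end Fermat.Agent.GC.Global.Mackey
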