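/-
GATE-C / C4 leaf (J-DIV), part 2 (helper72): the degree hypothesis of `jdiv` holds at every layer
`L' ⊇ L · ℚ(ζ_{p^(k+1)})`, `k ≥ k₀(L,T,p,a)`.

* `locSub_comap` : `D'_{q,s'} = lRes⁻¹(D_{q, s'|_L})` (the places of `K = L^V` are the same for
  `L` and `L'`); `ker_lRes_le_locSub`, `card_ker_lRes_dvd_card_locSub`.
* `card_ker_lRes` : `|ker (Gal(L'_q/ℚ_q) → Gal(L_q/ℚ_q))| = [L'_q : L_q]`.
* `exists_pow_dvd_card_ker_lRes` : `p ^ a ∣ [L'_q : L_q]` for `k ≥ k₀` (helper3's local degree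
  growth of the `p`-cyclotomic tower).
* `exists_pow_dvd_card_locSub` : `p ^ a ∣ |D'_{q,s'}|` for all `q ∈ T`, all `V ≤ G_L`, all `s'`.
* `exists_level_jdiv` : **(J-DIV), existence form**.
* `subgroupComap_gRes_eq_resV`, `inflJCoh_eq_map_resV` : dictionary with helper14's `StageIso`.
-/
import Fermat.Agent.GC.Global.MackeyDiv
import Fermat.Agent.GC.Local.BrauerCyc
import Fermat.Agent.GC.Global.WRec.CycloTower
import Fermat.Agent.GC.Global.Funct.StageIso

set_option autoImplicit false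
set_option linter.unusedSectionVars false

open CategoryTheory groupCohomology
open scoped Padic

noncomputable section

namespace Fermat.Agent.GC.Global.Mackey

open Fermat.Agent.GC.Global Fermat.Agent.GC.Global.Adapter Fermat.Agent.GC.Global.Funct
  Fermat.Agent.GC.Global.WRec

section Comap

variable {L L' : IntermediateField ℚ Qb} [FiniteDimensional ℚ L] [IsGalois ℚ L]
  [FiniteDimensional ℚ L'] [IsGalois ℚ L'] (h : L ≤ L') (q : Nat.Primes)
  (V : Subgroup (L ≃ₐ[ℚ] L)) (s' : L' ≃ₐ[ℚ] L')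

/-- The local decomposition subgroup of `K = L^V` computed in the bigger layer `L'` is the preimage
of the one computed in `L`. -/
theorem locSub_comap :
    locSub L' (V.comap (gRes h)) q s' =
      (locSub L V q (gRes h s')).comap (lRes (q : ℕ) h) := by
  ext d
  rw [mem_dSub, Subgroup.mem_comap, Subgroup.mem_comap, mem_dSub, map_mul, map_mul, map_inv,
    decHom_lRes]

/-- `Gal(L'_q/L_q) = ker (lRes) ≤ D'_{q,s'}`. -/
theorem ker_lRes_le_locSub : (lRes (q : ℕ) h).ker ≤ locSub L' (V.comap (gRes h)) q s' := by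
  rw [locSub_comap]
  intro d hd
  rw [Subgroup.mem_comap, MonoidHom.mem_ker.1 hd]
  exact Subgroup.one_mem _

/-- `[L'_q : L_q] = |ker lRes|` divides every local degree `|D'_{q,s'}|` of `L'` over `K = L^V`. -/
theorem card_ker_lRes_dvd_card_locSub :
    Nat.card (lRes (q : ℕ) h).ker ∣ Nat.card (locSub L' (V.comap (gRes h)) q s') :=
  Subgroup.card_dvd_of_le (ker_lRes_le_locSub h q V s')

/-- `[L'_q : ℚ_q] = |ker lRes| · [L_q : ℚ_q]`. -/
theorem card_ker_lRes_mul :
    Nat.card (lRes (q : ℕ) h).ker * Module.finrank ℚ_[(q : ℕ)] (locField (q : ℕ) L) =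
      Module.finrank ℚ_[(q : ℕ)] (locField (q : ℕ) L') := by
  rw [← IsGalois.card_aut_eq_finrank, ← IsGalois.card_aut_eq_finrank]
  have hsurj : Function.Surjective (lRes (q : ℕ) h) := GalRes.res_surjective _
  rw [← Subgroup.card_mul_index (lRes (q : ℕ) h).ker, Subgroup.index_ker,
    MonoidHom.range_eq_top.2 hsurj, Subgroup.card_top]

/-- `|ker lRes| = [L'_q : L_q]`. -/
theorem card_ker_lRes :
    Nat.card (lRes (q : ℕ) h).ker =
      Module.finrank (locField (q : ℕ) L)
        (IntermediateField.extendScalars (locField_mono (q : ℕ) h)) := by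
  have h1 := card_ker_lRes_mul h q
  have h2 := IntermediateField.finrank_bot_mul_relfinrank (locField_mono (q : ℕ) h)
  rw [IntermediateField.relfinrank_eq_finrank_of_le (locField_mono (q : ℕ) h)] at h2
  have hpos : 0 < Module.finrank ℚ_[(q : ℕ)] (locField (q : ℕ) L) := Module.finrank_pos
  rw [← h2, mul_comm] at h1
  exact Nat.eq_of_mul_eq_mul_left hpos h1

end Comap

section Grow

variable (L : IntermediateField ℚ Qb) [FiniteDimensional ℚ L] [IsGalois ℚ L]
  (p : ℕ) [Fact p.Prime]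

/-- **Local degree growth** at one prime `q`: for `k` large, `p ^ a ∣ [L'_q : L_q]` for every layer
`L' ⊇ L` containing `ℚ(ζ_{p^(k+1)})`. -/
theorem exists_pow_dvd_card_ker_lRes (q : Nat.Primes) (a : ℕ) :
    ∃ k₀ : ℕ, ∀ k, k₀ ≤ k → ∀ (L' : IntermediateField ℚ Qb) [FiniteDimensional ℚ L']
      [IsGalois ℚ L'] (h : L ≤ L'), cycLayer p k ≤ L' →
      p ^ a ∣ Nat.card (lRes (q : ℕ) h).ker := by
  obtain ⟨m₀, hm₀⟩ := Fermat.Agent.GC.Local.BrauerCyc.exists_pow_dvd_finrank_of_mem (q : ℕ)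
    (locField (q : ℕ) L) (PadicAlgCl (q : ℕ)) p a
  refine ⟨m₀, fun k hk L' _ _ h hc => ?_⟩
  have hcard := card_ker_lRes h q
  have hfd : FiniteDimensional (locField (q : ℕ) L)
      (IntermediateField.extendScalars (locField_mono (q : ℕ) h)) := by
    apply FiniteDimensional.of_finrank_pos
    rw [← hcard]
    exact Nat.card_pos
  rw [hcard]
  refine hm₀ k hk (IntermediateField.extendScalars (locField_mono (q : ℕ) h))
    (padicEmbedding (q : ℕ) (zetaQb p k)) (padicEmbedding_zetaQb_spec p k (q : ℕ)) ?_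
  rw [IntermediateField.mem_extendScalars]
  exact locField_mono (q : ℕ) hc
    (padicEmbedding_mem_locField (q : ℕ) (cycLayer p k) (zetaL p k))

/-- **Local degree growth, all places above `T`**: for `k ≥ k₀(L,T,p,a)` and EVERY layer `L' ⊇ L`
containing `ℚ(ζ_{p^(k+1)})`, EVERY `V ≤ G_L` and every place: `p ^ a ∣ |D'_{q,s'}|`. -/
theorem exists_pow_dvd_card_locSub (T : Finset Nat.Primes) (a : ℕ) :
    ∃ k₀ : ℕ, ∀ k, k₀ ≤ k → ∀ (L' : IntermediateField ℚ Qb) [FiniteDimensional ℚ L']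
      [IsGalois ℚ L'] (h : L ≤ L'), cycLayer p k ≤ L' →
      ∀ (V : Subgroup (L ≃ₐ[ℚ] L)) (q : T) (s' : L' ≃ₐ[ℚ] L'),
        p ^ a ∣ Nat.card (locSub L' (V.comap (gRes h)) q s') := by
  choose m₀ hm₀ using fun q : Nat.Primes => exists_pow_dvd_card_ker_lRes L p q a
  refine ⟨T.sup m₀, fun k hk L' _ _ h hc V q s' => ?_⟩
  have hq : m₀ (q : Nat.Primes) ≤ k := (Finset.le_sup q.2).trans hk
  exact (hm₀ (q : Nat.Primes) k hq L' h hc).trans
    (card_ker_lRes_dvd_card_locSub h (q : Nat.Primes) V s')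

/-- **(J-DIV), existence form**: for `k ≥ k₀(L,T,p,a)`, every layer `L' ⊇ L · ℚ(ζ_{p^(k+1)})` and
every `V ≤ G_L`: the inflation to `L'` of a `p ^ a`-torsion class of `H²(V, J(L,T))` is divisible
by `p`. -/
theorem exists_level_jdiv (T : Finset Nat.Primes) (a : ℕ) :
    ∃ k₀ : ℕ, ∀ k, k₀ ≤ k → ∀ (L' : IntermediateField ℚ Qb) [FiniteDimensional ℚ L']
      [IsGalois ℚ L'] (h : L ≤ L'), cycLayer p k ≤ L' →
      ∀ (V : Subgroup (L ≃ₐ[ℚ] L))
        (x : groupCohomology (Rep.res V.subtype (J L T)) 2), p ^ a • x = 0 →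
        ∃ x₁ : groupCohomology (Rep.res (V.comap (gRes h)).subtype (J L' T)) 2,
          (inflJCoh h T V 2).hom x = p • x₁ := by
  obtain ⟨k₀, hk₀⟩ := exists_pow_dvd_card_locSub L p T (a + 1)
  refine ⟨k₀, fun k hk L' _ _ h hc V x hx => ?_⟩
  exact jdiv h T V (Fact.out : p.Prime) (fun q s => hk₀ k hk L' h hc V q (rep s)) x hx

end Grow

section Dict

variable {L L' : IntermediateField ℚ Qb} [FiniteDimensional ℚ L] [IsGalois ℚ L]
  [FiniteDimensional ℚ L'] [IsGalois ℚ L'] (h : L ≤ L') (T : Finset Nat.Primes)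
  (V : Subgroup (L ≃ₐ[ℚ] L))

/-- The restriction `V' → V` used in `inflJCoh` is helper14's `resV`. -/
theorem subgroupComap_gRes_eq_resV : (gRes h).subgroupComap V = resV h V := rfl

/-- `inflJCoh` in helper14's `StageIso` language (same shape as `stageTrans`). -/
theorem inflJCoh_eq_map_resV (n : ℕ) :
    inflJCoh h T V n = groupCohomology.map (resV h V) (inflJHom h T V) n := rfl

end Dict

end Fermat.Agent.GC.Global.Mackey
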