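/-
GATE-C / C4 (GL-2), helper97: EXACTNESS OF INVARIANTS.

`G` a group, `S ≤ G` normal, `X : 0 → X₁ → X₂ → X₃ → 0` short exact in `Rep k G`.  If
`H¹(S, X₁) = 0` then the sequence of `S`-invariants
`0 → X₁^S → X₂^S → X₃^S → 0` is short exact in `Rep k (G ⧸ S)`
(`X.map (Rep.quotientToInvariantsFunctor k S)`).  Without any hypothesis it is left exact.

Application: `X = Res_V (classShortComplex L T)`, `S = U'`: `C(L,T)^{U'} = J(L,T)^{U'} / E(L,T)^{U'}`
as `V/U'`-modules as soon as `H¹(U', E(L,T)) = 0` (good `T`).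
-/
import Mathlib
import Fermat.Agent.GC.Tate.InfRes2

set_option autoImplicit false

open CategoryTheory groupCohomology Rep

universe u

namespace Fermat.Agent.GC.Global.InvExact

variable {k G : Type u} [CommRing k] [Group G]

/-- A short complex of representations is short exact as soon as it is so on underlying sets. -/
theorem shortExact_of_functions (X : ShortComplex (Rep.{u} k G))
    (hf : Function.Injective X.f.hom) (hg : Function.Surjective X.g.hom)
    (hex : ∀ x, X.g.hom x = 0 → ∃ y, X.f.hom y = x) : X.ShortExact where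
  exact := (forget₂ (Rep.{u} k G) (ModuleCat.{u} k)).reflects_exact_of_faithful _ <|
    (ShortComplex.moduleCat_exact_iff _).2 hex
  mono_f := (Rep.mono_iff_injective _).2 hf
  epi_g := (Rep.epi_iff_surjective _).2 hg

/-- Underlying-set form of short exactness. -/
theorem functions_of_shortExact {X : ShortComplex (Rep.{u} k G)} (hX : X.ShortExact) :
    Function.Injective X.f.hom ∧ Function.Surjective X.g.hom ∧
      ∀ x, X.g.hom x = 0 → ∃ y, X.f.hom y = x := by
  refine ⟨(Rep.mono_iff_injective X.f).1 hX.mono_f, (Rep.epi_iff_surjective X.g).1 hX.epi_g, ?_⟩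
  intro y hy
  have := (hX.exact.map (forget₂ (Rep.{u} k G) (ModuleCat.{u} k))).moduleCat_range_eq_ker
  have hy' : y ∈ LinearMap.ker (ModuleCat.Hom.hom
      (X.map (forget₂ (Rep.{u} k G) (ModuleCat.{u} k))).g) := hy
  rw [← this] at hy'
  exact hy'

variable (S : Subgroup G) [S.Normal]

/-- The functor of `S`-invariants preserves zero morphisms. -/
instance quotientToInvariantsFunctor_preservesZero :
    (quotientToInvariantsFunctor k S : Rep.{u} k G ⥤ Rep.{u} k (G ⧸ S)).PreservesZeroMorphisms where
  map_zero A B := by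
    ext x
    rfl

/-- The value of `quotientToInvariantsFunctor` on a morphism, elementwise. -/
theorem quotientToInvariantsFunctor_map_apply {A B : Rep.{u} k G} (f : A ⟶ B)
    (x : A.quotientToInvariants S) :
    ((((quotientToInvariantsFunctor k S).map f).hom x).1 : B) = f.hom (x.1 : A) := rfl

/-- **Exactness of invariants.**  If `H¹(S, X₁) = 0` (cocycle form), the functor of `S`-invariants
(with values in `Rep k (G ⧸ S)`) preserves the short exact sequence `X`. -/
theorem shortExact_map_quotientToInvariants_of_h1Vanishes {X : ShortComplex (Rep.{u} k G)}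
    (hX : X.ShortExact) (h1 : Fermat.Agent.GC.Tate.InfRes2.H1Vanishes X.X₁ S) :
    (X.map (quotientToInvariantsFunctor k S)).ShortExact := by
  obtain ⟨hinj, hsurj, hex⟩ := functions_of_shortExact hX
  have hcomm₁ : ∀ (g : G) (x : X.X₁), X.f.hom (X.X₁.ρ g x) = X.X₂.ρ g (X.f.hom x) :=
    fun g x => hom_comm_apply X.f g x
  have hcomm₂ : ∀ (g : G) (x : X.X₂), X.g.hom (X.X₂.ρ g x) = X.X₃.ρ g (X.g.hom x) :=
    fun g x => hom_comm_apply X.g g x
  refine shortExact_of_functions _ ?_ ?_ ?_
  · -- injectivity
    intro x y hxy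
    change X.X₁.quotientToInvariants S at x y
    apply Subtype.ext
    apply hinj
    exact congrArg Subtype.val hxy
  · -- surjectivity: uses `H¹(S, X₁) = 0`
    intro z
    change X.X₃.quotientToInvariants S at z
    obtain ⟨y, hy⟩ := hsurj (z : X.X₃)
    have hz : ∀ s ∈ S, X.X₃.ρ s (z : X.X₃) = (z : X.X₃) := fun s hs => z.2 ⟨s, hs⟩
    -- the cocycle `s ↦ s y - y` takes values in the image of `X₁`
    have hker : ∀ g : G, g ∈ S → X.g.hom (X.X₂.ρ g y - y) = 0 := by
      intro g hg
      rw [map_sub, hcomm₂, hy, hz g hg, sub_self]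
    classical
    have hb : ∀ g : G, ∃ b : X.X₁, g ∈ S → X.f.hom b = X.X₂.ρ g y - y := by
      intro g
      by_cases hg : g ∈ S
      · obtain ⟨b, hb⟩ := hex _ (hker g hg)
        exact ⟨b, fun _ => hb⟩
      · exact ⟨0, fun h => absurd h hg⟩
    choose b hb using hb
    have hcoc : ∀ s ∈ S, ∀ t ∈ S, b (s * t) = X.X₁.ρ s (b t) + b s := by
      intro s hs t ht
      apply hinj
      rw [hb _ (S.mul_mem hs ht), map_add, hcomm₁, hb t ht, hb s hs, map_mul, map_sub]
      simp only [Module.End.mul_apply]
      abel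
    obtain ⟨a, ha⟩ := h1 b hcoc
    have hinv : ∀ s : S, (X.X₂.ρ.comp S.subtype) s (y - X.f.hom a) = y - X.f.hom a := by
      intro s
      have h2 := hb s.1 s.2
      rw [ha s.1 s.2, map_sub, hcomm₁] at h2
      show X.X₂.ρ s.1 (y - X.f.hom a) = y - X.f.hom a
      rw [map_sub]
      have h3 : X.X₂.ρ s.1 y = X.X₂.ρ s.1 (X.f.hom a) - X.f.hom a + y := by
        rw [h2]; abel
      rw [h3]; abel
    refine ⟨⟨y - X.f.hom a, hinv⟩, ?_⟩
    apply Subtype.ext
    show X.g.hom (y - X.f.hom a) = (z : X.X₃)
    rw [map_sub, hy]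
    have : X.g.hom (X.f.hom a) = 0 := by
      have := X.zero
      exact congr($(this).hom a)
    rw [this, sub_zero]
  · -- exactness in the middle
    intro y hy
    change X.X₂.quotientToInvariants S at y
    have hy' : X.g.hom (y : X.X₂) = 0 := congrArg Subtype.val hy
    obtain ⟨x, hx⟩ := hex _ hy'
    have hxinv : ∀ s : S, (X.X₁.ρ.comp S.subtype) s x = x := by
      intro s
      apply hinj
      show X.f.hom (X.X₁.ρ s.1 x) = X.f.hom x
      rw [hcomm₁, hx]
      exact y.2 s
    refine ⟨⟨x, hxinv⟩, ?_⟩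
    apply Subtype.ext
    exact hx

/-- **Exactness of invariants**, Mathlib form of the hypothesis: `H¹(S, X₁) = 0`. -/
theorem shortExact_map_quotientToInvariants {X : ShortComplex (Rep.{u} k G)}
    (hX : X.ShortExact) (h1 : Limits.IsZero (groupCohomology (res S.subtype X.X₁) 1)) :
    (X.map (quotientToInvariantsFunctor k S)).ShortExact :=
  shortExact_map_quotientToInvariants_of_h1Vanishes S hX
    (Fermat.Agent.GC.Tate.InfRes2.h1Vanishes_of_isZero X.X₁ S h1)

/-- **Layer form.**  `X` short exact in `Rep k G`, `V ≤ G`, `U' ◁ V` with `H¹(U', X₁) = 0`: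
the sequence of `V ⧸ U'`-modules `0 → X₁^{U'} → X₂^{U'} → X₃^{U'} → 0` is short exact. -/
theorem shortExact_layer {X : ShortComplex (Rep.{u} k G)} (hX : X.ShortExact) (V : Subgroup G)
    (U' : Subgroup V) [U'.Normal]
    (h1 : Limits.IsZero (groupCohomology (res U'.subtype (res V.subtype X.X₁)) 1)) :
    ((X.map (resFunctor V.subtype)).map (quotientToInvariantsFunctor k U')).ShortExact :=
  shortExact_map_quotientToInvariants U' ((shortExact_res V.subtype).2 hX) h1

/-- The objects of the layer sequence are the expected ones (definitional unfolding). -/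
theorem layer_X₃ (X : ShortComplex (Rep.{u} k G)) (V : Subgroup G) (U' : Subgroup V) [U'.Normal] :
    ((X.map (resFunctor V.subtype)).map (quotientToInvariantsFunctor k U')).X₃ =
      (res V.subtype X.X₃).quotientToInvariants U' := rfl

theorem layer_X₂ (X : ShortComplex (Rep.{u} k G)) (V : Subgroup G) (U' : Subgroup V) [U'.Normal] :
    ((X.map (resFunctor V.subtype)).map (quotientToInvariantsFunctor k U')).X₂ =
      (res V.subtype X.X₂).quotientToInvariants U' := rfl

theorem layer_X₁ (X : ShortComplex (Rep.{u} k G)) (V : Subgroup G) (U' : Subgroup V) [U'.Normal] :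
    ((X.map (resFunctor V.subtype)).map (quotientToInvariantsFunctor k U')).X₁ =
      (res V.subtype X.X₁).quotientToInvariants U' := rfl

end Fermat.Agent.GC.Global.InvExact
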