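/-
GATE-C / C4 MACKEY-INV (Q4), helper97: invariants commute with products.

For a normal subgroup `S ≤ G` and a family `M : ι → Rep k G`:
`(piRep M).quotientToInvariants S ≅ piRep (fun i => (M i).quotientToInvariants S)` in `Rep k (G ⧸ S)`,
hence (for finite `ι`) `Hⁿ(G ⧸ S, (∏ M i)^S) ≃ ∏ Hⁿ(G ⧸ S, (M i)^S)` and the cardinality formula.
`piRep`, `cohomologyPiEquiv` are helper72's (`GC/Global/Mackey.lean`).
-/
import Mathlib
import Fermat.Agent.GC.Global.Mackey

set_option autoImplicit false

open CategoryTheory

universe u

namespace Fermat.Agent.GC.Global.InvPi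

open Fermat.Agent.GC.Global.Mackey

variable {k G : Type u} [CommRing k] [Group G] {ι : Type u} (M : ι → Rep.{u} k G)
  (S : Subgroup G) [S.Normal]

/-- The underlying linear equivalence of `invPiIso`. -/
noncomputable def invPiLinearEquiv :
    ((piRep M).quotientToInvariants S) ≃ₗ[k] (piRep fun i => (M i).quotientToInvariants S) where
  toFun x := fun i => ⟨x.1 i, fun s => congrFun (x.2 s) i⟩
  map_add' x y := by funext i; rfl
  map_smul' c x := by funext i; rfl
  invFun y := ⟨fun i => (y i).1, fun s => funext fun i => (y i).2 s⟩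
  left_inv x := by apply Subtype.ext; rfl
  right_inv y := by funext i; rfl

@[simp] lemma invPiLinearEquiv_apply (x : (piRep M).quotientToInvariants S) (i : ι) :
    ((invPiLinearEquiv M S x i : (M i).quotientToInvariants S) : M i) = x.1 i := rfl

/-- **Invariants commute with products**, in `Rep k (G ⧸ S)`. -/
noncomputable def invPiIso :
    (piRep M).quotientToInvariants S ≅ piRep (fun i => (M i).quotientToInvariants S) :=
  Rep.mkIso (Representation.Equiv.mk (invPiLinearEquiv M S) fun g => by
    induction g using QuotientGroup.induction_on with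
    | H g =>
      ext x i
      rfl)

lemma invPiIso_hom_apply (x : (piRep M).quotientToInvariants S) (i : ι) :
    ((((invPiIso M S).hom.hom x : piRep fun i => (M i).quotientToInvariants S) i :
      (M i).quotientToInvariants S) : M i) = x.1 i := rfl

section Cohomology

variable [Finite ι] (n : ℕ)

/-- `Hⁿ(G ⧸ S, (∏ M i)^S) ≃ ∏ Hⁿ(G ⧸ S, (M i)^S)`. -/
noncomputable def invPiCohomologyEquiv :
    groupCohomology ((piRep M).quotientToInvariants S) n ≃ₗ[k]
      ∀ i, groupCohomology ((M i).quotientToInvariants S) n :=
  ((groupCohomology.functor k (G ⧸ S) n).mapIso (invPiIso M S)).toLinearEquiv.trans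
    (cohomologyPiEquiv n fun i => (M i).quotientToInvariants S)

/-- Cardinality form. -/
theorem card_invPi [Fintype ι] :
    Nat.card (groupCohomology ((piRep M).quotientToInvariants S) n) =
      ∏ i, Nat.card (groupCohomology ((M i).quotientToInvariants S) n) := by
  rw [Nat.card_congr (invPiCohomologyEquiv M S n).toEquiv, Nat.card_pi]

/-- Vanishing form. -/
theorem isZero_invPi (h : ∀ i, Limits.IsZero (groupCohomology ((M i).quotientToInvariants S) n)) :
    Limits.IsZero (groupCohomology ((piRep M).quotientToInvariants S) n) := by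
  have : ∀ i, Subsingleton (groupCohomology ((M i).quotientToInvariants S) n) :=
    fun i => ModuleCat.subsingleton_of_isZero (h i)
  have : Subsingleton (groupCohomology ((piRep M).quotientToInvariants S) n) :=
    (invPiCohomologyEquiv M S n).toEquiv.subsingleton
  exact ModuleCat.isZero_of_subsingleton _

end Cohomology

section Layer

variable (V : Subgroup G) (U' : Subgroup V) [U'.Normal] [Finite ι] (n : ℕ)

/-- Layer form: `Hⁿ(V ⧸ U', (Res_V ∏ M i)^{U'}) ≃ ∏ Hⁿ(V ⧸ U', (Res_V M i)^{U'})`. -/
noncomputable def layerPiCohomologyEquiv :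
    groupCohomology ((Rep.res V.subtype (piRep M)).quotientToInvariants U') n ≃ₗ[k]
      ∀ i, groupCohomology ((Rep.res V.subtype (M i)).quotientToInvariants U') n :=
  invPiCohomologyEquiv (fun i => Rep.res V.subtype (M i)) U' n

theorem card_layerPi [Fintype ι] :
    Nat.card (groupCohomology ((Rep.res V.subtype (piRep M)).quotientToInvariants U') n) =
      ∏ i, Nat.card (groupCohomology ((Rep.res V.subtype (M i)).quotientToInvariants U') n) :=
  card_invPi (fun i => Rep.res V.subtype (M i)) U' n

theorem isZero_layerPi
    (h : ∀ i, Limits.IsZero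
      (groupCohomology ((Rep.res V.subtype (M i)).quotientToInvariants U') n)) :
    Limits.IsZero (groupCohomology ((Rep.res V.subtype (piRep M)).quotientToInvariants U') n) :=
  isZero_invPi (fun i => Rep.res V.subtype (M i)) U' n h

/-- If every factor has `|Hⁿ| = p ^ a i`, the product has `|Hⁿ| = p ^ ∑ a i`. -/
theorem card_layerPi_pow [Fintype ι] (p : ℕ) (a : ι → ℕ)
    (h : ∀ i, Nat.card
      (groupCohomology ((Rep.res V.subtype (M i)).quotientToInvariants U') n) = p ^ a i) :
    Nat.card (groupCohomology ((Rep.res V.subtype (piRep M)).quotientToInvariants U') n) =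
      p ^ ∑ i, a i := by
  rw [card_layerPi, Finset.prod_congr rfl fun i _ => h i, Finset.prod_pow_eq_pow_sum]

end Layer

end Fermat.Agent.GC.Global.InvPi
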