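/-
GATE-C / C4 MACKEY-INV (Q4) for the idele module, helper97: the layer cohomology of
`J L T = ∏_{q ∈ T} Jq q L` is the product of the layer cohomologies of the `Jq q L`.
-/
import Mathlib
import Fermat.Agent.GC.Global.InvPi
import Fermat.Agent.GC.Global.ClassModule

set_option autoImplicit false

open CategoryTheory

namespace Fermat.Agent.GC.Global.InvPi

open Fermat.Agent.GC.Global Fermat.Agent.GC.Global.Mackey

variable (L : IntermediateField ℚ Qb) [Normal ℚ L] (T : Finset Nat.Primes)
  (V : Subgroup (L ≃ₐ[ℚ] L)) (U' : Subgroup V) [U'.Normal] (n : ℕ)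

/-- `J L T` is helper72's product of the coinduced modules `Jq q L` (definitional). -/
theorem J_eq_piRep :
    J L T = Mackey.piRep (fun q : T => Jq (q : ℕ) L) := rfl

/-- `Hⁿ(V ⧸ U', J(L,T)^{U'}) ≃ ∏_{q ∈ T} Hⁿ(V ⧸ U', Jq(L)^{U'})` (as a bijection; the `ℤ`-linear
version is `layerPiCohomologyEquiv (fun q : T => Jq q L) V U' n`, stated for `Mackey.piRep`). -/
noncomputable def layerJCohomologyEquiv :
    groupCohomology ((Rep.res V.subtype (J L T)).quotientToInvariants U') n ≃
      ∀ q : T, groupCohomology ((Rep.res V.subtype (Jq (q : ℕ) L)).quotientToInvariants U') n :=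
  (layerPiCohomologyEquiv (fun q : T => Jq (q : ℕ) L) V U' n).toEquiv

theorem card_layerJ :
    Nat.card (groupCohomology ((Rep.res V.subtype (J L T)).quotientToInvariants U') n) =
      ∏ q : T, Nat.card
        (groupCohomology ((Rep.res V.subtype (Jq (q : ℕ) L)).quotientToInvariants U') n) :=
  card_layerPi (fun q : T => Jq (q : ℕ) L) V U' n

theorem isZero_layerJ
    (h : ∀ q : T, Limits.IsZero
      (groupCohomology ((Rep.res V.subtype (Jq (q : ℕ) L)).quotientToInvariants U') n)) :
    Limits.IsZero (groupCohomology ((Rep.res V.subtype (J L T)).quotientToInvariants U') n) :=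
  isZero_layerPi (fun q : T => Jq (q : ℕ) L) V U' n h

theorem card_layerJ_pow (p : ℕ) (a : T → ℕ)
    (h : ∀ q : T, Nat.card
      (groupCohomology ((Rep.res V.subtype (Jq (q : ℕ) L)).quotientToInvariants U') n) =
        p ^ a q) :
    Nat.card (groupCohomology ((Rep.res V.subtype (J L T)).quotientToInvariants U') n) =
      p ^ ∑ q : T, a q :=
  card_layerPi_pow (fun q : T => Jq (q : ℕ) L) V U' n p a h

end Fermat.Agent.GC.Global.InvPi
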