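/-
GATE-C / C4→C5 KUMMER-BRIDGE (helper77), part 5: **final assembly**.

For `K ⊂ ℚ̄` finite, unramified outside `S ∋ p`, `p` odd, `ζ_p ∈ K`:
`EJDHyp (levelK S K) p (ideleSK S K)` (C4: `[A]`, (LM-J), `[B']`) together with
`|Hlc²(G_{K,S}, D_S)[p]| = p` gives helper19's package `KummerK S K p`
(`fin1`, `fin2`, `h3`, `cokK`, `c1K` of `BaseInputsK`), hence `KummerAll S p`.

Inputs consumed: helper78 `hHasse_of_EJDHyp`, helper69 `CoarseJS.exists_JSK_two_of_pow_nsmul`,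
helper51 `card_hlc_zero_sUnitsK_quot` + `finrank_eq_two_mul_nrComplexPlaces`, helper11
`card_primesAbove_eq_sum`.
-/
import Fermat.Agent.GC.Global.KummerBridgeNa
import Fermat.Agent.GC.Kummer.HlcHasse
import Fermat.Agent.GC.Kummer.H0Count
import Fermat.Agent.GC.Kummer.R2Count
import Fermat.Agent.GC.Places.CoarseJS
import Fermat.Agent.GC.Places.PlaceCount
import Fermat.Agent.GC.Places.NaCoeffQ
import Fermat.Agent.GC.PT.BaseInputsKOfKummer
import Fermat.Agent.GC.Global.Limit.EJDModel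

set_option autoImplicit false

open CategoryTheory

noncomputable section

namespace Fermat.Agent.GC.KBInst

open Fermat.Agent.GC.Global.KummerBridge
open Fermat.Agent.GC.Prof Fermat.Agent.GC.KumH Fermat.Agent.GC.Places Fermat.Agent.GC.Local.Abs
  Fermat.Agent.GC.C0 Fermat.Agent.GC.Local.KR

local notation "Qb" => AlgebraicClosure ℚ
local notation "GQ" => (AlgebraicClosure ℚ ≃ₐ[ℚ] AlgebraicClosure ℚ)

attribute [local instance] Fermat.Agent.GC.Places.fact_prime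

section Final

variable (S : Finset Nat.Primes) (K : IntermediateField ℚ Qb) [FiniteDimensional ℚ K]
  {p : ℕ} [Fact p.Prime] {ζ : Qbˣ} (hζ : IsPrimitiveRoot ζ p) (hζS : ζ ∈ sUnitsQS S)
  (hζK : ((ζ : Qbˣ) : Qb) ∈ K)

/-- **`hLJ` is a theorem** (helper69 `CoarseJS`, helper71 (D)-INST, helper26 (D)-SURJ). -/
theorem ljHyp (hK : K.IsUnramifiedOutside S) (hpS : (⟨p, Fact.out⟩ : Nat.Primes) ∈ S) :
    LJHyp S K p := by
  intro b hb
  obtain ⟨x, hx, hxb⟩ := Places.CoarseLoc.exists_JSK_two_of_pow_nsmul S K hK p hpS 1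
    (fun q w => b ⟨q, w⟩) (fun q w => by
      rw [pow_one, ← natCast_zsmul]
      exact hb ⟨q, w⟩)
  refine ⟨x, ?_, fun i => hxb i.1 i.2⟩
  rw [pow_one, ← natCast_zsmul] at hx
  exact hx

omit [Fact p.Prime] in
/-- **The Hasse principle hypothesis from `EJDHyp`** (helper78). -/
theorem hasseHyp_of_EJDHyp (hK : K.IsUnramifiedOutside S) (hS : S.Nonempty)
    (H : EJDHyp (levelK S K) p (ideleSK S K)) : HasseHyp S K p :=
  hHasse_of_EJDHyp S K hK hS H (famPrime S K) (famRep S K) (fun q w => ⟨⟨q, w⟩, rfl, rfl⟩)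

include hζ hζS hζK in
/-- **KUMMER-BRIDGE, final form**: helper19's `KummerK S K p` (= the global fields `fin1`, `fin2`,
`h3`, `cokK`, `c1K` of `BaseInputsK`) from C4's `EJDHyp` for `Res_{G_K}(O_S^× → J_S → D_S)` and
`|Hlc²(G_{K,S}, D_S)[p]| = p`. -/
theorem kummerK_of_EJDHyp (hK : K.IsUnramifiedOutside S)
    (hpS : (⟨p, Fact.out⟩ : Nat.Primes) ∈ S) (hp2 : p ≠ 2)
    (H : EJDHyp (levelK S K) p (ideleSK S K))
    (hD2 : Nat.card (torsC (p : ℤ) (Hlc (levelK S K) (ideleSK S K).X₃ 2)) = p)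
    [PT.BaseInstQ.InstDisc S K (PT.BaseInputsQ.trivK (ZMod p) K)] :
    PT.BaseInputsQ.KummerK S K p := by
  have hp : p.Prime := Fact.out
  have hS : S.Nonempty := ⟨_, hpS⟩
  haveI : NumberField K :=
    { to_charZero := inferInstance, to_finiteDimensional := inferInstance }
  have hX := ideleSK_shortExact S K hS
  have hHasse := hasseHyp_of_EJDHyp S K hK hS H
  have h0 := KumXF.card_hlc_zero_sUnitsK_quot hK hp hp2 hζ hζK
  have hr2 := KumXF.finrank_eq_two_mul_nrComplexPlaces (K := K) hp hp2 hζ hζK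
  have hcount : (Global.Adapter.primesAbove ↥K S).card = numPlaces S K :=
    PlaceCount.card_primesAbove_eq_sum S K
  obtain ⟨f1, -, -, hc1⟩ := hC1_K S K hζ hζS hζK hK hpS hHasse _ h0 (by
    rw [hr2, hcount]
    ring)
  have f2 := fin2_K S K hζ hζS hζK hK hpS hHasse
  have h3 := h3_K S K hζ hζS hζK hpS
    (fun x => by
      obtain ⟨x', hx'⟩ := H.e2_div hp hX x
      exact ⟨x', (int_smul_eq_zsmul _ (p : ℤ) x').symm.trans hx'⟩)
    (fun z hz => H.e3_tf hp hX z ((int_smul_eq_zsmul _ (p : ℤ) z).trans hz))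
  obtain ⟨-, hcok⟩ := cokK_K S K hζ hζS hζK hpS H (ljHyp S K hK hpS) hD2
  exact ⟨f1, f2, h3, hcok, hc1⟩

end Final

/-! ### All fields `K ∋ ζ_p` at once -/

section All

variable (S : Finset Nat.Primes) (p : ℕ) [Fact p.Prime]

/-- **`KummerAll S p` from C4**: if for every finite `K ⊂ ℚ̄` unramified outside `S` containing a
primitive `p`-th root of unity the package `EJDHyp` holds for `Res_{G_K}(O_S^× → J_S → D_S)` and
`|Hlc²(G_{K,S}, D_S)[p]| = p`, then helper19's `KummerAll S p` (the second input of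
`s55_of_NC_kummerAll`) holds. -/
theorem kummerAll_of_EJDHyp (hpS : (⟨p, Fact.out⟩ : Nat.Primes) ∈ S) (hp2 : p ≠ 2)
    (hE : ∀ (K : IntermediateField ℚ Qb) [FiniteDimensional ℚ K], K.IsUnramifiedOutside S →
      ∀ ζ : Qb, IsPrimitiveRoot ζ p → ζ ∈ K →
        EJDHyp (levelK S K) p (ideleSK S K) ∧
          Nat.card (torsC (p : ℤ) (Hlc (levelK S K) (ideleSK S K).X₃ 2)) = p) :
    PT.BaseInputsQ.KummerAll S p := by
  intro K _ _ _ hK hχK
  obtain ⟨ζ, hζ, hζK⟩ := PT.BaseInputsQ.exists_zeta_mem K p hχK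
  have hζ0 : ζ ≠ 0 := hζ.ne_zero (Fact.out : p.Prime).ne_zero
  have hζu : IsPrimitiveRoot (Units.mk0 ζ hζ0) p :=
    IsPrimitiveRoot.coe_units_iff.1 (by rw [Units.val_mk0]; exact hζ)
  have hζS : Units.mk0 ζ hζ0 ∈ sUnitsQS S :=
    mem_sUnitsQS_of_pow_eq_one Fact.out hpS _ hζu.pow_eq_one
  obtain ⟨H, hD2⟩ := hE K hK ζ hζ hζK
  exact kummerK_of_EJDHyp S K hζu hζS (by rw [Units.val_mk0]; exact hζK) hK hpS hp2 H hD2

open Fermat.Agent.GC.Global.Limit.EJDModel in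
/-- **`KummerAll S p` from the finite-level statements** `FinOnto`, `FinDiv`, `FinCyc` of helper12's
`EJDModel` at every `K ∋ ζ_p` (everything else — `[A]`, (LM-J), (D), Hasse, Dirichlet, local
numbers, place count — is discharged). -/
theorem kummerAll_of_fin (hpS : (⟨p, Fact.out⟩ : Nat.Primes) ∈ S) (hp2 : p ≠ 2)
    (hfin : ∀ (K : IntermediateField ℚ Qb) [FiniteDimensional ℚ K]
      (hK : K.IsUnramifiedOutside S) (hS : S.Nonempty),
      (∃ ζ : Qb, IsPrimitiveRoot ζ p ∧ ζ ∈ K) →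
        FinOnto hK hS Fact.out hpS ∧ FinDiv hK hS Fact.out hpS ∧ FinCyc hK hS Fact.out hpS) :
    PT.BaseInputsQ.KummerAll S p := by
  refine kummerAll_of_EJDHyp S p hpS hp2 fun K _ hK ζ hζ hζK => ?_
  have hS : S.Nonempty := ⟨_, hpS⟩
  obtain ⟨hOnto, hDiv, hCyc⟩ := hfin K hK hS ⟨ζ, hζ, hζK⟩
  exact ⟨ejdHyp_ideleSK Fact.out hp2 hpS hK hS hζ hζK
      (Places.CoarseLoc.hlc_one_JSK_eq_zero S K hK)
      (Places.CoarseLoc.hlc_three_JSK_eq_zero S K hK) hOnto hDiv,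
    hD2_ideleSK Fact.out hpS hK hS hCyc⟩

end All

end Fermat.Agent.GC.KBInst
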