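/-
GATE-C / C4→C5 KUMMER-BRIDGE (helper77), part 6: **`KummerAll S p` from the three finite-level
class statements** `ClsOnto`, `ClsDiv`, `ClsCyc` of helper12's `EJDModelCls` (for every finite
`K ⊂ ℚ̄` unramified outside `S` containing `ζ_p`).  With helper19's `s55_of_NC_kummerAll` this gives
S55 from (NC)_Q and these three statements.
-/
import Fermat.Agent.GC.Global.KummerBridgeFinal
import Fermat.Agent.GC.Global.Limit.EJDFinal

set_option autoImplicit false

open CategoryTheory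

noncomputable section

namespace Fermat.Agent.GC.KBInst

open Fermat.Agent.GC.Global.KummerBridge
open Fermat.Agent.GC.Prof Fermat.Agent.GC.KumH Fermat.Agent.GC.Places
open Fermat.Agent.GC.Global.Limit.EJDModel

local notation "Qb" => AlgebraicClosure ℚ

/-- **`KummerAll S p` from `ClsOnto`, `ClsDiv`, `ClsCyc`** at every finite `K ∋ ζ_p` unramified
outside `S ∋ p`, `p` odd. -/
theorem kummerAll_of_cls (S : Finset Nat.Primes) (p : ℕ) [Fact p.Prime]
    (hpS : (⟨p, Fact.out⟩ : Nat.Primes) ∈ S) (hp2 : p ≠ 2)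
    (hcls : ∀ (K : IntermediateField ℚ Qb) [FiniteDimensional ℚ K], K.IsUnramifiedOutside S →
      (∃ ζ : Qb, IsPrimitiveRoot ζ p ∧ ζ ∈ K) →
        ClsOnto S K p ∧ ClsDiv S K p ∧ ClsCyc S K p) :
    PT.BaseInputsQ.KummerAll S p := by
  refine kummerAll_of_EJDHyp S p hpS hp2 fun K _ hK ζ hζ hζK => ?_
  have hS : S.Nonempty := ⟨_, hpS⟩
  obtain ⟨hOnto, hDiv, hCyc⟩ := hcls K hK ⟨ζ, hζ, hζK⟩
  exact ⟨ejdHyp_ideleSK_final Fact.out hp2 hpS hK hS hζ hζK hOnto hDiv,
    hD2_ideleSK_cls Fact.out hpS hK hS hCyc⟩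

end Fermat.Agent.GC.KBInst
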