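/-
GATE-C / KUMMER-BRIDGE (helper77), part 7: the frozen S55 conclusion from `(NC)_ℚ` and the three
finite-level class statements, through `kummerAll_of_cls` and helper19's `s55_of_NC_kummerAll`
(a direct route, independent of the `KHyps` package).
-/
import Fermat.Agent.GC.Global.KummerBridgeCls
import Fermat.Agent.GC.C0.S55TwoInputs

set_option autoImplicit false

open CategoryTheory

noncomputable section

namespace Fermat.Agent.GC.KBInst

open Fermat.Agent.GC.Prof Fermat.Agent.GC.Prof.Cone Fermat.Agent.GC.PT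
  Fermat.Agent.GC.PT.LocDataQ Fermat.Agent.GC.Places Fermat.Agent.GC.C0
  Fermat.Agent.GC.Global.Limit.EJDModel ExtCitation groupCohomology

local notation "Qb" => AlgebraicClosure ℚ

variable {p : ℕ} [Fact p.Prime]

/-- **S55 (frozen statement shape)** from `(NC)_ℚ` and `ClsOnto ∧ ClsDiv ∧ ClsCyc` at every finite
`K ⊂ ℚ̄` unramified outside `S` containing a primitive `p`-th root of unity. -/
theorem s55_of_NC_cls_direct (hp2 : p ≠ 2) (S : Finset Nat.Primes) (hpS : pPrime p ∈ S)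
    (hNC : ∀ [IsDiscrete (levelS S) (TChi p)] (v : (locDataQ S).ι)
      (y : Hlc ((locDataQ S).𝒰v v) (Rep.res ((locDataQ S).r v) (TChi p)) 2)
      (x : Hlc (levelS S) (TChi p) 2),
      locRes (locDataQ S) (TChi p) 2 x = Pi.single v y → y = 0)
    (hcls : ∀ (K : IntermediateField ℚ Qb) [FiniteDimensional ℚ K], K.IsUnramifiedOutside S →
      (∃ ζ : Qb, IsPrimitiveRoot ζ p ∧ ζ ∈ K) →
        ClsOnto S K p ∧ ClsDiv S K p ∧ ClsCyc S K p)
    (M : Rep (ZMod p) (AlgebraicClosure ℚ ≃ₐ[ℚ] AlgebraicClosure ℚ))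
    [FiniteDimensional (ZMod p) M]
    (hsm : ∀ m : M, ∃ F : IntermediateField ℚ (AlgebraicClosure ℚ), FiniteDimensional ℚ F ∧
      ∀ s ∈ F.fixingSubgroup, M.ρ s m = m)
    (hMur : ∀ q : Nat.Primes, q ∉ S → ∀ A : ValuationSubring (AlgebraicClosure ℚ),
      A.LiesOverPrime (q : ℕ) → ∀ g ∈ A.inertiaSubgroupIn ℚ, M.ρ g = 1) :
    ∃ B : sha₁ S (M.dualTwist (cycloChar p)) →ₗ[ZMod p] sha₂ S M →ₗ[ZMod p] ZMod p,
      (∀ y, (∀ x, B y x = 0) → y = 0) ∧ (∀ x, (∀ y, B y x = 0) → x = 0) :=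
  s55_of_NC_kummerAll hp2 S hpS hNC (kummerAll_of_cls S p hpS hp2 hcls) M hsm hMur

end Fermat.Agent.GC.KBInst
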