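/-
GATE-C / C4 leaf MACKEY-LOC (helper72): EXPLICIT components of the Mackey–Shapiro isomorphism.

For `s : G` the localisation map
  `loc φ H A s n : Hⁿ(H, Res_H coind_φ A) ⟶ Hⁿ(D_s, A)`,   `D_s = dSub φ H s = φ⁻¹(s H s⁻¹)`,
is ONE Mathlib `groupCohomology.map`: restrict along `D_s → H`, `d ↦ s⁻¹ φ(d) s`, and evaluate
`f ↦ f s`.  The product of the `loc (rep q)` over the double cosets is bijective
(`locEquiv`), so compatibilities with restriction / inflation / coefficient maps reduce to
`groupCohomology.map_comp` + `map_congr`.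
-/
import Fermat.Agent.GC.Global.MackeyInv

set_option autoImplicit false
set_option linter.unusedSectionVars false

open CategoryTheory groupCohomology

universe u

namespace Fermat.Agent.GC.Global.Mackey

variable {k G D : Type u} [CommRing k] [Group G] [Group D]
  (φ : D →* G) (hφ : Function.Injective φ) (H : Subgroup G) (A : Rep.{u} k D)

/-- Evaluation at `s`, as a linear map. -/
noncomputable def evAtLin (s : G) : Representation.coindV φ A.ρ →ₗ[k] A where
  toFun f := f.1 s
  map_add' _ _ := rfl
  map_smul' _ _ := rfl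

@[simp] lemma evAtLin_apply (s : G) (f : Representation.coindV φ A.ρ) :
    evAtLin φ A s f = f.1 s := rfl

/-- Evaluation at `s`: `Res_{D_s → H} Res_H coind_φ A ⟶ Res_{D_s} A`, `f ↦ f s`. -/
noncomputable def evAt (s : G) :
    Rep.res (dToV φ H s) (Rep.res H.subtype (Rep.coind φ A)) ⟶
      Rep.res (dSub φ H s).subtype A :=
  Rep.ofHom ⟨evAtLin φ A s, fun d => by
    ext f
    show f.1 (s * (s⁻¹ * φ (d : D) * s)) = A.ρ (d : D) (f.1 s)
    rw [← f.2 (d : D) s]
    group⟩

@[simp] lemma evAt_hom_apply (s : G) (f : Representation.coindV φ A.ρ) :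
    (evAt φ H A s).hom f = f.1 s := rfl

/-- **The localisation map at `s`**: `Hⁿ(H, Res_H coind_φ A) ⟶ Hⁿ(D_s, A)`. -/
noncomputable def loc (s : G) (n : ℕ) :
    groupCohomology (Rep.res H.subtype (Rep.coind φ A)) n ⟶
      groupCohomology (Rep.res (dSub φ H s).subtype A) n :=
  map (dToV φ H s) (evAt φ H A s) n

/-- `D_s → H` composed with `conjSub ≃ D_s` is the inclusion of `conjSub` in `H`. -/
lemma dToV_comp_conjEquiv (s : G) :
    (dToV φ H s).comp (conjEquiv φ hφ H s).toMonoidHom = (conjSub φ H s).subtype := by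
  ext h
  show s⁻¹ * φ (conjHom φ hφ H s h) * s = ((h : H) : G)
  rw [apply_conjHom]
  group

/-- `loc` through the Mackey component, the explicit Shapiro map and `twistIso`. -/
theorem loc_comp_twistIso_inv (s : G) (n : ℕ) :
    loc φ H A s n ≫ (twistIso φ hφ H A s n).inv =
      map (MonoidHom.id H) (comp φ hφ H A s) n ≫
        Fermat.Agent.GC.Tate.shapiro (conjSub φ H s) (twist φ hφ H A s) n := by
  unfold loc twistIso Fermat.Agent.GC.Tate.shapiro
  rw [mapIso_inv, ← map_comp, ← map_comp]
  apply groupCohomology.map_congr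
  · rw [MonoidHom.id_comp]
    exact dToV_comp_conjEquiv φ hφ H s
  · ext f
    show f.1 s = f.1 (s * ((1 : H) : G))
    simp

theorem loc_eq (s : G) (n : ℕ) :
    loc φ H A s n =
      (map (MonoidHom.id H) (comp φ hφ H A s) n ≫
        Fermat.Agent.GC.Tate.shapiro (conjSub φ H s) (twist φ hφ H A s) n) ≫
        (twistIso φ hφ H A s n).hom := by
  rw [← loc_comp_twistIso_inv, Category.assoc, Iso.inv_hom_id, Category.comp_id]


section Product

variable [Finite (DC φ H)] (n : ℕ)

/-- The Mackey part of the decomposition on cohomology: `x ↦ (Hⁿ(comp (rep q)) x)_q`. -/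
noncomputable def mackeyPartEquiv :
    groupCohomology (Rep.res H.subtype (Rep.coind φ A)) n ≃ₗ[k]
      ∀ q : DC φ H, groupCohomology (localRep φ hφ H A (rep q)) n :=
  ((groupCohomology.functor k H n).mapIso (mackeyIso φ hφ H A)).toLinearEquiv.trans
    (cohomologyPiEquiv n fun q : DC φ H => localRep φ hφ H A (rep q))

lemma mackeyPartEquiv_apply (x : groupCohomology (Rep.res H.subtype (Rep.coind φ A)) n)
    (q : DC φ H) :
    mackeyPartEquiv φ hφ H A n x q =
      (map (MonoidHom.id H) (comp φ hφ H A (rep q)) n).hom x := by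
  have h1 : mackeyPartEquiv φ hφ H A n x q =
      (map (MonoidHom.id H) (piProj (fun q : DC φ H => localRep φ hφ H A (rep q)) q) n).hom
        ((map (MonoidHom.id H) (mackeyIso φ hφ H A).hom n).hom x) := rfl
  rw [h1, ← mackeyIso_hom_piProj, map_id_comp]
  rfl

/-- **Mackey + Shapiro with explicit components**: `x ↦ (loc (rep q) x)_q`. -/
noncomputable def locEquiv :
    groupCohomology (Rep.res H.subtype (Rep.coind φ A)) n ≃ₗ[k]
      ∀ q : DC φ H, groupCohomology (Rep.res (dSub φ H (rep q)).subtype A) n :=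
  (mackeyPartEquiv φ hφ H A n).trans (LinearEquiv.piCongrRight fun q =>
    (Fermat.Agent.GC.Tate.shapiroIso (conjSub φ H (rep q))
      (twist φ hφ H A (rep q)) n).toLinearEquiv.trans
      (twistIso φ hφ H A (rep q) n).toLinearEquiv)

theorem locEquiv_apply (x : groupCohomology (Rep.res H.subtype (Rep.coind φ A)) n)
    (q : DC φ H) :
    locEquiv φ hφ H A n x q = (loc φ H A (rep q) n).hom x := by
  have h1 : locEquiv φ hφ H A n x q =
      (twistIso φ hφ H A (rep q) n).hom.hom
        ((Fermat.Agent.GC.Tate.shapiro (conjSub φ H (rep q)) (twist φ hφ H A (rep q)) n).hom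
          (mackeyPartEquiv φ hφ H A n x q)) := rfl
  rw [h1, mackeyPartEquiv_apply, loc_eq φ hφ H A (rep q) n]
  rfl

include hφ in
/-- The family of localisation maps is jointly bijective. -/
theorem loc_pi_bijective :
    Function.Bijective (fun (x : groupCohomology (Rep.res H.subtype (Rep.coind φ A)) n)
      (q : DC φ H) => (loc φ H A (rep q) n).hom x) := by
  have h : (fun (x : groupCohomology (Rep.res H.subtype (Rep.coind φ A)) n)
      (q : DC φ H) => (loc φ H A (rep q) n).hom x) = locEquiv φ hφ H A n := by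
    funext x q
    exact (locEquiv_apply φ hφ H A n x q).symm
  rw [h]
  exact (locEquiv φ hφ H A n).bijective

end Product


/-! ### Naturality of `loc` under a morphism of Mackey data

`π : G' →* G`, `πD : D' →* D` with `φ ∘ πD = π ∘ φ'`, `π(H') ≤ H`, `α : Res_{πD} A ⟶ A'`.
Special cases: change of coefficients (`π = id`), restriction to a subgroup `H' ≤ H`
(`π = id`, `α = 𝟙`), inflation along a quotient map `π`. -/

section Naturality

variable {G' D' : Type u} [Group G'] [Group D'] (φ' : D' →* G') (H' : Subgroup G')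
  (A' : Rep.{u} k D') (π : G' →* G) (πD : D' →* D) (hπ : ∀ d', φ (πD d') = π (φ' d'))
  (hH : ∀ h' ∈ H', π h' ∈ H) (α : Rep.res πD A ⟶ A')

/-- `H' → H` induced by `π`. -/
def resHom : H' →* H :=
  (π.comp H'.subtype).codRestrict H (fun h' => hH (h' : G') h'.2)

@[simp] lemma coe_resHom (h' : H') : ((resHom H H' π hH h' : H) : G) = π (h' : G') := rfl

include hπ hH in
lemma map_mem_dSub (s' : G') {d' : D'} (hd : d' ∈ dSub φ' H' s') :
    πD d' ∈ dSub φ H (π s') := by
  rw [mem_dSub, hπ]
  have := hH _ (mem_dSub.1 hd)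
  simpa [map_mul, map_inv] using this

/-- `D'_{s'} → D_{π s'}` induced by `πD`. -/
def dSubMap (s' : G') : dSub φ' H' s' →* dSub φ H (π s') :=
  (πD.comp (dSub φ' H' s').subtype).codRestrict (dSub φ H (π s'))
    (fun d' => map_mem_dSub φ H φ' H' π πD hπ hH s' d'.2)

@[simp] lemma coe_dSubMap (s' : G') (d' : dSub φ' H' s') :
    ((dSubMap φ H φ' H' π πD hπ hH s' d' : dSub φ H (π s')) : D) = πD (d' : D') := rfl

/-- The pull-back of coinduced functions: `f ↦ (g' ↦ α (f (π g')))`. -/
noncomputable def coindPullLin :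
    Representation.coindV φ A.ρ →ₗ[k] Representation.coindV φ' A'.ρ where
  toFun f := ⟨fun g' => α.hom (f.1 (π g')), by
    intro d' g'
    show α.hom (f.1 (π (φ' d' * g'))) = A'.ρ d' (α.hom (f.1 (π g')))
    rw [map_mul, ← hπ, f.2 (πD d') (π g')]
    exact Rep.hom_comm_apply α d' (f.1 (π g'))⟩
  map_add' f g := by
    apply Subtype.ext
    funext g'
    show α.hom (f.1 (π g') + g.1 (π g')) = α.hom (f.1 (π g')) + α.hom (g.1 (π g'))
    exact map_add _ _ _
  map_smul' c f := by
    apply Subtype.ext
    funext g'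
    show α.hom (c • f.1 (π g')) = c • α.hom (f.1 (π g'))
    exact map_smul _ _ _

@[simp] lemma coindPullLin_apply (f : Representation.coindV φ A.ρ) (g' : G') :
    (coindPullLin φ A φ' A' π πD hπ α f).1 g' = α.hom (f.1 (π g')) := rfl

/-- The pull-back as a morphism `Res_{H' → H} Res_H coind_φ A ⟶ Res_{H'} coind_{φ'} A'`. -/
noncomputable def coindPull :
    Rep.res (resHom H H' π hH) (Rep.res H.subtype (Rep.coind φ A)) ⟶
      Rep.res H'.subtype (Rep.coind φ' A') :=
  Rep.ofHom ⟨coindPullLin φ A φ' A' π πD hπ α, fun h' => by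
    ext f g'
    show α.hom (f.1 (π g' * π (h' : G'))) = α.hom (f.1 (π (g' * (h' : G'))))
    rw [map_mul]⟩

/-- `α` restricted to the local subgroups. -/
noncomputable def alphaRes (s' : G') :
    Rep.res (dSubMap φ H φ' H' π πD hπ hH s') (Rep.res (dSub φ H (π s')).subtype A) ⟶
      Rep.res (dSub φ' H' s').subtype A' :=
  Rep.ofHom ⟨α.hom.toLinearMap, fun d' => by
    ext a
    exact Rep.hom_comm_apply α (d' : D') a⟩

/-- **Naturality of the localisation maps.** -/
theorem loc_naturality (s' : G') (n : ℕ) :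
    map (resHom H H' π hH) (coindPull φ H A φ' H' A' π πD hπ hH α) n ≫ loc φ' H' A' s' n =
      loc φ H A (π s') n ≫
        map (dSubMap φ H φ' H' π πD hπ hH s') (alphaRes φ H A φ' H' A' π πD hπ hH α s') n := by
  unfold loc
  rw [← map_comp, ← map_comp]
  apply groupCohomology.map_congr
  · ext d'
    show π (s'⁻¹ * φ' (d' : D') * s') = (π s')⁻¹ * φ (πD (d' : D')) * π s'
    rw [hπ, map_mul, map_mul, map_inv]
  · ext f
    rfl

end Naturality

end Fermat.Agent.GC.Global.Mackey
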