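/-
GATE-C / C4 leaf MACKEY-LOC part 2 (helper72): inner automorphisms act trivially on Mathlib's
`groupCohomology`, and the localisation maps `loc s` of `MackeyLoc.lean` for two representatives of
the same double coset differ by the evident conjugation isomorphism.
-/
import Fermat.Agent.GC.Global.MackeyLoc

set_option autoImplicit false
set_option linter.unusedSectionVars false

open CategoryTheory groupCohomology

universe u

namespace Fermat.Agent.GC.Global.Mackey

section Conj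

variable {k G : Type u} [CommRing k] [Group G] (g₀ : G)

/-- The inner automorphism `h ↦ g₀⁻¹ h g₀`. -/
abbrev cj : G →* G := (MulAut.conj g₀⁻¹).toMonoidHom

lemma cj_apply (h : G) : cj g₀ h = g₀⁻¹ * h * g₀ := by
  simp [cj]

/-- The action of `g₀` as a morphism `Res_{cj g₀} M ⟶ M`. -/
noncomputable def conjAct (M : Rep.{u} k G) : Rep.res (cj g₀) M ⟶ M :=
  Rep.ofHom ⟨M.ρ g₀, fun h => by
    ext m
    show M.ρ g₀ (M.ρ (cj g₀ h) m) = M.ρ h (M.ρ g₀ m)
    rw [cj_apply, ← Module.End.mul_apply, ← map_mul, ← Module.End.mul_apply, ← map_mul]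
    congr 2
    group⟩

@[simp] lemma conjAct_hom_apply (M : Rep.{u} k G) (m : M) : (conjAct g₀ M).hom m = M.ρ g₀ m := rfl

lemma conjAct_naturality {M N : Rep.{u} k G} (f : M ⟶ N) :
    (Rep.resFunctor (cj g₀)).map f ≫ conjAct g₀ N = conjAct g₀ M ≫ f := by
  ext m
  exact (Rep.hom_comm_apply f g₀ m).symm

/-- **Inner automorphisms act trivially on group cohomology.** -/
theorem map_conjAct_eq_id (M : Rep.{u} k G) (n : ℕ) :
    map (cj g₀) (conjAct g₀ M) n = 𝟙 (groupCohomology M n) := by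
  induction n generalizing M with
  | zero =>
    have h1 : Mono (shortComplexH0 M).f := inferInstance
    have hmono : Mono ((H0Iso M).hom ≫ (shortComplexH0 M).f) :=
      @mono_comp _ _ _ _ _ (H0Iso M).hom _ (shortComplexH0 M).f h1
    rw [← cancel_mono ((H0Iso M).hom ≫ (shortComplexH0 M).f), map_H0Iso_hom_f, Category.id_comp]
    congr 1
    ext x
    exact x.2 g₀
  | succ n ih =>
    have hX := Fermat.Agent.GC.Tate.envSES_shortExact M
    have hδ := Fermat.Agent.GC.Tate.δ_map_naturality (cj g₀) hX hX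
      (conjAct g₀ (Fermat.Agent.GC.Tate.envSES M).X₁) (conjAct g₀ (Fermat.Agent.GC.Tate.envSES M).X₂)
      (conjAct g₀ (Fermat.Agent.GC.Tate.envSES M).X₃)
      (conjAct_naturality g₀ _) (conjAct_naturality g₀ _) n (n + 1) rfl
    rw [ih, Category.id_comp] at hδ
    have hepi : Epi (δ hX n (n + 1) rfl) :=
      epi_δ_of_isZero hX n (Fermat.Agent.GC.Tate.isZero_groupCohomology_env M n)
    have h2 : δ hX n (n + 1) rfl ≫ map (cj g₀) (conjAct g₀ M) (n + 1) =
        δ hX n (n + 1) rfl ≫ 𝟙 _ := by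
      rw [Category.comp_id]
      exact hδ
    exact (@cancel_epi _ _ _ _ _ _ hepi _ _).1 h2

end Conj


section ChangeRep

variable {k G D : Type u} [CommRing k] [Group G] [Group D]
  (φ : D →* G) (hφ : Function.Injective φ) (H : Subgroup G) (A : Rep.{u} k D)
  (s : G) (d₀ : D) (h₀ : H)

lemma conj_mem_dSub {d : D} (hd : d ∈ dSub φ H (φ d₀ * s * (h₀ : G))) :
    d₀⁻¹ * d * d₀ ∈ dSub φ H s := by
  rw [mem_dSub] at hd ⊢
  have e : s⁻¹ * φ (d₀⁻¹ * d * d₀) * s =
      (h₀ : G) * ((φ d₀ * s * (h₀ : G))⁻¹ * φ d * (φ d₀ * s * (h₀ : G))) * (h₀ : G)⁻¹ := by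
    rw [map_mul, map_mul, map_inv]
    group
  rw [e]
  exact H.mul_mem (H.mul_mem h₀.2 hd) (H.inv_mem h₀.2)

lemma conj_mem_dSub' {d : D} (hd : d ∈ dSub φ H s) :
    d₀ * d * d₀⁻¹ ∈ dSub φ H (φ d₀ * s * (h₀ : G)) := by
  rw [mem_dSub] at hd ⊢
  have e : (φ d₀ * s * (h₀ : G))⁻¹ * φ (d₀ * d * d₀⁻¹) * (φ d₀ * s * (h₀ : G)) =
      (h₀ : G)⁻¹ * (s⁻¹ * φ d * s) * (h₀ : G) := by
    rw [map_mul, map_mul, map_inv]
    group
  rw [e]
  exact H.mul_mem (H.mul_mem (H.inv_mem h₀.2) hd) h₀.2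

/-- Conjugation by `d₀`: `D_{φ d₀ * s * h₀} ≃* D_s`, `d ↦ d₀⁻¹ d d₀`. -/
def dConjEquiv : dSub φ H (φ d₀ * s * (h₀ : G)) ≃* dSub φ H s where
  toFun d := ⟨d₀⁻¹ * (d : D) * d₀, conj_mem_dSub φ H s d₀ h₀ d.2⟩
  invFun d := ⟨d₀ * (d : D) * d₀⁻¹, conj_mem_dSub' φ H s d₀ h₀ d.2⟩
  left_inv d := by apply Subtype.ext; simp [mul_assoc]
  right_inv d := by apply Subtype.ext; simp [mul_assoc]
  map_mul' a b := by apply Subtype.ext; simp [mul_assoc]

@[simp] lemma coe_dConjEquiv (d : dSub φ H (φ d₀ * s * (h₀ : G))) :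
    ((dConjEquiv φ H s d₀ h₀ d : dSub φ H s) : D) = d₀⁻¹ * (d : D) * d₀ := rfl

/-- The action of `d₀`, as a morphism over `dConjEquiv`. -/
noncomputable def dConjAct :
    Rep.res (dConjEquiv φ H s d₀ h₀).toMonoidHom (Rep.res (dSub φ H s).subtype A) ⟶
      Rep.res (dSub φ H (φ d₀ * s * (h₀ : G))).subtype A :=
  Rep.ofHom ⟨A.ρ d₀, fun d => by
    ext a
    show A.ρ d₀ (A.ρ (d₀⁻¹ * (d : D) * d₀) a) = A.ρ (d : D) (A.ρ d₀ a)
    rw [← Module.End.mul_apply, ← map_mul, ← Module.End.mul_apply, ← map_mul]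
    congr 2
    group⟩

/-- The conjugation map `Hⁿ(D_s, A) ⟶ Hⁿ(D_{φ d₀ * s * h₀}, A)`. -/
noncomputable def dConjMap (n : ℕ) :
    groupCohomology (Rep.res (dSub φ H s).subtype A) n ⟶
      groupCohomology (Rep.res (dSub φ H (φ d₀ * s * (h₀ : G))).subtype A) n :=
  map (dConjEquiv φ H s d₀ h₀).toMonoidHom (dConjAct φ H A s d₀ h₀) n

/-- **Change of representative**: `loc (φ d₀ * s * h₀) = loc s ≫ (conjugation by d₀)`. -/
theorem loc_change_rep (n : ℕ) :
    loc φ H A (φ d₀ * s * (h₀ : G)) n = loc φ H A s n ≫ dConjMap φ H A s d₀ h₀ n := by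
  have h1 : loc φ H A (φ d₀ * s * (h₀ : G)) n =
      map ((cj h₀).comp ((dToV φ H s).comp (dConjEquiv φ H s d₀ h₀).toMonoidHom))
        ((Rep.resFunctor ((dToV φ H s).comp (dConjEquiv φ H s d₀ h₀).toMonoidHom)).map
            (conjAct h₀ (Rep.res H.subtype (Rep.coind φ A))) ≫
          ((Rep.resFunctor (dConjEquiv φ H s d₀ h₀).toMonoidHom).map (evAt φ H A s) ≫
            dConjAct φ H A s d₀ h₀)) n := by
    unfold loc
    apply groupCohomology.map_congr
    · ext d
      show (φ d₀ * s * (h₀ : G))⁻¹ * φ (d : D) * (φ d₀ * s * (h₀ : G)) =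
        ((cj h₀ (dToV φ H s (dConjEquiv φ H s d₀ h₀ d)) : H) : G)
      rw [cj_apply]
      push_cast
      rw [coe_dToV, coe_dConjEquiv, map_mul, map_mul, map_inv]
      group
    · ext f
      show f.1 (φ d₀ * s * (h₀ : G)) = A.ρ d₀ (f.1 (s * (h₀ : G)))
      rw [← f.2 d₀ (s * (h₀ : G)), mul_assoc]
  rw [h1, map_comp, map_conjAct_eq_id, Category.id_comp, map_comp]
  rfl

/-- The conjugation map is bijective. -/
theorem dConjMap_bijective (n : ℕ) : Function.Bijective (dConjMap φ H A s d₀ h₀ n).hom := by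
  let e' : (Rep.res (dSub φ H s).subtype A).V ≃ₗ[k]
      (Rep.res (dSub φ H (φ d₀ * s * (h₀ : G))).subtype A).V :=
    { toLinearMap := A.ρ d₀
      invFun := A.ρ d₀⁻¹
      left_inv := fun a => by
        show A.ρ d₀⁻¹ (A.ρ d₀ a) = a
        rw [← Module.End.mul_apply, ← map_mul, inv_mul_cancel, map_one]; rfl
      right_inv := fun a => by
        show A.ρ d₀ (A.ρ d₀⁻¹ a) = a
        rw [← Module.End.mul_apply, ← map_mul, mul_inv_cancel, map_one]; rfl }
  have he : ∀ g : dSub φ H s, e'.toLinearMap ∘ₗ (Rep.res (dSub φ H s).subtype A).ρ g =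
      (Rep.res (dSub φ H (φ d₀ * s * (h₀ : G))).subtype A).ρ
        ((dConjEquiv φ H s d₀ h₀).symm g) ∘ₗ e'.toLinearMap := by
    intro g
    ext a
    show A.ρ d₀ (A.ρ (g : D) a) = A.ρ (d₀ * (g : D) * d₀⁻¹) (A.ρ d₀ a)
    rw [← Module.End.mul_apply, ← map_mul, ← Module.End.mul_apply, ← map_mul]
    congr 2
    group
  have heq : dConjMap φ H A s d₀ h₀ n = (mapIso (dConjEquiv φ H s d₀ h₀).symm e' he n).hom := by
    unfold dConjMap
    rw [mapIso_hom]
    apply groupCohomology.map_congr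
    · rfl
    · rfl
  rw [heq]
  exact ConcreteCategory.bijective_of_isIso _

end ChangeRep


section AnySection

variable {k G D : Type u} [CommRing k] [Group G] [Group D]
  (φ : D →* G) (hφ : Function.Injective φ) (H : Subgroup G) (A : Rep.{u} k D)

/-- Two elements of the same double coset give localisation maps which differ by a bijection. -/
lemma exists_equiv_loc (s₂ s : G) (d₀ : D) (h₀ : H) (e : s₂ = φ d₀ * s * (h₀ : G)) (n : ℕ) :
    ∃ E : groupCohomology (Rep.res (dSub φ H s).subtype A) n ≃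
        groupCohomology (Rep.res (dSub φ H s₂).subtype A) n,
      ∀ x, (loc φ H A s₂ n).hom x = E ((loc φ H A s n).hom x) := by
  subst e
  refine ⟨Equiv.ofBijective _ (dConjMap_bijective φ H A s d₀ h₀ n), fun x => ?_⟩
  rw [loc_change_rep]
  rfl

lemma exists_equiv_loc_of_dc_eq {s₂ s : G} (h : dc φ H s₂ = dc φ H s) (n : ℕ) :
    ∃ E : groupCohomology (Rep.res (dSub φ H s).subtype A) n ≃
        groupCohomology (Rep.res (dSub φ H s₂).subtype A) n,
      ∀ x, (loc φ H A s₂ n).hom x = E ((loc φ H A s n).hom x) := by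
  obtain ⟨a, ⟨d₀, rfl⟩, b, hb, e⟩ := (DoubleCoset.eq φ.range H s s₂).1 h.symm
  exact exists_equiv_loc φ H A s₂ s d₀ ⟨b, hb⟩ e n

include hφ in
/-- **Mackey + Shapiro for an arbitrary system of representatives** `σ` of `φ(D) \ G / H`:
`x ↦ (loc (σ q) x)_q` is bijective. -/
theorem loc_pi_bijective_of_section [Finite (DC φ H)] (σ : DC φ H → G)
    (hσ : ∀ q, dc φ H (σ q) = q) (n : ℕ) :
    Function.Bijective (fun (x : groupCohomology (Rep.res H.subtype (Rep.coind φ A)) n)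
      (q : DC φ H) => (loc φ H A (σ q) n).hom x) := by
  have hE : ∀ q : DC φ H, ∃ E : groupCohomology (Rep.res (dSub φ H (rep q)).subtype A) n ≃
      groupCohomology (Rep.res (dSub φ H (σ q)).subtype A) n,
      ∀ x, (loc φ H A (σ q) n).hom x = E ((loc φ H A (rep q) n).hom x) := fun q =>
    exists_equiv_loc_of_dc_eq φ H A (by rw [hσ q, dc_rep]) n
  choose E hE using hE
  have h : (fun (x : groupCohomology (Rep.res H.subtype (Rep.coind φ A)) n)
      (q : DC φ H) => (loc φ H A (σ q) n).hom x) =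
      (Equiv.piCongrRight E) ∘ (fun x q => (loc φ H A (rep q) n).hom x) := by
    funext x q
    exact hE q x
  rw [h]
  exact (Equiv.piCongrRight E).bijective.comp (loc_pi_bijective φ hφ H A n)

end AnySection

end Fermat.Agent.GC.Global.Mackey
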