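/-
GATE-C / C4 leaf MACKEY-INV-LOC (helper72): EXPLICIT components of the quotient Mackey–Shapiro
isomorphism `quotMackeyShapiroEquiv` of `MackeyInv.lean`.

For `s : G` the localisation map
  `qloc φ V U' A s n : Hⁿ(V⧸U', (Res_V coind_φ A)^{U'}) ⟶ Hⁿ(D_s ⧸ ker ψ_s, (Res_{D_s} A)^{ker ψ_s})`
is ONE Mathlib `groupCohomology.map`: restrict along `kerLift ψ_s : D_s ⧸ ker ψ_s ↪ V ⧸ U'` and
evaluate `f ↦ f s`; and `quotMackeyShapiroEquiv x q = qloc (rep q) x`.
-/
import Fermat.Agent.GC.Global.MackeyInv

set_option autoImplicit false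
set_option linter.unusedSectionVars false

open CategoryTheory groupCohomology

universe u

namespace Fermat.Agent.GC.Global.Mackey

variable {k G D : Type u} [CommRing k] [Group G] [Group D]
  (φ : D →* G) (V : Subgroup G) (U' : Subgroup V) [U'.Normal] (A : Rep.{u} k D)

/-- The value at `s` of a `U'`-invariant element is `ker ψ_s`-invariant. -/
lemma InvMod.apply_mem_invariants (f : InvMod φ V U' A) (s : G) :
    f.1.1 s ∈ Representation.invariants
      ((Rep.res (dSub φ V s).subtype A).ρ.comp (dKer φ V U' s).subtype) := by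
  intro d
  have hd : dToV φ V s (d : dSub φ V s) ∈ U' := (mem_dKer φ V U').1 d.2
  have h1 := InvMod.apply_mul f s ⟨dToV φ V s (d : dSub φ V s), hd⟩
  have h2 := f.1.2 ((d : dSub φ V s) : D) s
  have e : φ ((d : dSub φ V s) : D) * s = s * ((dToV φ V s (d : dSub φ V s) : V) : G) := by
    rw [coe_dToV]; group
  show A.ρ ((d : dSub φ V s) : D) (f.1.1 s) = f.1.1 s
  rw [← h2, e]
  exact h1

/-- Evaluation at `s` on `U'`-invariants, with values in the `ker ψ_s`-invariants. -/
noncomputable def qevAtLin (s : G) :
    InvMod φ V U' A →ₗ[k] Representation.invariants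
      ((Rep.res (dSub φ V s).subtype A).ρ.comp (dKer φ V U' s).subtype) where
  toFun f := ⟨f.1.1 s, InvMod.apply_mem_invariants φ V U' A f s⟩
  map_add' _ _ := rfl
  map_smul' _ _ := rfl

/-- Evaluation at `s`, as a morphism over `kerLift ψ_s : D_s ⧸ ker ψ_s →* V ⧸ U'`. -/
noncomputable def qevAt (s : G) :
    Rep.res (QuotientGroup.kerLift (psi φ V U' s))
        ((Rep.res V.subtype (Rep.coind φ A)).quotientToInvariants U') ⟶
      (Rep.res (dSub φ V s).subtype A).quotientToInvariants (dKer φ V U' s) :=
  Rep.ofHom ⟨qevAtLin φ V U' A s, fun y => by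
    induction y using QuotientGroup.induction_on with
    | H d =>
      ext f
      show f.1.1 (s * (s⁻¹ * φ (d : D) * s)) = A.ρ (d : D) (f.1.1 s)
      rw [← f.1.2 (d : D) s]
      group⟩

/-- **The localisation map at `s`, quotient form.** -/
noncomputable def qloc (s : G) (n : ℕ) :
    groupCohomology ((Rep.res V.subtype (Rep.coind φ A)).quotientToInvariants U') n ⟶
      groupCohomology
        ((Rep.res (dSub φ V s).subtype A).quotientToInvariants (dKer φ V U' s)) n :=
  map (QuotientGroup.kerLift (psi φ V U' s)) (qevAt φ V U' A s) n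

/-- The Shapiro isomorphism for an arbitrary homomorphism, explicitly. -/
lemma coindCohomologyIso_hom {Q D' : Type u} [Group Q] [Group D'] (ψ : D' →* Q)
    (B : Rep.{u} k D') (n : ℕ) :
    (coindCohomologyIso ψ B n).hom =
      map (MonoidHom.id Q) (coindKerIso ψ B).hom n ≫
        map (QuotientGroup.kerLift ψ)
          (Fermat.Agent.GC.Tate.coindEvHom (QuotientGroup.kerLift ψ)
            (B.quotientToInvariants ψ.ker)) n := rfl

/-- `qloc` through the quotient Mackey component and Shapiro for `ψ_s`. -/
theorem qloc_eq (s : G) (n : ℕ) :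
    qloc φ V U' A s n =
      map (MonoidHom.id (V ⧸ U')) (quotComp φ V U' A s) n ≫
        (coindCohomologyIso (psi φ V U' s) (Rep.res (dSub φ V s).subtype A) n).hom := by
  rw [coindCohomologyIso_hom, ← map_comp, ← map_comp]
  unfold qloc
  apply groupCohomology.map_congr
  · rfl
  · ext f
    show f.1.1 s = f.1.1 (s * ((1 : V) : G))
    simp

theorem quotMackeyShapiroEquiv_apply [Finite (DC φ V)] (n : ℕ)
    (x : groupCohomology ((Rep.res V.subtype (Rep.coind φ A)).quotientToInvariants U') n)
    (q : DC φ V) :
    quotMackeyShapiroEquiv φ V U' A n x q = (qloc φ V U' A (rep q) n).hom x := by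
  have h1 : quotMackeyShapiroEquiv φ V U' A n x q =
      (coindCohomologyIso (psi φ V U' (rep q)) (Rep.res (dSub φ V (rep q)).subtype A) n).hom.hom
        ((map (MonoidHom.id (V ⧸ U'))
            (piProj (fun q : DC φ V => quotLocalRep φ V U' A (rep q)) q) n).hom
          ((map (MonoidHom.id (V ⧸ U')) (quotMackeyIso φ V U' A).hom n).hom x)) := rfl
  rw [h1, qloc_eq, ← quotMackeyIso_hom_piProj, map_id_comp]
  rfl


/-- **The `qloc (rep q)` are jointly bijective** (quotient Mackey–Shapiro, explicit form). -/
theorem qloc_pi_bijective [Finite (DC φ V)] (n : ℕ) :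
    Function.Bijective
      (fun (x : groupCohomology
          ((Rep.res V.subtype (Rep.coind φ A)).quotientToInvariants U') n)
        (q : DC φ V) => (qloc φ V U' A (rep q) n).hom x) := by
  have h := (quotMackeyShapiroEquiv φ V U' A n).bijective
  have e : (fun (x : groupCohomology
          ((Rep.res V.subtype (Rep.coind φ A)).quotientToInvariants U') n)
        (q : DC φ V) => (qloc φ V U' A (rep q) n).hom x) =
      fun x => quotMackeyShapiroEquiv φ V U' A n x := by
    funext x q
    exact (quotMackeyShapiroEquiv_apply φ V U' A n x q).symm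
  rw [e]
  exact h


section Pi

variable {ι : Type u} [Finite ι] {Dι : ι → Type u} [∀ i, Group (Dι i)]
  (φι : ∀ i, Dι i →* G) (Aι : ∀ i, Rep.{u} k (Dι i)) [∀ i, Finite (DC (φι i) V)]

/-- The projection `(∏_i Res_V coind A_i)^{U'} ⟶ (Res_V coind A_i)^{U'}`. -/
noncomputable def invProj (i : ι) :
    (Rep.res V.subtype (piRep fun i => Rep.coind (φι i) (Aι i))).quotientToInvariants U' ⟶
      (Rep.res V.subtype (Rep.coind (φι i) (Aι i))).quotientToInvariants U' :=
  (invPiIso U' fun i => Rep.res V.subtype (Rep.coind (φι i) (Aι i))).hom ≫ piProj _ i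

lemma invProj_hom_apply (i : ι)
    (x : (Rep.res V.subtype (piRep fun i => Rep.coind (φι i) (Aι i))).quotientToInvariants U') :
    (((invProj V U' φι Aι i).hom x : InvMod (φι i) V U' (Aι i)) :
      Representation.coindV (φι i) (Aι i).ρ) = x.1 i := rfl

lemma map_invProj (i : ι) (n : ℕ) :
    map (A := (Rep.res V.subtype
          (piRep fun i => Rep.coind (φι i) (Aι i))).quotientToInvariants U')
        (MonoidHom.id (V ⧸ U')) (invProj V U' φι Aι i) n =
      map (A := (Rep.res V.subtype
          (piRep fun i => Rep.coind (φι i) (Aι i))).quotientToInvariants U')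
          (MonoidHom.id (V ⧸ U'))
          (invPiIso U' fun i => Rep.res V.subtype (Rep.coind (φι i) (Aι i))).hom n ≫
        map (A := piRep fun i => (Rep.res V.subtype
            (Rep.coind (φι i) (Aι i))).quotientToInvariants U') (MonoidHom.id (V ⧸ U'))
          (piProj (fun i => (Rep.res V.subtype
            (Rep.coind (φι i) (Aι i))).quotientToInvariants U') i) n :=
  map_id_comp (invPiIso U' fun i => Rep.res V.subtype (Rep.coind (φι i) (Aι i))).hom
      (piProj (fun i => (Rep.res V.subtype
        (Rep.coind (φι i) (Aι i))).quotientToInvariants U') i) n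

/-- The components of `quotMackeyShapiroPiEquiv`: project to the `i`-th factor, then `qloc`. -/
theorem quotMackeyShapiroPiEquiv_apply (n : ℕ)
    (x : groupCohomology ((Rep.res V.subtype
      (piRep fun i => Rep.coind (φι i) (Aι i))).quotientToInvariants U') n)
    (i : ι) (q : DC (φι i) V) :
    quotMackeyShapiroPiEquiv V U' φι Aι n x i q =
      (qloc (φι i) V U' (Aι i) (rep q) n).hom
        ((map (A := (Rep.res V.subtype
          (piRep fun i => Rep.coind (φι i) (Aι i))).quotientToInvariants U')
          (MonoidHom.id (V ⧸ U')) (invProj V U' φι Aι i) n).hom x) := by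
  have h1 : quotMackeyShapiroPiEquiv V U' φι Aι n x i q =
      quotMackeyShapiroEquiv (φι i) V U' (Aι i) n
        ((map (MonoidHom.id (V ⧸ U'))
            (piProj (fun i => (Rep.res V.subtype
              (Rep.coind (φι i) (Aι i))).quotientToInvariants U') i) n).hom
          ((map (MonoidHom.id (V ⧸ U'))
            (invPiIso U' fun i => Rep.res V.subtype (Rep.coind (φι i) (Aι i))).hom n).hom x))
        q := rfl
  rw [h1, quotMackeyShapiroEquiv_apply, map_invProj]
  rfl

end Pi

end Fermat.Agent.GC.Global.Mackey
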